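import Fermat.Agent.Carayol.Comb

/-!
# Identities between partial sums over `GL₂(𝔽_q)`

A combination of values of a function invariant on the right under a subgroup and on the left
under the elements congruent to one modulo a line which is a multiple of the value at `1`.
-/

set_option autoImplicit false

noncomputable section

namespace Fermat.Agent.Carayol

open Matrix

/-- A combination with the property used in the integral study at `q`. -/
structure CombId (q : ℕ) [NeZero q] where
  /-- The subgroup of invariance. -/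
  fix : Subgroup (GL (Fin 2) (ZMod q))
  /-- The coefficients. -/
  coeffs : GL (Fin 2) (ZMod q) → ℤ
  /-- The multiple. -/
  exp : ℕ
  exp_pos : 0 < exp
  hid : ∀ (M : Type) [AddCommGroup M] (Φ : GL (Fin 2) (ZMod q) → M),
    (∀ g, ∀ t ∈ fix, Φ (g * t) = Φ g) → ∀ v : Fin 2 → ZMod q, (∃ i, IsUnit (v i)) →
    (∀ s g : GL (Fin 2) (ZMod q),
      (∀ w : Fin 2 → ZMod q, ∃ k : ZMod q,
        (s : Matrix (Fin 2) (Fin 2) (ZMod q)) *ᵥ w - w = k • v) → Φ (s * g) = Φ g) →
    ∑ g, coeffs g • Φ g = (exp : ℤ) • Φ 1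

variable {q : ℕ} [NeZero q] {M N : Type*} [AddCommGroup M] [AddCommGroup N]

omit [NeZero q] in
lemma diagElt_mul (a d a' d' : (ZMod q)ˣ) :
    (diagElt a d * diagElt a' d' : GL (Fin 2) (ZMod q)) = diagElt (a * a') (d * d') := by
  apply Units.ext
  simp [diagElt]

/-- `combOp` commutes with additive maps. -/
lemma map_combOp (χ : M →+ N) (Φ : GL (Fin 2) (ZMod q) → M) :
    χ (combOp Φ) = combOp fun g => χ (Φ g) := by
  simp [combOp, map_sum, map_zsmul]

/-- `combOp` is a combination of values. -/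
lemma combOp_eq_sum (Φ : GL (Fin 2) (ZMod q) → M) :
    combOp Φ = ∑ g, combOp (fun h => if h = g then (1 : ℤ) else 0) • Φ g := by
  classical
  obtain ⟨χ, hχe⟩ : ∃ χ : (GL (Fin 2) (ZMod q) → ℤ) →+ M, ∀ e, χ e = ∑ g, e g • Φ g :=
    ⟨AddMonoidHom.mk' (fun e => ∑ g, e g • Φ g)
      (fun a b => by simp [add_smul, Finset.sum_add_distrib]), fun e => rfl⟩
  have hχ : ∀ h, χ (Pi.single h 1) = Φ h := fun h => by
    rw [hχe]
    rw [Finset.sum_eq_single h]
    · simp
    · intro g _ hg; simp [Pi.single_eq_of_ne hg]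
    · simp
  rw [show combOp Φ = χ (combOp fun h => Pi.single h (1 : ℤ)) by rw [map_combOp]; simp only [hχ]]
  rw [hχe]
  refine Finset.sum_congr rfl fun g _ => ?_
  congr 1
  have h0 := map_combOp (Pi.evalAddMonoidHom (fun _ => ℤ) g)
    (fun h => (Pi.single h (1 : ℤ) : GL (Fin 2) (ZMod q) → ℤ))
  simp only [Pi.evalAddMonoidHom_apply] at h0
  rw [h0]
  simp only [Pi.single_apply, @eq_comm _ g]

/-- The diagonal torus. -/
def torusSubgroup (q : ℕ) [NeZero q] : Subgroup (GL (Fin 2) (ZMod q)) :=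
  (MonoidHom.mk' (fun p : (ZMod q)ˣ × (ZMod q)ˣ => diagElt p.1 p.2)
    fun p p' => (diagElt_mul p.1 p.2 p'.1 p'.2).symm).range

omit [NeZero q] in
lemma combExp_pos (hq : 2 ≤ q) : 0 < combExp q := by
  have : 0 < q ^ 2 - 1 := by
    have : 2 * 2 ≤ q ^ 2 := by rw [pow_two]; exact Nat.mul_le_mul hq hq
    omega
  unfold combExp
  positivity

/-- The identity for the diagonal torus. -/
def torusComb (q : ℕ) [NeZero q] [Fact q.Prime] : CombId q where
  fix := torusSubgroup q
  coeffs g := combOp fun h => if h = g then (1 : ℤ) else 0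
  exp := combExp q
  exp_pos := combExp_pos (Fact.out : q.Prime).two_le
  hid M _ Φ hT v hv hS := by
    rw [← combOp_eq_sum]
    obtain ⟨i, hi⟩ := hv
    exact combOp_eq Φ (fun g a d => hT g _ ⟨(a, d), rfl⟩)
      (fun h => hi.ne_zero (congrFun h i)) hS

lemma sum_torusComb [Fact q.Prime] (Φ : GL (Fin 2) (ZMod q) → M) :
    ∑ g, (torusComb q).coeffs g • Φ g = combOp Φ :=
  (combOp_eq_sum Φ).symm

end Fermat.Agent.Carayol
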