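import Fermat.Agent.Carayol.Regular

/-!
# Every generator is congruent to a constant
-/

set_option autoImplicit false

namespace Fermat.Agent.Carayol

open WeierstrassCurve IsLocalRing Polynomial

variable {Ω : Type*} [Field Ω] [DecidableEq Ω] {b c : Ω}
variable {T : TorsFrame b c} {F : GoodFibre b c} {W0 : Subring Ω} {j : Ω}

namespace KerData

variable {D : KerData T F W0 j} {π : D.B} (hπ : π ∈ maximalIdeal D.B)
include hπ

omit hπ in
lemma exists_unit_coeff (D : KerData T F W0 j) :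
    ∃ i, ((tateCurve b c).ΨSq T.Q).coeff i ∈ D.B ∧
      ¬ InMax D.B (((tateCurve b c).ΨSq T.Q).coeff i) := by
  obtain ⟨i, hi⟩ : ∃ i, ¬ ((F.W.ΨSq T.Q).map (residue F.O)).coeff i = 0 := by
    by_contra! h
    exact map_ΨSq_ne_zero F.W T.Q_ne_zero (Polynomial.ext fun i => by rw [h i, coeff_zero])
  let WB : WeierstrassCurve D.B := tateCurve ⟨b, D.b_mem_B⟩ ⟨c, D.c_mem_B⟩
  have e1 : ((tateCurve b c).ΨSq T.Q).coeff i = D.B.subtype ((WB.ΨSq T.Q).coeff i) := by
    rw [← coeff_map, ← WeierstrassCurve.map_ΨSq, tateCurve_map]; rfl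
  have e2 : ((tateCurve b c).ΨSq T.Q).coeff i = algebraMap F.O Ω ((F.W.ΨSq T.Q).coeff i) := by
    rw [← coeff_map, ← WeierstrassCurve.map_ΨSq, F.map_W]
  refine ⟨i, e1 ▸ ((WB.ΨSq T.Q).coeff i).2, fun h => hi ?_⟩
  rw [coeff_map, residue_eq_zero_iff, ← inMax_coe]
  have := (D.inMax_B.1 h).2
  rwa [e2] at this

lemma cst_of_coeff_mem {w0 : Fin 2 → ZMod T.Q}
    (hw : Function.Bijective fun p : ZMod T.Q × ZMod T.Q => p.1 • w0 + p.2 • D.v0) (i : ℕ)
    {a : (tateCurve b c).toAffine.Point} (ha : T.n • a = 0) (h2 : 2 • a ≠ 0)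
    {xa ya : Ω} {hn : (tateCurve b c).toAffine.Nonsingular xa ya} (ea : a = .some _ _ hn) :
    Cst W0 (D.idealJ π) (xa * ((tateCurve b c).ΨSq T.Q).coeff i) := by
  have h1 := cst_coeff_div hπ hw (a := T.R) T.nR (T.smul_R 2 (by simp))
    (hn := tate_nonsingular_zero T.hb) rfl i
  rw [zero_mul, sub_zero] at h1
  simpa using h1.sub (cst_coeff_div hπ hw ha h2 ea i)

/-- Abscissae of points of order prime to `q` and more than two, and `b`, `c`, are constant. -/
lemma cst_xn {w0 : Fin 2 → ZMod T.Q}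
    (hw : Function.Bijective fun p : ZMod T.Q × ZMod T.Q => p.1 • w0 + p.2 • D.v0) :
    Cst W0 (D.idealJ π) b ∧ Cst W0 (D.idealJ π) c ∧
    ∀ (a : (tateCurve b c).toAffine.Point), T.n • a = 0 → 2 • a ≠ 0 →
      ∀ (x y : Ω) (hn : (tateCurve b c).toAffine.Nonsingular x y), a = .some _ _ hn →
        Cst W0 (D.idealJ π) x := by
  obtain ⟨i, hγB, hγ⟩ := exists_unit_coeff D
  set γ := ((tateCurve b c).ΨSq T.Q).coeff i with hγdef
  have key := fun (a : (tateCurve b c).toAffine.Point) (ha : T.n • a = 0) (h2 : 2 • a ≠ 0)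
    (x y : Ω) (hn : (tateCurve b c).toAffine.Nonsingular x y) (ea : a = .some _ _ hn) =>
      cst_of_coeff_mem hπ hw i ha h2 ea
  have hn' : ∀ k : ℕ, T.n • (k • T.R) = 0 := fun k => by
    rw [← mul_nsmul', mul_comm, mul_nsmul', show T.n • T.R = 0 from T.nR, nsmul_zero]
  have h2' : ∀ k ∈ ({2, 3, 4} : Finset ℕ), 2 • (k • T.R) ≠ 0 := fun k hk => by
    rw [← mul_nsmul']
    exact T.smul_R _ (by fin_cases hk <;> simp)
  obtain ⟨hbB, hcB⟩ := D.ov.units.1, D.ov.units.2.1
  obtain ⟨hb0, -, -⟩ := inv_mem_of_not_inMax F.b_mem hbB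
  obtain ⟨hc0, -, -⟩ := inv_mem_of_not_inMax F.c_mem D.ov.units.2.1
  obtain ⟨hbc0, -, -⟩ := inv_mem_of_not_inMax (sub_mem F.b_mem F.c_mem) D.ov.units.2.2
  obtain ⟨h2n, e2⟩ := two_nsmul_tatePt (c := c) T.hb
  obtain ⟨h3n, e3⟩ := three_nsmul_tatePt (c := c) T.hb
  obtain ⟨y4, h4n, e4⟩ := four_nsmul_tatePt (c := c) T.hb hc0
  have kb := key _ (hn' 2) (h2' 2 (by simp)) _ _ h2n e2
  have kc := key _ (hn' 3) (h2' 3 (by simp)) _ _ h3n e3
  have k4 := key _ (hn' 4) (h2' 4 (by simp)) _ _ h4n e4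
  obtain ⟨hγ0, -, -⟩ := inv_mem_of_not_inMax hγB hγ
  have hu : ¬ InMax D.B ((b * γ) * (b * γ - c * γ)) := fun h => by
    have h' := (D.inMax_B.1 h).2
    have hγF : ¬ InMax F.O γ := fun h => hγ (D.inMax_B.2 ⟨hγB, h⟩)
    rw [← sub_mul] at h'
    exact not_inMax_mul (mul_mem F.b_mem (D.B_le hγB))
      (mul_mem (sub_mem F.b_mem F.c_mem) (D.B_le hγB))
      (not_inMax_mul F.b_mem (D.B_le hγB) hbB hγF)
      (not_inMax_mul (sub_mem F.b_mem F.c_mem) (D.B_le hγB) D.ov.units.2.2 hγF) h'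
  have hγc : Cst W0 (D.idealJ π) γ := by
    have := ((kc.mul kc).mul k4).mul (cst_inv hπ (kb.mul (kb.sub kc)) hu)
    simp only [← hγdef] at this
    convert this using 1
    field_simp
  have hγi := cst_inv hπ hγc hγ
  have div : ∀ x : Ω, Cst W0 (D.idealJ π) (x * γ) → Cst W0 (D.idealJ π) x := fun x hx => by
    simpa [hγ0] using hx.mul hγi
  exact ⟨div _ kb, div _ kc, fun a ha h2 x y hn ea => div _ (key a ha h2 x y hn ea)⟩

/-- The ordinate is constant when the abscissa is. -/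
lemma cst_y (hb : Cst W0 (D.idealJ π) b) (hc : Cst W0 (D.idealJ π) c)
    {P : (tateCurve b c).toAffine.Point} {x y : Ω}
    {hn : (tateCurve b c).toAffine.Nonsingular x y} (eP : P = .some _ _ hn)
    (hy : y ∈ D.B) (h2 : F.Fin (P + P)) (hx : Cst W0 (D.idealJ π) x) :
    Cst W0 (D.idealJ π) y := by
  obtain ⟨w, hw, hm⟩ := D.res_B ⟨y, hy⟩
  have hwB := D.W0_le_B hw
  have hψ : ¬ InMax D.B (2 * y + (1 - c) * x + -b) := fun h =>
    F.not_inMax_psi eP (D.B_le hx.mem) h2 (D.inMax_B.1 h).2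
  have hone : Cst W0 (D.idealJ π) 1 := cst_of_mem W0.one_mem (one_mem _)
  have hwc : Cst W0 (D.idealJ π) w := cst_of_mem hw hwB
  have he := ((((hx.mul hx).mul hx).add (hb.neg.mul (hx.mul hx))).sub (hwc.mul hwc)).sub
    ((((hone.sub hc).mul hx).add hb.neg).mul hwc)
  obtain ⟨heB, v, hv, hvB, hev⟩ := he
  have eq := (Affine.equation_iff _ _).1 hn.left
  simp only [tateCurve] at eq
  set m : Ω := y - w with hmdef
  have hψ' : ¬ InMax D.B (2 * w + (1 - c) * x + -b + m) := fun h => by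
    refine hψ ?_
    rw [show 2 * y + (1 - c) * x + -b = (2 * w + (1 - c) * x + -b + m) + m by rw [hmdef]; ring]
    exact h.add hm
  have hψB : 2 * w + (1 - c) * x + -b + m ∈ D.B := add_mem (add_mem (add_mem
    (mul_mem (ofNat_mem _ 2) hwB) (mul_mem (sub_mem (one_mem _) D.c_mem_B) hx.mem))
    (neg_mem D.b_mem_B)) hm.mem
  have eem : x * x * x + -b * (x * x) - w * w - ((1 - c) * x + -b) * w
      = m * (2 * w + (1 - c) * x + -b + m) := by
    rw [hmdef]; linear_combination -eq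
  have heM : InMax D.B (x * x * x + -b * (x * x) - w * w - ((1 - c) * x + -b) * w) :=
    eem ▸ hm.mul_right hψB
  have hvM : InMax D.B v := by
    have h := ((inMax_iff heB).1 heM)
    have h' := (maximalIdeal D.B).sub_mem h (idealJ_le hπ hev)
    rw [sub_sub_cancel] at h'
    exact ⟨hvB, h'⟩
  obtain ⟨v', hv', rfl⟩ := D.ov.max v hv (D.inMax_B.1 hvM).2
  have heJ : (⟨_, heB⟩ : D.B) ∈ D.idealJ π := by
    have := (D.idealJ π).add_mem hev
      (Ideal.mul_mem_right (⟨v', D.W0_le_B hv'⟩ : D.B) _ (q_mem_idealJ (D := D) (π := π)))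
    convert this using 1
    apply Subtype.ext
    push_cast
    ring
  obtain ⟨h0, hi, -⟩ := inv_mem_of_not_inMax hψB hψ'
  refine ⟨hy, w, hw, hwB, ?_⟩
  convert Ideal.mul_mem_right (⟨_, hi⟩ : D.B) _ heJ using 1
  apply Subtype.ext
  push_cast
  rw [eem, mul_assoc, mul_inv_cancel₀ h0, mul_one]

omit hπ in
lemma nTors_smul (k : ℕ) : T.n • (k • T.R) = 0 := by
  rw [← mul_nsmul', mul_comm, mul_nsmul', show T.n • T.R = 0 from T.nR, nsmul_zero]

/-- All mixed points have constant coordinates. -/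
theorem cPt_mixed {w0 : Fin 2 → ZMod T.Q}
    (hw : Function.Bijective fun p : ZMod T.Q × ZMod T.Q => p.1 • w0 + p.2 • D.v0)
    (hV : ∃ x y, ∃ h : (tateCurve b c).toAffine.Nonsingular x y,
      T.R + T.qTors w0 = .some x y h ∧ Cst W0 (D.idealJ π) x) :
    Cst W0 (D.idealJ π) b ∧ Cst W0 (D.idealJ π) c ∧
      ∀ P ∈ T.mixed, D.CPt π P := by
  obtain ⟨hb, hc, hx⟩ := cst_xn hπ hw
  refine ⟨hb, hc, ?_⟩
  -- finite sums
  have fin : ∀ (a : (tateCurve b c).toAffine.Point) (v : Fin 2 → ZMod T.Q), T.n • a = 0 → a ≠ 0 →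
      F.Fin (a + T.qTors v) := fun a v ha h0 => D.ov.fin_mixed ⟨a, v, ha, h0, rfl⟩
  have chord : ∀ (a a' : (tateCurve b c).toAffine.Point) (v v' : Fin 2 → ZMod T.Q),
      T.n • a = 0 → T.n • a' = 0 → a - a' ≠ 0 → a + a' ≠ 0 → D.CPt π (a + T.qTors v) →
      D.CPt π (a' + T.qTors v') → D.CPt π (a + a' + T.qTors (v + v')) := by
    intro a a' v v' ha ha' hd hs hP hQ
    have e : a + a' + T.qTors (v + v') = (a + T.qTors v) + (a' + T.qTors v') := by
      rw [map_add]; abel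
    rw [e]
    refine hP.add hπ hb hc hQ ?_ ?_
    · rw [show (a + T.qTors v) - (a' + T.qTors v') = (a - a') + T.qTors (v - v') by
        rw [map_sub]; abel]
      exact fin _ _ (by rw [nsmul_sub, ha, ha', sub_zero]) hd
    · rw [← e]
      exact fin _ _ (by rw [nsmul_add, ha, ha', add_zero]) hs
  -- order more than two, no `q`-part
  have base : ∀ a : (tateCurve b c).toAffine.Point, T.n • a = 0 → 2 • a ≠ 0 → D.CPt π a := by
    intro a ha h2
    have h0 : a ≠ 0 := fun h => h2 (by rw [h, nsmul_zero])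
    have hm : a ∈ T.mixed := ⟨a, 0, ha, h0, by rw [map_zero, add_zero]⟩
    obtain ⟨x, y, h, rfl, -, -⟩ := D.ov.fin_mixed hm
    refine ⟨x, y, h, rfl, hx _ ha h2 x y h rfl,
      cst_y hπ hb hc (P := Affine.Point.some x y h) (hn := h) rfl (D.coord_mem_B hm).2 ?_
      (hx _ ha h2 x y h rfl)⟩
    have := fin _ 0 (by rw [nsmul_add, ha, add_zero]) (by rwa [two_nsmul] at h2)
    rwa [map_zero, add_zero] at this
  have hk : ∀ k : ℕ, k ∈ ({1, 2, 3, 4, 5, 6, 8} : Finset ℕ) → k • T.R ≠ 0 := T.smul_R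
  have hR : D.CPt π T.R := base _ T.nR (hk 2 (by simp))
  have h2R : D.CPt π (2 • T.R) :=
    base _ (nTors_smul 2) (by rw [← mul_nsmul']; exact hk 4 (by simp))
  -- the two auxiliary points
  have hV1 : D.CPt π (T.R + T.qTors w0) := by
    obtain ⟨x, y, h, e, hxc⟩ := hV
    refine ⟨x, y, h, e, hxc, cst_y hπ hb hc (P := Affine.Point.some x y h) (hn := h) rfl (D.coord_mem_B (x := x) (y := y) (h := h)
      ⟨T.R, w0, T.nR, by simpa using hk 1 (by simp), e.symm⟩).2 ?_ hxc⟩
    rw [← e, show T.R + T.qTors w0 + (T.R + T.qTors w0) = 2 • T.R + T.qTors (w0 + w0) by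
      rw [map_add, two_nsmul]; abel]
    exact fin _ _ (nTors_smul 2) (hk 2 (by simp))
  have hV3 : D.CPt π (3 • T.R + T.qTors w0) := by
    have := chord (2 • T.R) T.R 0 w0 (nTors_smul 2) T.nR
      (by rw [show 2 • T.R - T.R = T.R by abel]; simpa using hk 1 (by simp))
      (by rw [show 2 • T.R + T.R = 3 • T.R by abel]; exact hk 3 (by simp))
      (by rwa [map_zero, add_zero]) hV1
    rwa [zero_add, show 2 • T.R + T.R = 3 • T.R by abel] at this
  have main : ∀ i : ℕ, ∀ a : (tateCurve b c).toAffine.Point, T.n • a = 0 → a ≠ 0 →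
      D.CPt π (a + T.qTors (i • w0)) := by
    intro i
    induction i with
    | zero =>
      intro a ha h0
      rw [zero_smul, map_zero, add_zero]
      by_cases h2 : 2 • a = 0
      · have hd : a - T.R - T.R ≠ 0 := fun h => hk 4 (by simp) (by
          have : a = 2 • T.R := by rw [two_nsmul, ← sub_eq_zero, ← h]; abel
          rw [this] at h2
          rwa [← mul_nsmul'] at h2)
        have h2' : 2 • (a - T.R) ≠ 0 := by
          rw [nsmul_sub, h2, zero_sub, neg_ne_zero]; exact hk 2 (by simp)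
        have := chord (a - T.R) T.R 0 0 (by rw [nsmul_sub, ha, show T.n • T.R = 0 from T.nR,
            sub_zero]) T.nR hd (by rwa [sub_add_cancel])
          (by rw [map_zero, add_zero]; exact base _ (by rw [nsmul_sub, ha,
            show T.n • T.R = 0 from T.nR, sub_zero]) h2')
          (by rwa [map_zero, add_zero])
        rwa [sub_add_cancel, add_zero, map_zero, add_zero] at this
      · exact base a ha h2
    | succ i ih =>
      intro a ha h0
      by_cases hc' : a = T.R ∨ a = 2 • T.R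
      · have hn3 : T.n • (a - 3 • T.R) = 0 := by rw [nsmul_sub, ha, nTors_smul, sub_zero]
        have hne : a - 3 • T.R ≠ 0 ∧ a - 3 • T.R - 3 • T.R ≠ 0 := by
          constructor <;> intro h <;> rcases hc' with rfl | rfl
          · exact hk 2 (by simp) (neg_eq_zero.1 (by rw [← h]; abel))
          · exact hk 1 (by simp) (neg_eq_zero.1 (by rw [← h]; abel))
          · exact hk 5 (by simp) (neg_eq_zero.1 (by rw [← h]; abel))
          · exact hk 4 (by simp) (neg_eq_zero.1 (by rw [← h]; abel))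
        have := chord (a - 3 • T.R) (3 • T.R) (i • w0) w0 hn3 (nTors_smul 3) hne.2
          (by rwa [sub_add_cancel]) (ih _ hn3 hne.1) hV3
        rwa [sub_add_cancel, ← succ_nsmul] at this
      · rw [not_or] at hc'
        have hn1 : T.n • (a - T.R) = 0 := by
          rw [nsmul_sub, ha, show T.n • T.R = 0 from T.nR, sub_zero]
        have := chord (a - T.R) T.R (i • w0) w0 hn1 T.nR
          (fun h => hc'.2 (by rw [two_nsmul, ← sub_eq_zero, ← h]; abel))
          (by rwa [sub_add_cancel]) (ih _ hn1 (sub_ne_zero.2 hc'.1)) hV1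
        rwa [sub_add_cancel, ← succ_nsmul] at this
  rintro P ⟨a, v, ha, h0, rfl⟩
  obtain ⟨⟨i, k⟩, rfl⟩ := hw.2 v
  have e : ∀ (m : ZMod T.Q) (u : Fin 2 → ZMod T.Q), m • u = m.val • u := fun m u => by
    funext r; simp [nsmul_eq_mul]
  show D.CPt π (a + T.qTors (i • w0 + k • D.v0))
  rw [e i, e k, map_add, ← add_assoc, map_nsmul T.qTors k.val]
  exact (main _ a ha h0).translate ⟨a, _, ha, h0, rfl⟩ _

end KerData

end Fermat.Agent.Carayol
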