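import Fermat.Agent.FF.HeckeInputsX0
import Fermat.Prelude.Def_ModularCurve_HeckeModule

/-!
# The geometric statement at a prime whose square divides the level

Torsion classes of `X₀(q M q)` fixed by an inertia group at `q` whose two images at level `q M`
are trivial are killed by a constant depending only on `q`.
-/

set_option autoImplicit false

noncomputable section

namespace Fermat.Agent.Carayol

open AlgebraicCurve ModularCurve

variable (q M : ℕ) [NeZero q] [NeZero M]

/-- A class of `J₀(q M q)` whose images under the two maps to level `q M` vanish. -/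
def IsNewClass (x : JZero (q * M * q)) : Prop :=
  ∀ D : Divisor.degZero (K := AlgebraicClosure ℚ) (F := modularFunctionFieldBar (q * M * q)),
    Pic0.mk D = x →
      (Divisor.pushforwardAlong (heckeAlphaBar (AlgebraicClosure ℚ) (q * M) q)
        (FF.isIntegralAlong _) (D : Divisor (AlgebraicClosure ℚ) _)).IsPrincipal ∧
      (Divisor.pushforwardAlong (heckeBetaBar (AlgebraicClosure ℚ) (q * M) q)
        (FF.isIntegralAlong _) (D : Divisor (AlgebraicClosure ℚ) _)).IsPrincipal

/-- **The geometric theorem.** A constant `c` kills the inertia fixed new torsion classes of order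
a power of a prime `lam ≠ q`. -/
def FixedNewTorsionBound : Prop :=
  ∃ c : ℕ, 0 < c ∧ ∀ (lam n : ℕ), lam.Prime → lam ≠ q →
    ∀ A : ValuationSubring (AlgebraicClosure ℚ), A.LiesOverPrime q →
      ∀ x : JZero (q * M * q), lam ^ n • x = 0 → (∀ σ ∈ A.inertiaSubgroupIn ℚ, σ • x = x) →
        IsNewClass q M x → c • x = 0

end Fermat.Agent.Carayol

end
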