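import Fermat.Agent.GaloisReps.Results
import Fermat.Agent.Newforms.Eigen
import Fermat.Agent.Carayol.Statement

/-!
# Galois equivariant maps between Jacobians and the good Hecke operators

At a good prime `ℓ` a Frobenius element `σ` gives `T_ℓ x = σ x + ℓ σ⁻¹ x` on torsion, so every
equivariant map between the torsion at two levels commutes with the Hecke algebra away from the
levels and from `p`. The push forwards along the degeneracy maps are such maps.
-/

set_option autoImplicit false

noncomputable section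

open CongruenceSubgroup AlgebraicCurve ModularCurve

namespace Fermat.Agent.Carayol

open GaloisReps (AbsGal FullHecke matIn toFull JTors TorsionIso TorsionGalois galTors heckeTors
  latticeMat)

attribute [local instance 10000] SubalgebraClass.toAlgebra IntermediateField.toField

variable {N R p : ℕ} [NeZero N] [NeZero R] [Fact p.Prime]

/-- The Hecke algebra acting on the torsion through the lattice. -/
def actTors (E : TorsionIso N p) (n : ℕ) (t : FullHecke N) (x : JTors N p n) : JTors N p n :=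
  (E.psi n).symm ((matIn (latticeMat N) (ZMod (p ^ n)) t).mulVec (E.psi n x))

omit [Fact p.Prime] in
lemma psi_actTors (E : TorsionIso N p) (n : ℕ) (t : FullHecke N) (x : JTors N p n) :
    E.psi n (actTors E n t x) = (matIn (latticeMat N) (ZMod (p ^ n)) t).mulVec (E.psi n x) :=
  (E.psi n).apply_symm_apply _

omit [Fact p.Prime] in
lemma actTors_add (E : TorsionIso N p) (n : ℕ) (s t : FullHecke N) (x : JTors N p n) :
    actTors E n (s + t) x = actTors E n s x + actTors E n t x := by
  refine (E.psi n).injective ?_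
  rw [psi_actTors, RingHom.map_add, AddEquiv.map_add, psi_actTors, psi_actTors, Matrix.add_mulVec]

omit [Fact p.Prime] in
lemma actTors_mul (E : TorsionIso N p) (n : ℕ) (s t : FullHecke N) (x : JTors N p n) :
    actTors E n (s * t) x = actTors E n s (actTors E n t x) := by
  refine (E.psi n).injective ?_
  rw [psi_actTors, psi_actTors, psi_actTors, map_mul, Matrix.mulVec_mulVec]

omit [Fact p.Prime] in
lemma actTors_intCast (E : TorsionIso N p) (n : ℕ) (r : ℤ) (x : JTors N p n) :
    actTors E n (r : FullHecke N) x = r • x := by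
  refine (E.psi n).injective ?_
  rw [psi_actTors, map_intCast, map_zsmul, ← zsmul_one r, Matrix.smul_mulVec, Matrix.one_mulVec]

lemma actTors_heckeOp (E : TorsionIso N p) (n ℓ : ℕ) (hℓ : ℓ.Prime) (x : JTors N p n) :
    actTors E n (HeckeDuality.heckeOp N 2 ℓ hℓ) x = heckeTors n ⟨ℓ, hℓ⟩ x := by
  refine (E.psi n).injective ?_
  rw [psi_actTors, GaloisReps.matIn_apply, GaloisReps.latticeMat_heckeOp, ← E.mat_heckeTors,
    E.mat_mulVec]

omit [Fact p.Prime] in
/-- `T_ℓ x = σ x + ℓ σ⁻¹ x` at a Frobenius element. -/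
lemma heckeTors_eq (G : TorsionGalois N p) {ℓ : ℕ} (hℓ : ℓ.Prime) (hℓN : ¬ ℓ ∣ N * p)
    {A : ValuationSubring (AlgebraicClosure ℚ)} (hA : A.LiesOverPrime ℓ) {σ : AbsGal}
    (hσ : A.IsFrobeniusAt σ ℓ) (n : ℕ) (x : JTors N p n) :
    heckeTors n ⟨ℓ, hℓ⟩ x = galTors n σ x + ℓ • galTors n σ⁻¹ x := by
  have h : σ • σ • (σ⁻¹ • (x : JZero N)) -
      heckeOperatorBar N ⟨ℓ, hℓ⟩ (σ • (σ⁻¹ • (x : JZero N))) + ℓ • (σ⁻¹ • (x : JZero N)) = 0 :=
    G.frobenius ℓ hℓ hℓN A hA σ hσ n (galTors n σ⁻¹ x)
  rw [smul_inv_smul, sub_add_eq_add_sub, sub_eq_zero] at h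
  exact Subtype.ext h.symm

/-- An equivariant map commutes with `T_ℓ` for `ℓ` prime to the levels and to `p`. -/
theorem intertwine_heckeOp (E : TorsionIso N p) (G : TorsionGalois N p) (E' : TorsionIso R p)
    (G' : TorsionGalois R p) {ℓ : ℕ} (hℓ : ℓ.Prime) (hℓN : ¬ ℓ ∣ N * p) (hℓR : ¬ ℓ ∣ R * p)
    (n : ℕ) (π : JTors N p n →+ JTors R p n)
    (hπ : ∀ σ x, π (galTors n σ x) = galTors n σ (π x)) (x : JTors N p n) :
    π (actTors E n (HeckeDuality.heckeOp N 2 ℓ hℓ) x) =
      actTors E' n (HeckeDuality.heckeOp R 2 ℓ hℓ) (π x) := by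
  obtain ⟨A, hA⟩ := Arith.exists_liesOverPrime hℓ
  obtain ⟨σ, hσ⟩ := Arith.exists_isFrobeniusAt hA hℓ
  have h₁ := heckeTors_eq G hℓ hℓN hA hσ n x
  have h₂ := heckeTors_eq G' hℓ hℓR hA hσ n (π x)
  exact (congrArg π ((actTors_heckeOp E n ℓ hℓ x).trans h₁)).trans
    (((π.map_add _ _).trans (congrArg₂ (· + ·) (hπ σ x)
      ((π.map_nsmul ℓ _).trans (congrArg (ℓ • ·) (hπ σ⁻¹ x))))).trans
      (((actTors_heckeOp E' n ℓ hℓ (π x)).trans h₂).symm))

lemma toFull_algebraMap (S : Set ℕ) (r : ℤ) :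
    toFull (N := N) S (algebraMap ℤ (CuspForm.heckeAlgebra N 2 S) r) = (r : FullHecke N) := by
  rw [AlgHom.commutes, eq_intCast]

omit [Fact p.Prime] in
lemma intertwine_int (E : TorsionIso N p) (E' : TorsionIso R p) {S : Set ℕ} (n : ℕ) (r : ℤ)
    (π : JTors N p n →+ JTors R p n) (x : JTors N p n) :
    π (actTors E n (toFull S (algebraMap ℤ (CuspForm.heckeAlgebra N 2 S) r)) x) =
      actTors E' n (toFull S (algebraMap ℤ (CuspForm.heckeAlgebra R 2 S) r)) (π x) := by
  rw [toFull_algebraMap, toFull_algebraMap]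
  exact (congrArg π (actTors_intCast E n r x)).trans
    ((π.map_zsmul r x).trans (actTors_intCast E' n r (π x)).symm)

omit [Fact p.Prime] in
lemma intertwine_add (E : TorsionIso N p) (E' : TorsionIso R p) {S : Set ℕ} (n : ℕ)
    (π : JTors N p n →+ JTors R p n) (x : JTors N p n) {a b : CuspForm.heckeAlgebra N 2 S}
    {a' b' : CuspForm.heckeAlgebra R 2 S}
    (ha : π (actTors E n (toFull S a) x) = actTors E' n (toFull S a') (π x))
    (hb : π (actTors E n (toFull S b) x) = actTors E' n (toFull S b') (π x)) :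
    π (actTors E n (toFull S (a + b)) x) = actTors E' n (toFull S (a' + b')) (π x) := by
  rw [map_add (toFull S) a b, map_add (toFull S) a' b']
  exact (congrArg π (actTors_add E n _ _ x)).trans
    ((π.map_add _ _).trans
      ((congrArg₂ (· + ·) ha hb).trans (actTors_add E' n _ _ (π x)).symm))

omit [Fact p.Prime] in
lemma intertwine_mul (E : TorsionIso N p) (E' : TorsionIso R p) {S : Set ℕ} (n : ℕ)
    (π : JTors N p n →+ JTors R p n) (x : JTors N p n) {a b : CuspForm.heckeAlgebra N 2 S}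
    {a' b' : CuspForm.heckeAlgebra R 2 S}
    (ha : ∀ y, π (actTors E n (toFull S a) y) = actTors E' n (toFull S a') (π y))
    (hb : π (actTors E n (toFull S b) x) = actTors E' n (toFull S b') (π x)) :
    π (actTors E n (toFull S (a * b)) x) = actTors E' n (toFull S (a' * b')) (π x) := by
  have e := map_mul (toFull (N := N) S) a b
  have e' := map_mul (toFull (N := R) S) a' b'
  exact (congrArg π ((congrArg (fun t => actTors E n t x) e).trans (actTors_mul E n _ _ x))).trans
    ((ha _).trans ((congrArg (actTors E' n (toFull S a')) hb).trans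
      ((actTors_mul E' n _ _ (π x)).symm.trans (congrArg (fun t => actTors E' n t (π x)) e'.symm))))

/-- An equivariant map commutes with the Hecke operators prime to the levels and to `p`. -/
theorem exists_intertwine (E : TorsionIso N p) (G : TorsionGalois N p) (E' : TorsionIso R p)
    (G' : TorsionGalois R p) (hR : R ∣ N) (S : Finset ℕ) (hpS : p ∈ S)
    (hNS : ∀ q : ℕ, q.Prime → q ∣ N → q ∈ S)
    (t : CuspForm.heckeAlgebra N 2 (↑S : Set ℕ)) :
    ∃ t' : CuspForm.heckeAlgebra R 2 (↑S : Set ℕ),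
      (∀ f : CuspForm (Gamma0 R) 2,
        t.1 (Newforms.levelIncl hR f) = Newforms.levelIncl hR (t'.1 f)) ∧
      ∀ (n : ℕ) (π : JTors N p n →+ JTors R p n),
        (∀ σ x, π (galTors n σ x) = galTors n σ (π x)) →
          ∀ x, π (actTors E n (toFull _ t) x) = actTors E' n (toFull _ t') (π x) := by
  obtain ⟨t, ht⟩ := t
  induction ht using Algebra.adjoin_induction with
  | mem y hy =>
    rcases hy with ⟨ℓ, hℓ, hℓN, hℓS, rfl⟩ | ⟨q, hqN, hq, hqS, rfl⟩
    · have hℓR : ¬ ℓ ∣ R := fun h => hℓN (h.trans hR)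
      refine ⟨CuspForm.heckeAlgebra.T hℓ hℓR hℓS, fun f => ?_, fun n π hπ x => ?_⟩
      · show CuspForm.heckeTLin 2 hℓ hℓN _ =
          Newforms.levelIncl hR (CuspForm.heckeTLin 2 hℓ hℓR f)
        rw [← Newforms.hOp_eq_heckeTLin hℓ, ← Newforms.hOp_eq_heckeTLin hℓ]
        exact Newforms.hOp_levelIncl hℓ hR ⟨fun h => absurd h hℓN, fun h => h.trans hR⟩ f
      · have hp : ¬ ℓ ∣ p := fun h => hℓS (by
          rw [(Nat.prime_dvd_prime_iff_eq hℓ Fact.out).1 h]; exact hpS)
        have e : toFull (↑S : Set ℕ)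
            (⟨_, Algebra.subset_adjoin (Or.inl ⟨ℓ, hℓ, hℓN, hℓS, rfl⟩)⟩ :
              CuspForm.heckeAlgebra N 2 (↑S : Set ℕ)) = HeckeDuality.heckeOp N 2 ℓ hℓ :=
          GaloisReps.toFull_T hℓ hℓN hℓS
        rw [e, GaloisReps.toFull_T]
        exact intertwine_heckeOp E G E' G' hℓ (fun h => (hℓ.dvd_mul.1 h).elim hℓN hp)
          (fun h => (hℓ.dvd_mul.1 h).elim hℓR hp) n π hπ x
    · exact absurd (Finset.mem_coe.2 (hNS q hq hqN)) hqS
  | algebraMap r =>
    refine ⟨algebraMap ℤ _ r, fun f => ?_, fun n π _ x => ?_⟩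
    · simp only [Subalgebra.coe_algebraMap, Module.algebraMap_end_apply, map_zsmul]
    · exact intertwine_int E E' n r π x
  | add a b ha hb iha ihb =>
    obtain ⟨a', h₁, h₂⟩ := iha
    obtain ⟨b', k₁, k₂⟩ := ihb
    refine ⟨a' + b', fun f => ?_, fun n π hπ x => ?_⟩
    · rw [Subalgebra.coe_add, LinearMap.add_apply, LinearMap.add_apply, map_add, h₁, k₁]
    · exact intertwine_add E E' n π x (a := ⟨a, ha⟩) (b := ⟨b, hb⟩) (h₂ n π hπ x) (k₂ n π hπ x)
  | mul a b ha hb iha ihb =>
    obtain ⟨a', h₁, h₂⟩ := iha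
    obtain ⟨b', k₁, k₂⟩ := ihb
    refine ⟨a' * b', fun f => ?_, fun n π hπ x => ?_⟩
    · rw [Subalgebra.coe_mul, Module.End.mul_apply, Module.End.mul_apply, k₁, h₁]
    · exact intertwine_mul E E' n π x (a := ⟨a, ha⟩) (b := ⟨b, hb⟩) (h₂ n π hπ) (k₂ n π hπ x)

section Push

variable {d : ℕ} [NeZero d]
  (φ : modularFunctionFieldBar R →ₐ[AlgebraicClosure ℚ] modularFunctionFieldBar (R * d))

omit [NeZero d] in
instance isFunctionField_bar_level :
    FF.IsFunctionField (AlgebraicClosure ℚ) (modularFunctionFieldBar R) :=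
  ModFun.isFunctionField_bar R

/-- Push forward of degree zero classes. -/
def pushDown : JZero (R * d) →+ JZero R :=
  QuotientAddGroup.map _ _
    (((Divisor.pushforwardAlong φ (FF.isIntegralAlong φ)).domRestrict
      (Divisor.degZero (K := AlgebraicClosure ℚ) (F := modularFunctionFieldBar (R * d)))).codRestrict
        (Divisor.degZero (K := AlgebraicClosure ℚ) (F := modularFunctionFieldBar R))
        fun D => Divisor.pushforwardAlong_mem_degZero φ (FF.isIntegralAlong φ) D.2)
    (by
      rintro ⟨D, hD0⟩ hD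
      simp only [AddSubgroup.mem_addSubgroupOf] at hD ⊢
      exact Divisor.isPrincipal_pushforwardAlong φ (FF.isIntegralAlong φ) (FF.finiteAlong φ)
        (FF.normFormulaAlong φ _) hD)

lemma pushDown_mk_eq_zero_iff
    (D : Divisor.degZero (K := AlgebraicClosure ℚ) (F := modularFunctionFieldBar (R * d))) :
    pushDown φ (Pic0.mk D) = 0 ↔
      (Divisor.pushforwardAlong φ (FF.isIntegralAlong φ)
        (D : Divisor (AlgebraicClosure ℚ) _)).IsPrincipal :=
  (QuotientAddGroup.eq_zero_iff
    (⟨_, Divisor.pushforwardAlong_mem_degZero φ (FF.isIntegralAlong φ) D.2⟩ :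
      Divisor.degZero (K := AlgebraicClosure ℚ) (F := modularFunctionFieldBar R))).trans
    AddSubgroup.mem_addSubgroupOf

/-- Push forward along a map defined over `ℚ` commutes with Galois. -/
lemma pushDown_smul
    (hφ : ∀ (σ : AbsGal) (x : modularFunctionFieldBar R),
      φ (arithmeticGalois (L := AlgebraicClosure ℚ) (modularFunctionFieldFull R) σ • x) =
        arithmeticGalois (L := AlgebraicClosure ℚ) (modularFunctionFieldFull (R * d)) σ • φ x)
    (σ : AbsGal) (x : JZero (R * d)) : pushDown φ (σ • x) = σ • pushDown φ x := by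
  obtain ⟨D, rfl⟩ := Pic0.mk_surjective x
  refine congrArg Pic0.mk (Subtype.ext ?_)
  exact GaloisReps.pushforwardAlong_smul
    (arithmeticGalois (L := AlgebraicClosure ℚ) (modularFunctionFieldFull R) σ)
    (arithmeticGalois (L := AlgebraicClosure ℚ) (modularFunctionFieldFull (R * d)) σ) φ
    (FF.isIntegralAlong φ) (hφ σ) _

/-- The map on torsion. -/
def pushTors (n : ℕ) : JTors (R * d) p n →+ JTors R p n :=
  ((pushDown φ).domRestrict (JTors (R * d) p n)).codRestrict (JTors R p n) fun x =>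
    Pic0.mem_torsion.2 (((map_zsmul (pushDown φ) _ _).symm.trans
      (congrArg (pushDown φ) (Pic0.mem_torsion.1 x.2))).trans (map_zero _))

end Push

end Fermat.Agent.Carayol

end
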