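import Fermat.Agent.Carayol.Inertial
import Fermat.Agent.JacTorsion.Descent
import Fermat.Agent.Mazur.Eisenstein.Cusps
import Fermat.Agent.RT.Mazur.FixedBasis

/-!
# Rationality over the field fixed by inertia

A class fixed by inertia is the class of a fixed divisor, whose functions can be chosen with fixed
coefficients; a fixed divisor has everywhere local equations with fixed coefficients.
-/

set_option autoImplicit false

noncomputable section

namespace Fermat.Agent.Carayol

open ModularCurve AlgebraicCurve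

section General

variable {K F : Type*} [Field K] [Field F] [Algebra K F] [FF.IsFunctionField K F] [IsAlgClosed K]

/-- A degree zero divisor whose class is fixed by automorphisms fixing a place is equivalent to a
fixed divisor. -/
theorem exists_fixed_equiv (S : Set (SemilinearAut K F)) (P₀ : Place K F)
    (hS : ∀ g ∈ S, g • P₀ = P₀) {D : Divisor K F} (hD : Divisor.degree D = 0)
    (hx : ∀ g ∈ S, g • D - D ∈ Divisor.principal (K := K) (F := F)) :
    ∃ D' : Divisor K F, Divisor.degree D' = 0 ∧ D' - D ∈ Divisor.principal (K := K) (F := F) ∧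
      ∀ g ∈ S, g • D' = D' := by
  classical
  have hone : ∀ P : Place K F, P.deg = 1 := FF.deg_eq_one
  have hex : ∃ j : ℕ, ∃ f : F, f ≠ 0 ∧
      ∀ P, 0 ≤ (D + Finsupp.single P₀ (j : ℤ)) P + P.ord f := by
    refine ⟨genusFF K F + 1, ?_⟩
    have h1 := FF.riemann_inequality (D + Finsupp.single P₀ ((genusFF K F + 1 : ℕ) : ℤ))
    rw [map_add, hD, Divisor.degree_single, hone, FF.ell_zero] at h1
    obtain ⟨f, hf0, hf⟩ := FF.exists_ne_zero_of_ell_pos
      (D := D + Finsupp.single P₀ ((genusFF K F + 1 : ℕ) : ℤ)) (by push_cast at h1 ⊢; omega)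
    exact ⟨f, hf0, fun P => by
      have := Finsupp.le_def.mp hf P
      simpa [JacTorsion.div_apply] using this⟩
  set j := Nat.find hex with hj
  obtain ⟨f, hf0, hf⟩ := Nat.find_spec hex
  rw [← hj] at hf
  have hmin : ∀ g : F, g ≠ 0 →
      ¬ ∀ P, 0 ≤ (D + Finsupp.single P₀ ((j : ℤ) - 1)) P + P.ord g := by
    intro g hg0 hg
    rcases Nat.eq_zero_or_pos j with h0 | hpos
    · have h1 : (0 : Divisor K F) ≤ D + Finsupp.single P₀ ((j : ℤ) - 1) + FF.div K g :=
        Finsupp.le_def.mpr fun P => by
          rw [Finsupp.add_apply (D + Finsupp.single P₀ ((j : ℤ) - 1)), JacTorsion.div_apply]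
          exact hg P
      have h2 := FF.degree_nonneg h1
      rw [map_add, map_add, hD, Divisor.degree_single, hone, FF.degree_div, h0] at h2
      norm_num at h2
    · refine Nat.find_min hex (m := j - 1) (by omega) ⟨g, hg0, fun P => ?_⟩
      rw [Nat.cast_sub hpos, Nat.cast_one]
      exact hg P
  have hsingle : ∀ (P : Place K F) (a : ℤ),
      Finsupp.single P₀ a P = if P = P₀ then a else 0 := fun P a => by
    rcases eq_or_ne P P₀ with rfl | h
    · simp
    · rw [Finsupp.single_eq_of_ne h, if_neg h]
  -- every section is a multiple of `f`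
  have hline : ∀ u : F, u ≠ 0 → (∀ P, 0 ≤ (D + Finsupp.single P₀ (j : ℤ)) P + P.ord u) →
      ∀ P : Place K F, P.ord u = P.ord f := by
    intro u hu0 hu
    have hexact : ∀ w : F, w ≠ 0 → (∀ P, 0 ≤ (D + Finsupp.single P₀ (j : ℤ)) P + P.ord w) →
        D P₀ + j + P₀.ord w = 0 := by
      intro w hw0 hw
      by_contra hne
      refine hmin w hw0 fun P => ?_
      have := hw P
      rw [Finsupp.add_apply, hsingle] at this ⊢
      rcases eq_or_ne P P₀ with rfl | h
      · rw [if_pos rfl] at this ⊢; omega
      · rw [if_neg h] at this ⊢; omega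
    have e1 := hexact u hu0 hu
    have e2 := hexact f hf0 hf
    have hord : P₀.ord (u / f) = 0 := by rw [JacTorsion.ord_div P₀ hu0 hf0]; omega
    obtain ⟨c, hc⟩ := JacTorsion.residueConst_of_isFunctionField P₀ _
      (JacTorsion.mem_of_ord_nonneg P₀ hord.ge)
    have huc : u = algebraMap K F c * f := by
      by_contra hne
      have hne' : u - algebraMap K F c * f ≠ 0 := sub_ne_zero.mpr hne
      refine hmin _ hne' fun P => ?_
      rw [Finsupp.add_apply, hsingle]
      rcases eq_or_ne P P₀ with rfl | h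
      · rw [if_pos rfl]
        have hne'' : u / f - algebraMap K F c ≠ 0 := fun h0 => hne (by
          rw [sub_eq_zero] at h0; rw [← h0, div_mul_cancel₀ _ hf0])
        have h1 := ((JacTorsion.valuation_lt_one_iff P).mp hc).resolve_left hne''
        rw [show u - algebraMap K F c * f = (u / f - algebraMap K F c) * f by
          rw [sub_mul, div_mul_cancel₀ _ hf0], P.ord_mul hne'' hf0]
        omega
      · rw [if_neg h]
        have h1 := hu P
        have h2 := hf P
        rw [Finsupp.add_apply, hsingle, if_neg h] at h1 h2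
        rcases eq_or_ne c 0 with rfl | hc0
        · rw [map_zero, zero_mul, sub_zero]; omega
        have hcF : algebraMap K F c ≠ 0 := by simpa using hc0
        have h3 := FF.le_ord_add (v := P) (n := -D P) (f := u) (g := -(algebraMap K F c * f))
          (by rwa [← sub_eq_add_neg]) (by omega)
          (by rw [FF.ord_neg, P.ord_mul hcF hf0, FF.ord_algebraMap]; omega)
        rw [← sub_eq_add_neg] at h3
        omega
    intro P
    have hc0 : c ≠ 0 := fun h0 => hu0 (by rw [huc, h0, map_zero, zero_mul])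
    rw [huc, P.ord_mul (by simpa using hc0) hf0, FF.ord_algebraMap, zero_add]
  refine ⟨D + FF.div K f, ?_, ?_, fun g hg => ?_⟩
  · rw [map_add, hD, FF.degree_div, add_zero]
  · rw [add_sub_cancel_left]
    exact ⟨f, hf0, fun P => JacTorsion.div_apply f P⟩
  obtain ⟨h, hh0, hh⟩ := hx g hg
  have hgf : g • f ≠ 0 := (_root_.map_ne_zero (SemilinearAut.toRingAut g)).mpr hf0
  have hord : ∀ P : Place K F, P.ord (g • f) = (g⁻¹ • P).ord f := fun P => by
    have := SemilinearAut.ord_smul g (g⁻¹ • P) f
    rwa [smul_inv_smul] at this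
  have hu : ∀ P : Place K F, P.ord (h * (g • f)) = D (g⁻¹ • P) - D P + (g⁻¹ • P).ord f := fun P => by
    rw [P.ord_mul hh0 hgf, hord, ← hh P, Finsupp.sub_apply, SemilinearAut.divisor_smul_apply]
  have key := hline (h * (g • f)) (mul_ne_zero hh0 hgf) fun P => by
    rw [hu, Finsupp.add_apply, hsingle]
    have hfix : g⁻¹ • P₀ = P₀ := by
      conv_lhs => rw [← hS g hg]
      exact inv_smul_smul g P₀
    have := hf (g⁻¹ • P)
    rw [Finsupp.add_apply, hsingle] at this
    by_cases hP : P = P₀
    · subst hP; rw [hfix] at this ⊢; omega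
    · have : g⁻¹ • P ≠ P₀ := fun e => hP (by rw [← hS g hg, ← e, smul_inv_smul])
      simp only [if_neg hP, if_neg this] at *
      omega
  refine Finsupp.ext fun P => ?_
  rw [SemilinearAut.divisor_smul_apply, Finsupp.add_apply, Finsupp.add_apply,
    JacTorsion.div_apply, JacTorsion.div_apply]
  have := key P
  rw [hu] at this
  omega

/-- A valuation subring dominating the image of the ring of `w`. -/
private theorem exists_dominating {K F Γ₀ : Type*} [Field K] [Field F]
    [LinearOrderedCommGroupWithZero Γ₀] (e : K →+* F) (w : Valuation K Γ₀) :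
    ∃ V : ValuationSubring F, (∀ x, w x ≤ 1 → e x ∈ V) ∧
      ∀ x, x ≠ 0 → e x ∈ V → e x⁻¹ ∈ V → w x = 1 := by
  let r : w.valuationSubring →+* F := e.comp w.valuationSubring.subtype
  have hr : Function.Injective r := e.injective.comp Subtype.val_injective
  let eR : w.valuationSubring ≃+* r.range :=
    RingEquiv.ofBijective r.rangeRestrict
      ⟨fun a b h => hr (congrArg Subtype.val h), r.rangeRestrict_surjective⟩
  let I : Ideal r.range := (IsLocalRing.maximalIdeal w.valuationSubring).map eR.toRingHom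
  have hI : I ≠ ⊤ := by
    intro h
    have h' : (IsLocalRing.maximalIdeal w.valuationSubring) = ⊤ := by
      have := congrArg (Ideal.comap eR.toRingHom) h
      rwa [show I = (IsLocalRing.maximalIdeal w.valuationSubring).map eR.toRingHom from rfl,
        Ideal.comap_map_of_bijective eR.toRingHom eR.bijective, Ideal.comap_top] at this
    exact Ideal.IsPrime.ne_top' h'
  obtain ⟨V, hRV, hIV⟩ := Ideal.image_subset_nonunits_valuationSubring (A := r.range) I hI
  have key : ∀ y : K, y ≠ 0 → e y⁻¹ ∈ V → ¬ w y < 1 := by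
    intro y hy0 hy hlt
    have hy' : y ∈ w.valuationSubring := hlt.le
    have hmem : (⟨y, hy'⟩ : w.valuationSubring) ∈ IsLocalRing.maximalIdeal _ := by
      rw [IsLocalRing.mem_maximalIdeal, mem_nonunits_iff]
      intro hu
      obtain ⟨z, hz⟩ := hu.exists_right_inv
      have h3 : w y * w (z : K) = 1 := by
        rw [← map_mul, ← map_one w]
        exact congrArg w (congrArg Subtype.val hz)
      exact (mul_lt_one_of_nonneg_of_lt_one_left zero_le hlt z.2).ne h3
    have h4 : e y ∈ V.nonunits := hIV ⟨_, Ideal.mem_map_of_mem _ hmem, rfl⟩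
    have h5 : V.valuation (e y) < 1 := (V.mem_nonunits_iff).mp h4
    have h6 : V.valuation (e y⁻¹) ≤ 1 := (V.valuation_le_one_iff _).mpr hy
    rw [map_inv₀, map_inv₀, inv_le_one₀ (zero_lt_iff.mpr (by simpa using hy0))] at h6
    exact absurd h5 h6.not_gt
  refine ⟨V, fun x hx => hRV ⟨⟨x, hx⟩, rfl⟩, fun x hx0 h1 h2 =>
    le_antisymm (not_lt.mp fun hgt => ?_) (not_lt.mp (key x hx0 h2))⟩
  refine key x⁻¹ (inv_ne_zero hx0) (by rwa [inv_inv]) ?_
  rw [map_inv₀]
  exact inv_lt_one_of_one_lt₀ hgt

/-- A valuation subring containing a field contains what is integral over that field. -/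
private theorem mem_of_forall_algebraMap_mem {k L F : Type*} [Field k] [Field L] [Field F]
    [Algebra k L] [Algebra.IsIntegral k L] (i : L →+* F) (V : ValuationSubring F)
    (h : ∀ c : k, i (algebraMap k L c) ∈ V) (a : L) : i a ∈ V := by
  let κ : k →+* V := (i.comp (algebraMap k L)).codRestrict V.toSubring h
  have hint : IsIntegral V (i a) := by
    obtain ⟨P, hP, hPa⟩ := Algebra.IsIntegral.isIntegral (R := k) a
    refine ⟨P.map κ, hP.map κ, ?_⟩
    rw [Polynomial.eval₂_map, show (algebraMap V F).comp κ = i.comp (algebraMap k L) from rfl,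
      ← Polynomial.hom_eval₂, hPa, map_zero]
  obtain ⟨y, hy⟩ := IsIntegrallyClosed.isIntegral_iff.mp hint
  exact hy ▸ y.2

end General

open Fermat.Agent.Arith

variable (A : ValuationSubring QBar) (N : ℕ)

/-- Series with coefficients fixed by inertia. -/
def CoeffFixed (x : LaurentSeries QBar) : Prop :=
  ∀ σ ∈ A.inertiaSubgroupIn ℚ, coeffMap (σ : QBar →+* QBar) x = x

/-- The field of level `N` over the field fixed by inertia. -/
def ratField : IntermediateField (inertiaField A) (LaurentSeries QBar) :=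
  IntermediateField.adjoin _ (divisorExpansionsC QBar N)

variable {A N}

theorem CoeffFixed.coeff_mem {x : LaurentSeries QBar} (h : CoeffFixed A x) (i : ℤ) :
    x.coeff i ∈ inertiaField A :=
  (mem_inertiaField A).mpr fun σ hσ => congrArg (fun z => HahnSeries.coeff z i) (h σ hσ)

theorem mem_bar_of_mem_ratField [NeZero N] {x : LaurentSeries QBar} (hx : x ∈ ratField A N) :
    x ∈ modularFunctionFieldBar N := by
  induction hx using IntermediateField.adjoin_induction with
  | mem z hz =>
    rw [modularFunctionFieldBar, ModFun.laurentBaseChange_eq_fullC]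
    exact IntermediateField.subset_adjoin _ _ hz
  | algebraMap c =>
    rw [IsScalarTower.algebraMap_apply (inertiaField A) QBar (LaurentSeries QBar)]
    exact (modularFunctionFieldBar N).algebraMap_mem _
  | add a b _ _ ha hb => exact add_mem ha hb
  | inv a _ ha => exact inv_mem ha
  | mul a b _ _ ha hb => exact mul_mem ha hb

/-- An element of the field over `ℚ̄` with fixed coefficients is rational. -/
theorem mem_ratField [NeZero N] {x : LaurentSeries QBar} (hx : x ∈ modularFunctionFieldBar N)
    (hf : CoeffFixed A x) : x ∈ ratField A N := by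
  let ι : inertiaField A →+* QBar := (inertiaField A).val.toRingHom
  let y : LaurentSeries (inertiaField A) :=
    { coeff := fun i => ⟨x.coeff i, hf.coeff_mem i⟩
      isPWO_support' := x.isPWO_support.mono fun i hi h => hi (Subtype.ext h) }
  have hy : coeffMap ι y = x := HahnSeries.ext (funext fun i => rfl)
  rw [modularFunctionFieldBar, ← JacTorsion.cExt_laurentBaseChange (ι := ι), ← hy] at hx
  have hmem := JacTorsion.mem_of_coeffMap_mem_cExt hx
  rw [ModFun.laurentBaseChange_eq_fullC] at hmem
  rw [← hy]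
  clear hx hy
  clear_value y
  clear hf
  induction hmem using IntermediateField.adjoin_induction with
  | mem z hz =>
    obtain ⟨d, hd, hdN, rfl⟩ := hz
    have := hd
    rw [coeffMap_qExpand, coeffMap_jqModC]
    exact IntermediateField.subset_adjoin _ _ ⟨d, hd, hdN, rfl⟩
  | algebraMap c =>
    rw [algebraMap_laurentSeries_eq_single, coeffMap_single,
      ← algebraMap_laurentSeries_eq_single]
    have := (ratField A N).algebraMap_mem c
    rwa [IsScalarTower.algebraMap_apply (inertiaField A) QBar (LaurentSeries QBar)] at this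
  | add a b _ _ ha hb => rw [map_add]; exact add_mem ha hb
  | inv a _ ha => rw [map_inv₀]; exact inv_mem ha
  | mul a b _ _ ha hb => rw [map_mul]; exact mul_mem ha hb

section Bar

variable [NeZero N]

local notation "FN" => modularFunctionFieldBar N

local notation "gal" σ => arithmeticGalois (L := QBar) (modularFunctionFieldFull N) σ

section Functions

-- The algebra structures on subfields of series fields are found at once.
attribute [local instance 1100] SubalgebraClass.toAlgebra Algebra.toModule

theorem coeffFixed_iff {x : FN} :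
    CoeffFixed A (x : LaurentSeries QBar) ↔ ∀ σ ∈ A.inertiaSubgroupIn ℚ, (gal σ) • x = x :=
  ⟨fun h σ hσ => Subtype.ext (h σ hσ), fun h σ hσ => congrArg Subtype.val (h σ hσ)⟩

theorem order_coeffMap {R S : Type*} [Field R] [Field S] (f : R →+* S) (x : LaurentSeries R) :
    (coeffMap f x).order = x.order := by
  rcases eq_or_ne x 0 with rfl | hx
  · simp
  have hx' : coeffMap f x ≠ 0 := (_root_.map_ne_zero (coeffMap f)).mpr hx
  refine le_antisymm (HahnSeries.order_le_of_coeff_ne_zero ?_)
    (HahnSeries.order_le_of_coeff_ne_zero ?_)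
  · rw [coeffMap_coeff, _root_.map_ne_zero]; exact mt HahnSeries.coeff_order_eq_zero.mp hx
  · have := mt HahnSeries.coeff_order_eq_zero.mp hx'
    rw [coeffMap_coeff] at this
    exact fun h => this (by rw [h, map_zero])

omit [NeZero N] in
/-- Galois fixes the cusp at infinity. -/
theorem galois_smul_inf [NeZero N] (σ : QBar ≃ₐ[ℚ] QBar) :
    (gal σ) • Mazur.Eisenstein.placeInf N = Mazur.Eisenstein.placeInf N := by
  set g := gal σ
  refine Place.ext (SetLike.ext fun x => ?_)
  rcases eq_or_ne x 0 with rfl | hx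
  · exact iff_of_true (zero_mem _) (zero_mem _)
  rw [JacTorsion.mem_iff_ord_nonneg, JacTorsion.mem_iff_ord_nonneg]
  have h1 := SemilinearAut.ord_smul g (Mazur.Eisenstein.placeInf N) (g⁻¹ • x)
  rw [smul_inv_smul] at h1
  have hx' : g⁻¹ • x ≠ 0 := (_root_.map_ne_zero (SemilinearAut.toRingAut g⁻¹)).mpr hx
  rw [h1, Mazur.Eisenstein.ord_placeInf N hx, Mazur.Eisenstein.ord_placeInf N hx',
    show ((g⁻¹ • x : FN) : LaurentSeries QBar)
      = coeffMap ((σ⁻¹ : QBar ≃ₐ[ℚ] QBar) : QBar →+* QBar) (x : LaurentSeries QBar) by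
      rw [← map_inv]; rfl, order_coeffMap]

/-- A class fixed by inertia contains a fixed divisor. -/
theorem exists_fixed_rep {x : JZero N} (hx : ∀ σ ∈ A.inertiaSubgroupIn ℚ, σ • x = x) :
    ∃ D : Divisor.degZero (K := QBar) (F := FN), Pic0.mk D = x ∧
      ∀ σ ∈ A.inertiaSubgroupIn ℚ, (gal σ) • (D : Divisor QBar FN) = D := by
  obtain ⟨D₀, rfl⟩ := Pic0.mk_surjective x
  obtain ⟨D, hD, hprin, hfix⟩ := exists_fixed_equiv
    ((fun σ => gal σ) '' (A.inertiaSubgroupIn ℚ : Set (QBar ≃ₐ[ℚ] QBar)))
    (Mazur.Eisenstein.placeInf N) (by rintro _ ⟨σ, -, rfl⟩; exact galois_smul_inf σ)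
    (D := (D₀ : Divisor QBar FN)) (Divisor.mem_degZero.mp D₀.2) (by
      rintro _ ⟨σ, hσ, rfl⟩
      have h := hx σ hσ
      rw [galois_smul_pic0_def, SemilinearAut.pic0_smul_mk] at h
      have h' := (QuotientAddGroup.eq_iff_sub_mem).mp h
      simpa [AddSubgroup.mem_addSubgroupOf] using h')
  refine ⟨⟨D, Divisor.mem_degZero.mpr hD⟩, (QuotientAddGroup.eq_iff_sub_mem).mpr ?_,
    fun σ hσ => hfix _ ⟨σ, hσ, rfl⟩⟩
  simpa [AddSubgroup.mem_addSubgroupOf] using hprin

/-- An element with trivial divisor is a constant. -/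
theorem exists_eq_mul_of_ord {x y : FN} (hx : x ≠ 0) (hy : y ≠ 0)
    (h : ∀ P : Place QBar FN, P.ord x = P.ord y) : ∃ c : QBar, x = algebraMap QBar FN c * y := by
  obtain ⟨c, hc⟩ := FF.eq_algebraMap_of_ord_nonneg (K := QBar) (f := x / y) fun P => by
    rw [JacTorsion.ord_div P hx hy, h P, sub_self]
  exact ⟨c, by rw [← hc, div_mul_cancel₀ _ hy]⟩

omit [NeZero N] in
theorem leadingCoeff_smul (σ : QBar ≃ₐ[ℚ] QBar) (x : FN) :
    (((gal σ) • x : FN) : LaurentSeries QBar).leadingCoeff
      = σ (x : LaurentSeries QBar).leadingCoeff := by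
  rw [coe_arithmeticGalois_smul, HahnSeries.leadingCoeff_eq, order_coeffMap,
    HahnSeries.leadingCoeff_eq, coeffMap_coeff]
  rfl

omit [NeZero N] in
theorem leadingCoeff_algebraMap_mul (c : QBar) (y : FN) :
    ((algebraMap QBar FN c * y : FN) : LaurentSeries QBar).leadingCoeff
      = c * (y : LaurentSeries QBar).leadingCoeff := by
  show (algebraMap QBar (LaurentSeries QBar) c * (y : LaurentSeries QBar)).leadingCoeff = _
  rw [HahnSeries.leadingCoeff_mul, algebraMap_laurentSeries_eq_single,
    HahnSeries.leadingCoeff_of_single]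

/-- Proportional normalised functions are equal. -/
theorem eq_of_leadingCoeff {x y : FN} {c : QBar} (h : x = algebraMap QBar FN c * y) (hy : y ≠ 0)
    (hl : (x : LaurentSeries QBar).leadingCoeff = (y : LaurentSeries QBar).leadingCoeff) :
    x = y := by
  have hy' : (y : LaurentSeries QBar) ≠ 0 := fun e => hy (Subtype.ext e)
  rw [h, leadingCoeff_algebraMap_mul] at hl
  rw [h, mul_eq_right₀ (HahnSeries.leadingCoeff_ne_zero.mpr hy') |>.mp hl, map_one, one_mul]

/-- A fixed divisor which is principal is the divisor of a function with fixed coefficients. -/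
theorem exists_fixed_fun {E : Divisor QBar FN} (hE : E.IsPrincipal)
    (hfix : ∀ σ ∈ A.inertiaSubgroupIn ℚ, (gal σ) • E = E) :
    ∃ f : FN, f ≠ 0 ∧ CoeffFixed A (f : LaurentSeries QBar) ∧ ∀ P, E P = P.ord f := by
  obtain ⟨f, hf0, hf⟩ := hE
  set l := (f : LaurentSeries QBar).leadingCoeff with hl
  have hl0 : l ≠ 0 := HahnSeries.leadingCoeff_ne_zero.mpr fun e => hf0 (Subtype.ext e)
  have hcl : algebraMap QBar FN l⁻¹ ≠ 0 := by simpa using hl0
  set f' := algebraMap QBar FN l⁻¹ * f with hf'
  have hf'0 : f' ≠ 0 := mul_ne_zero hcl hf0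
  have hord : ∀ P, E P = P.ord f' := fun P => by
    rw [hf', P.ord_mul hcl hf0, FF.ord_algebraMap, zero_add, hf]
  have hlead : (f' : LaurentSeries QBar).leadingCoeff = 1 := by
    rw [hf', leadingCoeff_algebraMap_mul, inv_mul_cancel₀ hl0]
  refine ⟨f', hf'0, coeffFixed_iff.mpr fun σ hσ => ?_, hord⟩
  have hne : (gal σ) • f' ≠ 0 := (_root_.map_ne_zero (SemilinearAut.toRingAut (gal σ))).mpr hf'0
  obtain ⟨c, hc⟩ := exists_eq_mul_of_ord hne hf'0 fun P => by
    conv_lhs => rw [← smul_inv_smul (gal σ) P]
    rw [SemilinearAut.ord_smul, ← hord, ← hord, ← SemilinearAut.divisor_smul_apply, hfix σ hσ]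
  exact eq_of_leadingCoeff hc hf'0 (by rw [leadingCoeff_smul, hlead, map_one])

/-- A fixed divisor has a local equation with fixed coefficients at every place. -/
theorem exists_fixed_ord {D : Divisor QBar FN}
    (hfix : ∀ σ ∈ A.inertiaSubgroupIn ℚ, (gal σ) • D = D) (P : Place QBar FN) :
    ∃ g : FN, g ≠ 0 ∧ CoeffFixed A (g : LaurentSeries QBar) ∧ P.ord g = - D P := by
  classical
  set P₀ := Mazur.Eisenstein.placeInf N with hP₀
  rcases eq_or_ne P P₀ with rfl | hP
  · have hj : Genus.jB N ≠ 0 := fun h => by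
      have := Mazur.Eisenstein.ord_placeInf_jB N
      rw [h, Place.ord_zero] at this
      omega
    refine ⟨Genus.jB N ^ D P₀, zpow_ne_zero _ hj, coeffFixed_iff.mpr fun σ _ => ?_, ?_⟩
    · show SemilinearAut.toRingAut (gal σ) _ = _
      rw [map_zpow₀]
      congr 1
      exact Subtype.ext (coeffMap_jqModC _)
    · rw [Place.ord_zpow, hP₀, Mazur.Eisenstein.ord_placeInf_jB]; ring
  obtain ⟨c, hc⟩ := FF.exists_ell_eq (K := QBar) (F := FN)
  set t : ℕ := (c - Divisor.degree D).toNat + (genusFF QBar FN - Divisor.degree D).toNat + 1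
    with ht
  set B : Divisor QBar FN := D + Finsupp.single P₀ (t : ℤ) with hB
  set B' : Divisor QBar FN := B - Finsupp.single P 1 with hB'
  have hdeg : Divisor.degree B = Divisor.degree D + t := by
    rw [hB, map_add, Divisor.degree_single, FF.deg_eq_one]; simp
  have hdeg' : Divisor.degree B' = Divisor.degree D + t - 1 := by
    rw [hB', map_sub, hdeg, Divisor.degree_single, FF.deg_eq_one]; simp
  have h1 := hc B (by rw [hdeg]; omega)
  have h2 := hc B' (by rw [hdeg']; omega)
  set W := riemannRochSpace B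
  have hW : (Module.finrank QBar W : ℤ) = FF.ell QBar B := rfl
  have : FiniteDimensional QBar W := FiniteDimensional.of_finrank_pos (by
    have : (0 : ℤ) < Module.finrank QBar W := by rw [hW, h1, hdeg]; omega
    exact_mod_cast this)
  have hBfix : ∀ σ ∈ A.inertiaSubgroupIn ℚ, (gal σ) • B = B := fun σ hσ => by
    rw [hB, smul_add, hfix σ hσ, SemilinearAut.smul_single, hP₀, galois_smul_inf]
  have hstable : ∀ σ ∈ (A.inertiaSubgroupIn ℚ : Set (QBar ≃ₐ[ℚ] QBar)), ∀ x ∈ W,
      arithmeticRingAut (modularFunctionFieldFull N) σ x ∈ W := by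
    intro σ hσ x hx
    rw [mem_riemannRochSpace_iff] at hx ⊢
    intro v
    rcases eq_or_ne x 0 with rfl | hx0
    · exact Or.inl (map_zero _)
    refine Or.inr ?_
    have h3 := (hx ((gal σ)⁻¹ • v)).resolve_left hx0
    rw [← hBfix σ hσ, SemilinearAut.divisor_smul_apply]
    conv_rhs => rw [← smul_inv_smul (gal σ) v]
    exact h3.trans (SemilinearAut.ord_smul _ _ x).ge
  obtain ⟨b, hbW, hbli, hbfix⟩ := RT.Mazur.exists_fixed_basis
    (A.inertiaSubgroupIn ℚ : Set (QBar ≃ₐ[ℚ] QBar)) W hstable
  obtain ⟨i, hi⟩ : ∃ i, b i ∉ riemannRochSpace B' := by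
    by_contra! hall
    have : FiniteDimensional QBar (riemannRochSpace B') := by
      refine Submodule.finiteDimensional_of_le (S₂ := W) (FF.riemannRochSpace_mono ?_)
      rw [hB', sub_le_self_iff]
      exact Finsupp.single_nonneg.mpr zero_le_one
    have h4 : Module.finrank QBar W ≤ Module.finrank QBar (riemannRochSpace B') := by
      have h5 : LinearIndependent QBar fun i => (⟨b i, hall i⟩ : riemannRochSpace B') :=
        LinearIndependent.of_comp (riemannRochSpace B').subtype hbli
      simpa using h5.fintype_card_le_finrank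
    have h6 : (Module.finrank QBar W : ℤ) ≤ FF.ell QBar B' := by
      show _ ≤ ((Module.finrank QBar (riemannRochSpace B') : ℕ) : ℤ)
      exact_mod_cast h4
    rw [hW, h1, h2, hdeg, hdeg'] at h6
    omega
  have hbi0 : b i ≠ 0 := fun h => hi (by rw [h]; exact zero_mem _)
  refine ⟨b i, hbi0, coeffFixed_iff.mpr fun σ hσ => hbfix i σ hσ, ?_⟩
  rw [mem_riemannRochSpace_iff] at hi
  push Not at hi
  obtain ⟨v, -, hv⟩ := hi
  have h7 := (mem_riemannRochSpace_iff.mp (hbW i) v).resolve_left hbi0
  rcases eq_or_ne v P with rfl | hvP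
  · simp only [hB', hB, Finsupp.sub_apply, Finsupp.add_apply, Finsupp.single_eq_same,
      Finsupp.single_eq_of_ne hP] at hv h7
    omega
  · simp only [hB', Finsupp.sub_apply, Finsupp.single_eq_of_ne hvP, sub_zero] at hv
    omega

end Functions

/-- A rational function whose divisor is `m` times a fixed divisor has order divisible by `m` at
every valuation trivial on the constants. -/
theorem dvd_log_valuation {m : ℕ} {D : Divisor QBar FN}
    (hfix : ∀ σ ∈ A.inertiaSubgroupIn ℚ, (gal σ) • D = D) {f : FN} (hf0 : f ≠ 0)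
    (hord : ∀ P : Place QBar FN, P.ord f = (m : ℤ) * D P)
    (hf : (f : LaurentSeries QBar) ∈ ratField A N) (w : Valuation (ratField A N) (WithZero (Multiplicative ℤ)))
    (hw : ∀ c : inertiaField A, c ≠ 0 → w (algebraMap (inertiaField A) (ratField A N) c) = 1) :
    (m : ℤ) ∣ WithZero.log (w ⟨(f : LaurentSeries QBar), hf⟩) := by
  classical
  let e : ratField A N →+* FN :=
    ((ratField A N).val.toRingHom).codRestrict (modularFunctionFieldBar N).toSubfield
      fun x => mem_bar_of_mem_ratField x.2
  obtain ⟨V, hwV, hunit⟩ := exists_dominating e w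
  have : Algebra.IsIntegral (inertiaField A) QBar := Algebra.IsIntegral.tower_top (R := ℚ)
  have hconst : ∀ a : QBar, algebraMap QBar FN a ∈ V :=
    mem_of_forall_algebraMap_mem (algebraMap QBar FN) V fun c => by
      have hc : e (algebraMap _ (ratField A N) c) =
          algebraMap QBar FN (algebraMap (inertiaField A) QBar c) :=
        Subtype.ext (IsScalarTower.algebraMap_apply (inertiaField A) QBar (LaurentSeries QBar) c)
      rw [← hc]
      refine hwV _ ?_
      rcases eq_or_ne c 0 with rfl | h0
      · rw [map_zero, map_zero]; exact zero_le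
      · exact (hw c h0).le
  let x : ratField A N := ⟨(f : LaurentSeries QBar), hf⟩
  have hex : e x = f := Subtype.ext rfl
  have hx0 : x ≠ 0 := fun h => hf0 (by rw [← hex, h, map_zero])
  by_cases htop : V = ⊤
  · rw [hunit x hx0 (htop ▸ ValuationSubring.mem_top _) (htop ▸ ValuationSubring.mem_top _),
      WithZero.log_one]
    exact dvd_zero _
  let P : Place QBar FN := FF.placeOfValuationSubring V hconst htop
  obtain ⟨g, hg0, hgf, hgord⟩ := exists_fixed_ord hfix P
  let y : ratField A N := ⟨(g : LaurentSeries QBar), mem_ratField g.2 hgf⟩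
  have hey : e y = g := Subtype.ext rfl
  have hy0 : y ≠ 0 := fun h => hg0 (by rw [← hey, h, map_zero])
  have hz0 : x * y ^ m ≠ 0 := mul_ne_zero hx0 (pow_ne_zero _ hy0)
  have hez : P.ord (e (x * y ^ m)) = 0 := by
    rw [map_mul, map_pow, hex, hey, P.ord_mul hf0 (pow_ne_zero _ hg0), JacTorsion.ord_pow,
      hord, hgord]
    ring
  have h1 : w (x * y ^ m) = 1 := hunit _ hz0
    (JacTorsion.mem_of_ord_nonneg P hez.ge)
    (JacTorsion.mem_of_ord_nonneg P (by rw [map_inv₀, P.ord_inv, hez, neg_zero]))
  have hwy : w y ≠ 0 := w.ne_zero_iff.mpr hy0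
  have hwx : w x ≠ 0 := w.ne_zero_iff.mpr hx0
  have h2 := congrArg WithZero.log h1
  rw [map_mul, map_pow, WithZero.log_mul hwx (pow_ne_zero _ hwy), WithZero.log_pow,
    WithZero.log_one, nsmul_eq_mul] at h2
  exact ⟨- WithZero.log (w y), by linear_combination h2⟩

end Bar

end Fermat.Agent.Carayol

end
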