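import Fermat.Agent.ModFun.HeckeRoots
import Fermat.Agent.JacTorsion.Orbit
import Fermat.Agent.Carayol.Rational

/-!
# The two degeneracy maps to level `q M q`

Their degrees are at most `q`; so `q` distinct extensions of an embedding compute the norm.
-/

set_option autoImplicit false
set_option synthInstance.maxHeartbeats 100000

noncomputable section

namespace Fermat.Agent.Carayol

open ModularCurve AlgebraicCurve Polynomial
open Fermat.Agent.Arith

section Norm

variable {K F' F M σ : Type*} [Field K] [Field F'] [Field F] [Field M] [Algebra K F'] [Algebra K F]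
  [Fintype σ]

/-- At least as many extensions of an embedding as the degree compute the norm. -/
theorem norm_along_eq_prod (φ : F' →ₐ[K] F) (hfin : FiniteAlong K φ) (χ : F' →+* M)
    (h : σ → (F →+* M)) (hχ : ∀ s x, h s (φ x) = χ x) (hinj : Function.Injective h)
    (hle : finrankAlong K φ ≤ Fintype.card σ) (x : F) :
    χ (letI := algebraAlong φ; Algebra.norm F' x) = ∏ s, h s x := by
  let _ := algebraAlong φ
  have : Module.Finite F' F := hfin
  let _ : Algebra F' M := χ.toAlgebra
  let H : σ → (F →ₐ[F'] M) := fun s => { h s with commutes' := hχ s }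
  have hH : Function.Injective H := fun s t e =>
    hinj (RingHom.ext fun y => DFunLike.congr_fun e y)
  have hcard : Fintype.card σ = Module.finrank F' F := by
    refine le_antisymm ?_ hle
    have := ((linearIndependent_toLinearMap F' F M).comp H hH).fintype_card_le_finrank
    rwa [Module.finrank_linearMap, Module.finrank_self, mul_one] at this
  have key := congrArg (fun P : M[X] => P.coeff 0)
    (ModFun.charpoly_map_eq_prod_of_card H hH hcard x)
  simp only [coeff_map, coeff_zero_prod, coeff_sub, coeff_X_zero, coeff_C_zero, zero_sub] at key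
  show algebraMap F' M (Algebra.norm F' x) = _
  let b := Module.finBasis F' F
  rw [Algebra.norm_apply, ← LinearMap.det_toMatrix b, Matrix.det_eq_sign_charpoly_coeff,
    LinearMap.charpoly_toMatrix, map_mul, map_pow, map_neg, map_one, Fintype.card_fin, ← hcard,
    key, Finset.prod_neg, Finset.card_univ, ← mul_assoc, ← mul_pow, neg_one_mul, neg_neg, one_pow, one_mul]
  rfl

end Norm

/-- The field over `ℚ̄` grows with the level. -/
theorem bar_mono {a b : ℕ} (h : a ∣ b) :
    modularFunctionFieldBar a ≤ modularFunctionFieldBar b := by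
  simp only [modularFunctionFieldBar, ModFun.laurentBaseChange_eq_fullC]
  refine IntermediateField.adjoin.mono _ _ _ ?_
  rintro x ⟨d, hd, hda, rfl⟩
  exact ⟨d, hd, hda.trans h, rfl⟩

/-- `j(d τ)` is rational in `j(τ)` and `j(N τ)`. -/
theorem mem_adjoin_pair (N : ℕ) [NeZero N] {d : ℕ} [NeZero d] (hd : d ∣ N) :
    qExpand QBar d (jqModC QBar)
      ∈ IntermediateField.adjoin QBar {jqModC QBar, qExpand QBar N (jqModC QBar)} := by
  refine JacTorsion.mem_of_coeffMap_mem_cExt (ι := JacTorsion.ιQ) ?_
  rw [coeffMap_qExpand, coeffMap_jqModC]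
  have h : qExpand ℂ d (jqModC ℂ) ∈ IntermediateField.adjoin ℂ {jqModC ℂ, jqNModC ℂ N} := by
    have := jqModCd_mem_full ℂ N hd
    rwa [ModFun.fullC_eq_fieldC] at this
  refine (IntermediateField.adjoin_le_iff.mpr ?_) h
  rintro z (rfl | rfl)
  · have := JacTorsion.coeffMap_mem_cExt JacTorsion.ιQ
      (IntermediateField.adjoin QBar {jqModC QBar, qExpand QBar N (jqModC QBar)})
      (IntermediateField.subset_adjoin _ _ (Or.inl rfl))
    rwa [coeffMap_jqModC] at this
  · have := JacTorsion.coeffMap_mem_cExt JacTorsion.ιQ
      (IntermediateField.adjoin QBar {jqModC QBar, qExpand QBar N (jqModC QBar)})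
      (IntermediateField.subset_adjoin _ _ (Or.inr rfl))
    rwa [coeffMap_qExpand, coeffMap_jqModC] at this

theorem val_comp_inclusion {K L : Type*} [Field K] [Field L] [Algebra K L]
    {E E' : IntermediateField K L} (h : E ≤ E') :
    E'.val.toRingHom.comp (IntermediateField.inclusion h).toRingHom = E.val.toRingHom :=
  RingHom.ext fun _ => rfl

/-- The field of level `N` is generated by `j(τ)` and `j(N τ)`. -/
theorem bar_eq_adjoin_pair (N : ℕ) [NeZero N] :
    modularFunctionFieldBar N
      = IntermediateField.adjoin QBar {jqModC QBar, qExpand QBar N (jqModC QBar)} := by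
  rw [modularFunctionFieldBar, ModFun.laurentBaseChange_eq_fullC]
  refine le_antisymm ?_ ?_
  · rw [modularFunctionFieldFullC, IntermediateField.adjoin_le_iff]
    rintro x ⟨d, hd, hdN, rfl⟩
    have := hd
    exact mem_adjoin_pair N hdN
  · rw [IntermediateField.adjoin_le_iff]
    rintro x (rfl | rfl)
    · exact jqModC_mem_full QBar N
    · exact jqModCd_mem_full QBar N dvd_rfl

/-- A subfield containing the constants, `j(τ)` and `j(N τ)` is everything. -/
theorem mem_of_pair (N : ℕ) [NeZero N] (T : Subfield (modularFunctionFieldBar N))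
    (hc : ∀ a : QBar, algebraMap QBar (modularFunctionFieldBar N) a ∈ T)
    (h1 : ModFun.jBase N QBar ∈ T) (hN : Mazur.Eisenstein.jAt N N dvd_rfl ∈ T)
    (x : modularFunctionFieldBar N) : x ∈ T :=
  ModFun.mem_of_eq_adjoin _ (bar_eq_adjoin_pair N) T hc (by
    rintro y (hy | hy)
    · rw [show y = ModFun.jBase N QBar from Subtype.ext hy]; exact h1
    · rw [show y = Mazur.Eisenstein.jAt N N dvd_rfl from Subtype.ext hy]; exact hN) x

variable {q M : ℕ} [NeZero q] [NeZero M]

/-- The degree of the first map. -/
theorem finrankAlong_alpha_sq (hq : q.Prime) :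
    finrankAlong QBar (heckeAlphaBar QBar (q * M) q) = q := by
  set N := q * M
  let _ := algebraAlong (heckeAlphaBar QBar N q)
  have := isScalarTower_along (heckeAlphaBar QBar N q)
  have : FiniteDimensional (modularFunctionFieldBar N) (modularFunctionFieldBar (N * q)) :=
    FF.finiteAlong (heckeAlphaBar QBar N q)
  have h := (FF.finite_and_finrank_adjoin_algebraMap (F' := modularFunctionFieldBar (N * q))
    (ModFun.transcendental_jBase N QBar)).2
  have hj : algebraMap _ (modularFunctionFieldBar (N * q)) (ModFun.jBase N QBar)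
      = ModFun.jBase (N * q) QBar := Subtype.ext (by
        show (heckeAlphaBar QBar N q (ModFun.jBase N QBar) : LaurentSeries QBar) = _
        rw [coe_heckeAlphaBar, ModFun.coe_jBase, ModFun.coe_jBase])
  have hψ : dedekindPsi (N * q) = dedekindPsi N * q := by
    rw [mul_comm N q, Gamma0.dedekindPsi_mul_of_dvd hq (dvd_mul_right q M), mul_comm]
  rw [hj, (ModFun.finrank_baseChange (N * q) QBar).2, (ModFun.finrank_baseChange N QBar).2, hψ] at h
  have hpos : 0 < dedekindPsi N := by rw [← ModFun.natCard_coset]; exact Nat.card_pos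
  exact (Nat.eq_of_mul_eq_mul_left hpos h).symm

/-- The characteristic polynomial of the correspondence on a function of level one. -/
theorem exists_equation_one (hq : q.Prime) (f : modularFunctionFieldBar 1) :
    ∃ P : (modularFunctionFieldBar 1)[X], P.Monic ∧ P.natDegree = q + 1 ∧
      P.eval₂ ((qExpand QBar q).comp (modularFunctionFieldBar 1).val.toRingHom)
          (qExpand QBar (q * q) (f : LaurentSeries QBar)) = 0 ∧
      P.eval₂ ((qExpand QBar q).comp (modularFunctionFieldBar 1).val.toRingHom)
          (f : LaurentSeries QBar) = 0 := by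
  classical
  obtain ⟨ζ, hζ⟩ := HasEnoughRootsOfUnity.exists_primitiveRoot QBar q
  have hqζ : IsPrimitiveRoot (Units.mk0 ζ (hζ.ne_zero hq.ne_zero)) q :=
    IsPrimitiveRoot.coe_units_iff.mp hζ
  have hfin1 := FF.finiteAlong (heckeBetaBar QBar 1 q)
  let := algebraAlong (heckeBetaBar QBar 1 q)
  have : Module.Finite (modularFunctionFieldBar 1) (modularFunctionFieldBar (1 * q)) := hfin1
  have hroots := ModFun.charpoly_beta_alpha_map (L := QBar) ModFun.iotaC (N := 1) hq
    hq.not_dvd_one _ hqζ f hfin1
  refine ⟨_, LinearMap.charpoly_monic (Algebra.lmul (modularFunctionFieldBar 1)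
    (modularFunctionFieldBar (1 * q)) (heckeAlphaBar QBar 1 q f)), ?_, ?_, ?_⟩
  · refine (natDegree_map_eq_of_injective
      ((qExpand QBar q).comp (modularFunctionFieldBar 1).val.toRingHom).injective _).symm.trans
      ((congrArg natDegree hroots).trans ?_)
    rw [natDegree_mul (X_sub_C_ne_zero _)
      (Finset.prod_ne_zero_iff.mpr fun i _ => X_sub_C_ne_zero _), natDegree_X_sub_C,
      natDegree_prod _ _ fun i _ => X_sub_C_ne_zero _]
    simp [add_comm]
  · refine (eval_map _ _).symm.trans ((congrArg (Polynomial.eval _) hroots).trans ?_)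
    rw [eval_mul, eval_sub, eval_X, eval_C, sub_self, zero_mul]
  · refine (eval_map _ _).symm.trans ((congrArg (Polynomial.eval _) hroots).trans ?_)
    rw [eval_mul, eval_prod]
    refine mul_eq_zero_of_right _ (Finset.prod_eq_zero (Finset.mem_range.mpr hq.pos) ?_)
    rw [pow_zero, ModFun.twist_one_apply, eval_sub, eval_X, eval_C, sub_self]

/-- The modular equation of degree `q + 1`, with its roots `j(q²τ)` and `j(τ)` over `j(qτ)`. -/
theorem exists_modular_equation (hq : q.Prime) :
    ∃ P : (modularFunctionFieldBar (q * M))[X], P.Monic ∧ P.natDegree = q + 1 ∧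
      P.eval₂ ((qExpand QBar q).comp (modularFunctionFieldBar (q * M)).val.toRingHom)
          (qExpand QBar (q * q) (jqModC QBar)) = 0 ∧
      P.eval₂ ((qExpand QBar q).comp (modularFunctionFieldBar (q * M)).val.toRingHom)
          (jqModC QBar) = 0 := by
  obtain ⟨P, hm, hd, h1, h2⟩ := exists_equation_one hq (ModFun.jBase 1 QBar)
  rw [ModFun.coe_jBase] at h1 h2
  let incl : modularFunctionFieldBar 1 →+* modularFunctionFieldBar (q * M) :=
    (IntermediateField.inclusion (bar_mono (one_dvd (q * M)))).toRingHom
  have hcomp : ((qExpand QBar q).comp (modularFunctionFieldBar (q * M)).val.toRingHom).comp incl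
      = (qExpand QBar q).comp (modularFunctionFieldBar 1).val.toRingHom := by
    have hv : (modularFunctionFieldBar (q * M)).val.toRingHom.comp incl
        = (modularFunctionFieldBar 1).val.toRingHom :=
      val_comp_inclusion _
    rw [RingHom.comp_assoc, hv]
  exact ⟨P.map incl, hm.map _, by rw [natDegree_map, hd], by rw [eval₂_map, hcomp, h1],
    by rw [eval₂_map, hcomp, h2]⟩

/-- A second root in the base lowers the degree of a primitive element. -/
theorem finrank_le_of_roots {E L M : Type*} [Field E] [Field L] [Field M] [Algebra E L]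
    (e : L →+* M) {P : E[X]} (hm : P.Monic) {d : ℕ} (hd : P.natDegree = d + 1) {c : E} {t : L}
    (hc : P.eval₂ (e.comp (algebraMap E L)) (e (algebraMap E L c)) = 0)
    (ht : P.eval₂ (e.comp (algebraMap E L)) (e t) = 0) (hne : t ≠ algebraMap E L c)
    (htop : IntermediateField.adjoin E ({t} : Set L) = ⊤) : Module.finrank E L ≤ d := by
  rw [← hom_eval₂, map_eq_zero_iff _ e.injective] at hc ht
  have hcroot : P.IsRoot c := by
    apply (algebraMap E L).injective
    rwa [map_zero, ← eval₂_at_apply]
  set P₂ := P /ₘ (X - C c)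
  have hfac : (X - C c) * P₂ = P := mul_divByMonic_eq_iff_isRoot.mpr hcroot
  have hP₂ : aeval t P₂ = 0 := by
    have h : aeval t P = 0 := ht
    rw [← hfac, map_mul, map_sub, aeval_X, aeval_C] at h
    exact (mul_eq_zero.mp h).resolve_left (sub_ne_zero.mpr hne)
  have hP₂m : P₂.Monic := (monic_X_sub_C c).of_mul_monic_left (hfac.symm ▸ hm)
  rw [← IntermediateField.finrank_top', ← htop,
    IntermediateField.adjoin.finrank ⟨P₂, hP₂m, hP₂⟩]
  refine (natDegree_le_of_dvd (minpoly.dvd _ _ hP₂) hP₂m.ne_zero).trans (le_of_eq ?_)
  rw [natDegree_divByMonic _ (monic_X_sub_C c), hd, natDegree_X_sub_C, Nat.add_sub_cancel]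

/-- The degree of the second map is at most `q`. -/
theorem finrankAlong_beta_sq_le (hq : q.Prime) :
    finrankAlong QBar (heckeBetaBar QBar (q * M) q) ≤ q := by
  obtain ⟨P, hm, hd, h1, h2⟩ := exists_modular_equation (M := M) hq
  set β := heckeBetaBar QBar (q * M) q
  let _ := algebraAlong β
  have := isScalarTower_along β
  have hcomp : (modularFunctionFieldBar (q * M * q)).val.toRingHom.comp
      (algebraMap (modularFunctionFieldBar (q * M)) (modularFunctionFieldBar (q * M * q)))
      = (qExpand QBar q).comp (modularFunctionFieldBar (q * M)).val.toRingHom :=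
    RingHom.ext fun x => coe_heckeBetaBar (q * M) q x
  have hc : (modularFunctionFieldBar (q * M * q)).val.toRingHom
      (algebraMap (modularFunctionFieldBar (q * M)) (modularFunctionFieldBar (q * M * q))
        (Mazur.Eisenstein.jAt (q * M) q (dvd_mul_right q M)))
      = qExpand QBar (q * q) (jqModC QBar) := by
    refine (RingHom.congr_fun hcomp _).trans ?_
    rw [RingHom.comp_apply]
    exact qExpand_qExpand q q _
  refine finrank_le_of_roots (t := ModFun.jBase (q * M * q) QBar)
    (modularFunctionFieldBar (q * M * q)).val.toRingHom hm hd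
    (c := Mazur.Eisenstein.jAt (q * M) q (dvd_mul_right q M)) ?_ ?_ ?_ ?_
  · rw [hc, hcomp]; exact h1
  · rw [hcomp]; exact h2
  · intro h
    have h0 : jqModC QBar = qExpand QBar (q * q) (jqModC QBar) :=
      (congrArg (modularFunctionFieldBar (q * M * q)).val.toRingHom h).trans hc
    have h3 := congrArg (fun z => HahnSeries.coeff z (-1 : ℤ)) h0
    simp only [coeff_jqModC_neg_one] at h3
    rw [qExpand_coeff_of_not_dvd] at h3
    · exact one_ne_zero h3
    · intro hdvd
      have h4 : q * q ∣ 1 := Int.natCast_dvd_natCast.mp (by simpa using hdvd.neg_right)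
      exact hq.not_dvd_one ((dvd_mul_right q q).trans h4)
  · set T := IntermediateField.adjoin (modularFunctionFieldBar (q * M))
      ({ModFun.jBase (q * M * q) QBar} : Set (modularFunctionFieldBar (q * M * q)))
    refine eq_top_iff.mpr fun x _ => ?_
    refine mem_of_pair (q * M * q) T.toSubfield (fun a => ?_)
      (IntermediateField.subset_adjoin _ _ rfl) ?_ x
    · rw [IsScalarTower.algebraMap_apply QBar (modularFunctionFieldBar (q * M))]
      exact T.algebraMap_mem _
    · have he : algebraMap (modularFunctionFieldBar (q * M)) (modularFunctionFieldBar (q * M * q))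
          (Mazur.Eisenstein.jAt (q * M) (q * M) dvd_rfl)
          = Mazur.Eisenstein.jAt (q * M * q) (q * M * q) dvd_rfl := by
        refine Subtype.ext ((RingHom.congr_fun hcomp _).trans ?_)
        rw [RingHom.comp_apply]
        exact (qExpand_qExpand (q * M) q _).trans (qExpand_congr (mul_comm q (q * M)) _)
      rw [← he]
      exact T.algebraMap_mem _

/-- The norm of a function with fixed coefficients has fixed coefficients. -/
theorem coeffFixed_norm {A : ValuationSubring QBar} {N ℓ : ℕ} [NeZero N] [NeZero ℓ]
    (φ : modularFunctionFieldBar N →ₐ[QBar] modularFunctionFieldBar (N * ℓ))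
    (hφ : ∀ (σ : QBar ≃ₐ[ℚ] QBar) (y : modularFunctionFieldBar N),
      φ (arithmeticRingAut (modularFunctionFieldFull N) σ y)
        = arithmeticRingAut (modularFunctionFieldFull (N * ℓ)) σ (φ y))
    {x : modularFunctionFieldBar (N * ℓ)} (hx : CoeffFixed A (x : LaurentSeries QBar)) :
    CoeffFixed A ((letI := algebraAlong φ; Algebra.norm (modularFunctionFieldBar N) x :
      modularFunctionFieldBar N) : LaurentSeries QBar) := by
  let _ := algebraAlong φ
  intro σ hσ
  have h := Algebra.norm_eq_of_equiv_equiv (arithmeticRingAut (modularFunctionFieldFull N) σ)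
    (arithmeticRingAut (modularFunctionFieldFull (N * ℓ)) σ) (RingHom.ext fun y => hφ σ y) x
  rw [show arithmeticRingAut (modularFunctionFieldFull (N * ℓ)) σ x = x from
    Subtype.ext (hx σ hσ)] at h
  conv_lhs => rw [h]
  exact congrArg Subtype.val ((arithmeticRingAut _ σ).apply_symm_apply _)

end Fermat.Agent.Carayol

end
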