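import Fermat.Agent.Carayol.CuspEmb
import Mathlib.FieldTheory.Galois.Basic
import Mathlib.FieldTheory.KummerExtension
import Mathlib.FieldTheory.Normal.Closure
import Mathlib.LinearAlgebra.LinearIndependent.Lemmas
import Mathlib.RingTheory.Algebraic.Integral

/-!
# Rigidity of coherent roots

A function which is coherently an `m`-th power near every point of the special fibre and whose
divisor is divisible by `m` is an `m`-th power: the trace of an idempotent expands at a cusp as a
polynomial in `j`, so the cover defined by a root has a connected special fibre.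
-/

set_option autoImplicit false

noncomputable section

namespace Fermat.Agent.Carayol

open WeierstrassCurve IsLocalRing Polynomial WithZero

variable {K Ω : Type*} [Field K] [Field Ω] [Algebra K Ω] [DecidableEq Ω]

/-- Approximation of an idempotent. -/
lemma gauss_approx {F : Type*} [Field F] (v : Valuation F ℤᵐ⁰) {x : F} {n : ℕ} :
    (v x < 1 → v (1 - (1 - x ^ n) ^ n) ≤ exp (-(n : ℤ))) ∧
    (v (x - 1) < 1 → v (1 - (1 - x ^ n) ^ n - 1) ≤ exp (-(n : ℤ))) := by
  have hpow : ∀ y : F, v y < 1 → v (y ^ n) ≤ exp (-(n : ℤ)) := fun y hy => by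
    rw [map_pow]
    rcases eq_or_ne (v y) 0 with h0 | h0
    · rcases eq_or_ne n 0 with rfl | hn
      · simp
      · simp [h0, zero_pow hn]
    refine (pow_le_pow_left₀ zero_le (?_ : v y ≤ exp (-1 : ℤ)) n).trans_eq ?_
    · rw [← exp_log h0, exp_le_exp]
      rw [← exp_log h0, ← exp_zero, exp_lt_exp] at hy
      omega
    · rw [← exp_nsmul, nsmul_eq_mul, mul_neg_one]
  constructor <;> intro hx
  · obtain ⟨c, hc⟩ : ∃ c, 1 - (1 - x ^ n) ^ n = x ^ n * c ∧ v c ≤ 1 := by
      refine ⟨∑ i ∈ Finset.range n, (1 - x ^ n) ^ i, ?_, ?_⟩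
      · have := geom_sum_mul_neg (1 - x ^ n) n
        rw [sub_sub_cancel] at this
        rw [← this, mul_comm]
      · refine v.map_sum_le fun i _ => ?_
        rw [map_pow]
        refine pow_le_one' ((v.map_sub _ _).trans (max_le (map_one v).le ?_)) _
        rw [map_pow]
        exact pow_le_one' hx.le _
    rw [hc.1, map_mul]
    exact (mul_le_of_le_one_right' hc.2).trans (hpow x hx)
  · rw [sub_sub_cancel_left, Valuation.map_neg]
    refine hpow _ ?_
    have h1 : v x = 1 := (v.map_eq_of_sub_lt (by rwa [map_one])).trans (map_one v)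
    rw [← geom_sum_mul_neg x n, map_mul, Valuation.map_sub_swap]
    refine lt_of_le_of_lt (mul_le_of_le_one_left' (v.map_sum_le fun i _ => ?_)) hx
    rw [map_pow, h1, one_pow]

/-- The composite of a normal extension with a splitting field. -/
lemma exists_galois_composite {k M F : Type*} [Field k] [Field M] [Field F] [Algebra k M]
    [Algebra k F] [Normal k M] [FiniteDimensional k M] [CharZero k] (σ : M →ₐ[k] F) (p : k[X])
    (hp : (p.map (algebraMap k F)).Splits) :
    ∃ E : IntermediateField k F, FiniteDimensional k E ∧ IsGalois k E ∧ (∀ z, σ z ∈ E) ∧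
      p.rootSet F ⊆ E := by
  have : p.IsSplittingField k (IntermediateField.adjoin k (p.rootSet F)) :=
    IntermediateField.adjoin_rootSet_isSplittingField hp
  have : Normal k (IntermediateField.adjoin k (p.rootSet F)) := Normal.of_isSplittingField p
  have : FiniteDimensional k (IntermediateField.adjoin k (p.rootSet F)) :=
    Polynomial.IsSplittingField.finiteDimensional _ p
  have : Normal k σ.fieldRange := Normal.of_algEquiv (AlgEquiv.ofInjectiveField σ)
  have : FiniteDimensional k σ.fieldRange :=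
    LinearEquiv.finiteDimensional (AlgEquiv.ofInjectiveField σ).toLinearEquiv
  refine ⟨σ.fieldRange ⊔ IntermediateField.adjoin k (p.rootSet F), inferInstance, ⟨⟩,
    fun z => le_sup_left (a := σ.fieldRange) ⟨z, rfl⟩, fun y hy => ?_⟩
  exact le_sup_right (a := σ.fieldRange) (IntermediateField.subset_adjoin _ _ hy)

namespace CuspEmb

open SerBase TateLevel

variable {L : TateLevel K Ω} {U : UnramBase K L.frame.q} {S : SerBase U} (C : CuspEmb L S)

set_option maxHeartbeats 1600000 in
/-- The core of the rigidity, inside a Galois extension containing a root. -/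
theorem rigid_core {E : Type*} [Field E] [Algebra L.lineField E]
    [FiniteDimensional L.lineField E] [IsGalois L.lineField E] (jE : Ω →ₐ[L.lineField] E)
    (ι : E →+* S.SerF) (hι : ∀ z, ι (jE z) = C.σ z)
    {m : ℕ} (hm : IsUnit (m : U.W)) {u : Ωˣ} {ρ : E} (hρ : ρ ^ m = jE (u : Ω))
    (H : Ideal (L.modelRing U) → Ωˣ)
    (hcong : ∀ (P : Ideal (L.modelRing U)) [P.IsPrime], (L.frame.q : L.modelRing U) ∈ P →
      InMax (localRing P) (((u / H P ^ m : Ωˣ) : Ω) - 1))
    (hcoh : ∀ (P P' : Ideal (L.modelRing U)) [P.IsPrime] [P'.IsPrime],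
      (L.frame.q : L.modelRing U) ∈ P → P ≤ P' →
        InMax (localRing P) (((H P' / H P : Ωˣ) : Ω) - 1)) :
    ∃ r : Ω, r ^ m = u := by
  classical
  have hm0 : m ≠ 0 := fun e => by simp [e] at hm
  obtain ⟨ζ, hζ, hζres⟩ := SerBase.exists_root_of_unity U hm
  have hcst_inj : Function.Injective S.cst :=
    S.cst_injective
  have hζF : IsPrimitiveRoot (S.cst ζ) m := hζ.map_of_injective hcst_inj
  have hpow_inj : ∀ i < m, ∀ k < m, S.gauss (S.cst (ζ ^ i) - S.cst (ζ ^ k)) < 1 → i = k := by
    intro i hi k hk h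
    by_contra hne
    have : IsUnit (ζ ^ i - ζ ^ k) := by
      refine (IsLocalRing.residue_ne_zero_iff_isUnit _).1 ?_
      rw [map_sub, map_pow, map_pow, sub_ne_zero]
      exact fun e => hne (hζres.pow_inj hi hk e)
    rw [← map_sub, S.gauss_cst_unit this] at h
    exact lt_irrefl _ h
  -- the embeddings
  let τ : (E ≃ₐ[L.lineField] E) → (Ω →+* S.SerF) := fun γ =>
    (ι.comp γ.toRingEquiv.toRingHom).comp jE.toRingHom
  have hτline : ∀ γ, ∀ z ∈ L.lineField, τ γ z = C.σ z := by
    intro γ z hz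
    show ι (γ (jE (algebraMap L.lineField Ω ⟨z, hz⟩))) = C.σ (algebraMap L.lineField Ω ⟨z, hz⟩)
    rw [AlgHom.commutes, AlgEquiv.commutes, ← jE.commutes, hι]
  let Cγ : (E ≃ₐ[L.lineField] E) → CuspEmb L S := fun γ =>
    C.ofHom (τ γ) (fun c => hτline γ _ (L.lineField.algebraMap_mem c))
      (hτline γ _ (IntermediateField.subset_adjoin K _ rfl))
  have hσγ : ∀ γ z, (Cγ γ).σ z = ι (γ (jE z)) := fun γ z => rfl
  let P : (E ≃ₐ[L.lineField] E) → Ideal (L.modelRing U) := fun γ => (Cγ γ).centre
  let y : (E ≃ₐ[L.lineField] E) → S.SerF := fun γ =>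
    ι (γ ρ) / (Cγ γ).σ (H (P γ) : Ω)
  have hy : ∀ γ, S.gauss (y γ ^ m - 1) < 1 := by
    intro γ
    have := (Cγ γ).gauss_lt_of_inMax (hcong (P γ) (Cγ γ).natCast_mem_centre)
    rwa [map_sub, map_one, Units.val_div_eq_div_val, map_div₀, Units.val_pow_eq_pow_val,
      map_pow, hσγ γ (u : Ω), ← hρ, map_pow, map_pow, ← div_pow] at this
  have hy1 : ∀ γ, S.gauss (y γ) = 1 := by
    intro γ
    have h := (Valuation.map_eq_of_sub_lt S.gauss (x := 1) (y := y γ ^ m)
      (by rw [map_one]; exact hy γ)).trans (map_one _)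
    rw [map_pow] at h
    exact (pow_eq_one_iff.1 h).resolve_right hm0
  -- labels
  have hlab : ∀ γ, ∃ i, i < m ∧ S.gauss (y γ - S.cst (ζ ^ i)) < 1 := by
    intro γ
    by_contra! hn
    have hprod := congrArg (fun p => p.eval (y γ))
      (X_pow_sub_C_eq_prod hζF (Nat.pos_of_ne_zero hm0) (one_pow m : (1 : S.SerF) ^ m = 1))
    simp only [map_one, eval_sub, eval_pow, eval_X, eval_one, eval_prod, eval_C, mul_one] at hprod
    have := hy γ
    rw [hprod, map_prod] at this
    refine absurd this (not_lt.2 ?_)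
    refine le_of_eq (Finset.prod_eq_one fun i hi => ?_).symm
    rw [← map_pow] 
    refine le_antisymm ((Valuation.map_sub _ _ _).trans (max_le (hy1 γ).le
      (SerBase.gauss_le_one_of_bd (SerBase.bd_cst _)))) (hn i (Finset.mem_range.1 hi))
  choose lab hlab_lt hlab using hlab
  have huniq : ∀ γ i, i < m → S.gauss (y γ - S.cst (ζ ^ i)) < 1 → i = lab γ := by
    intro γ i hi h
    refine hpow_inj i hi _ (hlab_lt γ) ?_
    rw [show S.cst (ζ ^ i) - S.cst (ζ ^ lab γ)
      = (y γ - S.cst (ζ ^ lab γ)) - (y γ - S.cst (ζ ^ i)) by ring]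
    exact (Valuation.map_sub _ _ _).trans_lt (max_lt (hlab γ) h)
  -- the ring
  let : Algebra (L.lineRing U) E :=
    ((algebraMap L.lineField E).comp (algebraMap (L.lineRing U) L.lineField)).toAlgebra
  have : IsScalarTower (L.lineRing U) L.lineField E := IsScalarTower.of_algebraMap_eq fun _ => rfl
  have halg : ∀ r : L.lineRing U, algebraMap (L.lineRing U) E r = jE (r : Ω) := fun r =>
    (jE.commutes (algebraMap (L.lineRing U) L.lineField r)).symm
  set B := integralClosure (L.lineRing U) E
  have hbd : ∀ γ (b : B), S.Bd (ι ((γ : E ≃ₐ[L.lineField] E) (b : E))) := by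
    intro γ b
    obtain ⟨p, hp, e⟩ := b.2
    refine SerBase.bd_of_monic (hp.map (((ι.comp γ.toRingEquiv.toRingHom)).comp
      (algebraMap (L.lineRing U) E))) (fun i => ?_) ?_
    · rw [coeff_map, RingHom.comp_apply, halg]
      exact (Cγ γ).bd_lineRing (p.coeff i).2
    · show _ = (0 : S.SerF)
      rw [show ι (γ (b : E)) = (ι.comp γ.toRingEquiv.toRingHom) (b : E) from rfl, eval_map,
        ← hom_eval₂, e, map_zero]
  have hle1 : ∀ γ (b : B), S.gauss (ι ((γ : E ≃ₐ[L.lineField] E) (b : E))) ≤ 1 := fun γ b =>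
    SerBase.gauss_le_one_of_bd (hbd γ b)
  let jR : L.modelRing U →+* B :=
    (jE.toRingHom.comp (L.modelRing U).subtype).codRestrict B.toSubring fun a => by
      show IsIntegral (L.lineRing U) (jE (a : Ω))
      exact (a.2 : IsIntegral (L.lineRing U) (a : Ω)).map (jE.restrictScalars (L.lineRing U))
  let Q : (E ≃ₐ[L.lineField] E) → Ideal B := fun γ =>
    { carrier := {b | S.gauss (ι (γ (b : E))) < 1}
      zero_mem' := by simp
      add_mem' := fun {a b} ha hb => by
        show S.gauss (ι (γ ((a + b : B) : E))) < 1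
        rw [Subalgebra.coe_add, map_add, map_add]
        exact Valuation.map_add_lt _ ha hb
      smul_mem' := fun c a ha => by
        show S.gauss (ι (γ ((c • a : B) : E))) < 1
        rw [smul_eq_mul, Subalgebra.coe_mul, map_mul, map_mul, map_mul]
        exact mul_lt_one_of_nonneg_of_lt_one_right (hle1 γ c) zero_le ha }
  have hcop : ∀ γ γ', lab γ ≠ lab γ' → Q γ ⊔ Q γ' = ⊤ := by
    intro γ γ' hne
    by_contra htop
    obtain ⟨M, hM, hle⟩ := Ideal.exists_le_maximal _ htop
    have := hM.isPrime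
    set PN := M.comap jR
    have : PN.IsPrime := Ideal.IsPrime.comap _
    have hPle : ∀ δ, Q δ ≤ M → P δ ≤ PN := fun δ h a ha => h (show jR a ∈ Q δ from ha)
    have hqN : (L.frame.q : L.modelRing U) ∈ PN :=
      hPle γ (le_sup_left.trans hle) (Cγ γ).natCast_mem_centre
    set z : Ωˣ := u / H PN ^ m with hz
    have hzmem : (z : Ω) ∈ localRing PN := by
      simpa [hz] using add_mem (hcong PN hqN).1 (one_mem (localRing PN))
    obtain ⟨a, d, hd, e⟩ := (mem_localRing PN).1 hzmem
    set eE : E := jE (d : Ω) * (ρ / jE (H PN : Ω)) with heE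
    have heint : IsIntegral (L.lineRing U) eE := by
      refine IsIntegral.of_pow (Nat.pos_of_ne_zero hm0) ?_
      have : eE ^ m = ((jR (a * d ^ (m - 1)) : B) : E) := by
        show _ = jE ((a * d ^ (m - 1) : L.modelRing U) : Ω)
        rw [heE, mul_pow, div_pow, hρ, ← map_pow, ← map_pow, ← map_div₀, ← map_mul]
        congr 1
        rw [Subring.coe_mul, SubmonoidClass.coe_pow, ← e, hz, Units.val_div_eq_div_val,
          Units.val_pow_eq_pow_val]
        obtain ⟨k, rfl⟩ : ∃ k, m = k + 1 := ⟨m - 1, by omega⟩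
        rw [Nat.add_sub_cancel]
        ring
      rw [this]; exact (jR _).2
    have key : ∀ δ, Q δ ≤ M →
        (⟨eE, heint⟩ : B) - jR (d * L.baseHom U (ζ ^ lab δ)) ∈ M := by
      intro δ hQ
      refine hQ ?_
      show S.gauss (ι (δ (eE - jE ((d * L.baseHom U (ζ ^ lab δ) : L.modelRing U) : Ω)))) < 1
      have hg := (Cγ δ).gauss_lt_of_inMax
        (hcoh (P δ) PN (Cγ δ).natCast_mem_centre (hPle δ hQ))
      rw [map_sub, map_one, Units.val_div_eq_div_val, map_div₀] at hg
      set g := (Cγ δ).σ (H PN : Ω) / (Cγ δ).σ (H (P δ) : Ω) with hg_def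
      have hg1 : S.gauss g = 1 :=
        (Valuation.map_eq_of_sub_lt _ (by rwa [map_one])).trans (map_one _)
      have hx : (Cγ δ).σ ((L.baseHom U (ζ ^ lab δ) : L.modelRing U) : Ω) = S.cst (ζ ^ lab δ) :=
        ((Cγ δ).σ_cst (ζ ^ lab δ) :)
      have : ι (δ (eE - jE ((d * L.baseHom U (ζ ^ lab δ) : L.modelRing U) : Ω)))
          = (Cγ δ).σ (d : Ω) * ((y δ - S.cst (ζ ^ lab δ) * g) / g) := by
        rw [map_sub, map_sub, ← hσγ, Subring.coe_mul, map_mul (Cγ δ).σ, hx]
        simp only [heE, map_mul, map_div₀, y, ← hσγ, hg_def]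
        have h1 : (Cγ δ).σ (H PN : Ω) ≠ 0 := (_root_.map_ne_zero _).2 (Units.ne_zero _)
        have h2 : (Cγ δ).σ (H (P δ) : Ω) ≠ 0 := (_root_.map_ne_zero _).2 (Units.ne_zero _)
        field_simp
      rw [this, map_mul, map_div₀, hg1, div_one]
      refine mul_lt_one_of_nonneg_of_lt_one_right ((Cγ δ).gauss_σ_le d.2) zero_le ?_
      rw [show y δ - S.cst (ζ ^ lab δ) * g
        = (y δ - S.cst (ζ ^ lab δ)) - S.cst (ζ ^ lab δ) * (g - 1) by ring]
      refine (Valuation.map_sub _ _ _).trans_lt (max_lt (hlab δ) ?_)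
      rw [map_mul]
      exact mul_lt_one_of_nonneg_of_lt_one_right
        (SerBase.gauss_le_one_of_bd (SerBase.bd_cst _)) zero_le hg
    have hdiff := M.sub_mem (key γ (le_sup_left.trans hle)) (key γ' (le_sup_right.trans hle))
    rw [sub_sub_sub_cancel_left, ← map_sub, ← mul_sub, ← map_sub] at hdiff
    refine hd ((Ideal.IsPrime.mem_or_mem ‹PN.IsPrime› hdiff).resolve_right fun h => ?_)
    have hu : IsUnit (ζ ^ lab γ' - ζ ^ lab γ) := by
      refine (IsLocalRing.residue_ne_zero_iff_isUnit _).1 ?_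
      rw [map_sub, map_pow, map_pow, sub_ne_zero]
      exact fun e => hne (hζres.pow_inj (hlab_lt γ) (hlab_lt γ') e.symm)
    exact ‹PN.IsPrime›.ne_top (PN.eq_top_of_isUnit_mem h (hu.map _))
  -- the sums over the fibres of the labels are rational
  let eps : ℕ → (E ≃ₐ[L.lineField] E) → E := fun k γ => if lab γ = k then 1 else 0
  have hfix : ∀ (k : ℕ) (δ : E ≃ₐ[L.lineField] E) (a : B),
      δ (∑ γ, eps k γ * γ (a : E)) = ∑ γ, eps k γ * γ (a : E) := by
    intro k δ a
    obtain ⟨e, he0, he1⟩ : ∃ e : B, (∀ γ, lab γ ≠ k → e ∈ Q γ) ∧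
        ∀ γ, lab γ = k → e - 1 ∈ Q γ := by
      have htop : (∏ γ ∈ Finset.univ.filter fun γ => lab γ ≠ k, Q γ) ⊔
          (∏ γ ∈ Finset.univ.filter fun γ => lab γ = k, Q γ) = ⊤ := by
        refine Ideal.prod_sup_eq_top fun γ hγ => Ideal.sup_prod_eq_top fun γ' hγ' => hcop γ γ' ?_
        simp only [Finset.mem_filter] at hγ hγ'
        exact hγ'.2 ▸ hγ.2
      rw [Ideal.eq_top_iff_one, Submodule.mem_sup] at htop
      obtain ⟨e, he, e', he', hsum⟩ := htop
      refine ⟨e, fun γ hγ => ?_, fun γ hγ => ?_⟩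
      · exact (Ideal.le_of_dvd (Finset.dvd_prod_of_mem Q (by simp [hγ]))) he
      · rw [show e - 1 = -e' by rw [← hsum]; ring]
        exact (Q γ).neg_mem ((Ideal.le_of_dvd (Finset.dvd_prod_of_mem Q (by simp [hγ]))) he')
    set s : E := ∑ γ, eps k γ * γ (a : E)
    have hbd_s : S.Bd (ι s) := by
      rw [map_sum]
      refine (S.bdRing).sum_mem fun γ _ => ?_
      show S.Bd _
      rw [map_mul]
      refine SerBase.Bd.mul ?_ (hbd γ a)
      simp only [eps]
      split_ifs
      · rw [map_one]; exact SerBase.bd_one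
      · rw [map_zero]; exact SerBase.bd_zero
    have happ : ∀ n : ℕ, ∃ p : U.W[X],
        S.gauss (SerBase.evalSer (C.σ L.j) p - ι s) ≤ exp (-(n : ℤ)) := by
      intro n
      set f : B := 1 - (1 - e ^ n) ^ n
      set T : E := ∑ γ : E ≃ₐ[L.lineField] E, γ ((f * a : B) : E)
      have hT : T ∈ Set.range (algebraMap L.lineField E) := by
        refine (IsGalois.mem_range_algebraMap_iff_fixed _).2 fun δ => ?_
        rw [map_sum]
        exact Fintype.sum_equiv (Equiv.mulLeft δ) _ _ fun γ => rfl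
      obtain ⟨t, ht⟩ := hT
      have htint : IsIntegral (L.lineRing U) t := by
        refine (isIntegral_algHom_iff (IsScalarTower.toAlgHom (L.lineRing U) L.lineField E)
          (algebraMap L.lineField E).injective).1 ?_
        show IsIntegral _ (algebraMap L.lineField E t)
        rw [ht]
        exact IsIntegral.sum _ fun γ _ => (f * a).2.map (γ.toAlgHom.restrictScalars (L.lineRing U))
      obtain ⟨r, hr⟩ := IsIntegrallyClosed.algebraMap_eq_of_integral htint
      obtain ⟨p, rfl⟩ := (L.polyEquiv U).surjective r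
      refine ⟨p, ?_⟩
      have hιT : SerBase.evalSer (C.σ L.j) p = ι T := by
        rw [← C.σ_evalJ, ← L.coe_polyEquiv, ← hι, ← halg, IsScalarTower.algebraMap_apply
          (L.lineRing U) L.lineField E, hr, ht]
      rw [hιT, ← map_sub, show T - s = ∑ γ : E ≃ₐ[L.lineField] E,
          (γ (f : E) - eps k γ) * γ (a : E) by
        simp only [T, s, Subalgebra.coe_mul, map_mul, sub_mul, Finset.sum_sub_distrib], map_sum]
      refine Valuation.map_sum_le _ fun γ _ => ?_
      rw [map_mul, map_mul]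
      refine (mul_le_of_le_one_right' (hle1 γ a)).trans ?_
      have hf : ι (γ (f : E)) = 1 - (1 - ι (γ (e : E)) ^ n) ^ n := by
        simp only [f, Subalgebra.coe_sub, Subalgebra.coe_one, Subalgebra.coe_pow, map_sub,
          map_pow, map_one]
      rw [map_sub, hf]
      by_cases h : lab γ = k
      · simp only [eps, if_pos h, map_one]
        refine (gauss_approx S.gauss).2 ?_
        have := he1 γ h
        change S.gauss (ι (γ ((e - 1 : B) : E))) < 1 at this
        rwa [Subalgebra.coe_sub, Subalgebra.coe_one, map_sub, map_one, map_sub, map_one] at this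
      · simp only [eps, if_neg h, map_zero, sub_zero]
        exact (gauss_approx S.gauss).1 (he0 γ h)
    obtain ⟨p, hp⟩ := SerBase.exists_eq_evalSer C.σ_j C.one_le C.unit hbd_s happ
    have : s = algebraMap L.lineField E (algebraMap (L.lineRing U) L.lineField (L.polyEquiv U p)) :=
      ι.injective (by
        rw [← hp, ← IsScalarTower.algebraMap_apply, halg, hι, L.coe_polyEquiv, C.σ_evalJ])
    rw [this]
    exact δ.commutes _
  have hfix' : ∀ (k : ℕ) (δ : E ≃ₐ[L.lineField] E) (a : E),
      δ (∑ γ, eps k γ * γ a) = ∑ γ, eps k γ * γ a := by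
    intro k δ a
    have : Algebra.IsAlgebraic L.lineField E := Algebra.IsAlgebraic.of_finite _ _
    obtain ⟨c, hc, hint⟩ := ((IsFractionRing.isAlgebraic_iff (L.lineRing U) L.lineField E).2
      (Algebra.IsAlgebraic.isAlgebraic a)).exists_integral_multiple
    have h := hfix k δ ⟨c • a, hint⟩
    have hsmul : ∀ γ : E ≃ₐ[L.lineField] E, γ (c • a) = c • γ a := fun γ => by
      rw [Algebra.smul_def, Algebra.smul_def, map_mul, IsScalarTower.algebraMap_apply
        (L.lineRing U) L.lineField E, AlgEquiv.commutes]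
    simp only [hsmul, mul_smul_comm, ← Finset.smul_sum] at h
    have hc' : algebraMap (L.lineRing U) E c ≠ 0 := by
      rw [halg, _root_.map_ne_zero]
      exact fun e => hc (Subtype.ext e)
    rw [Algebra.smul_def, map_mul, IsScalarTower.algebraMap_apply (L.lineRing U) L.lineField E,
      AlgEquiv.commutes, ← IsScalarTower.algebraMap_apply] at h
    exact mul_left_cancel₀ hc' h
  have hconst : ∀ k δ γ, eps k (δ⁻¹ * γ) = eps k γ := by
    intro k δ
    have hli := (linearIndependent_monoidHom E E).comp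
      (fun γ : E ≃ₐ[L.lineField] E => (γ.toRingEquiv.toRingHom.toMonoidHom : E →* E))
      (fun γ γ' h => AlgEquiv.ext fun x => congrArg (fun φ : E →* E => φ x) h)
    intro γ
    refine sub_eq_zero.1 (Fintype.linearIndependent_iff.1 hli
      (fun γ => eps k (δ⁻¹ * γ) - eps k γ) ?_ γ)
    funext a
    simp only [Finset.sum_apply, Pi.smul_apply, smul_eq_mul, Function.comp_apply, Pi.zero_apply,
      sub_mul, Finset.sum_sub_distrib, sub_eq_zero]
    refine Eq.trans ?_ (hfix' k δ a)
    rw [map_sum]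
    refine Fintype.sum_equiv (Equiv.mulLeft δ⁻¹) _ _ fun γ => ?_
    simp only [Equiv.coe_mulLeft, map_mul, AlgEquiv.mul_apply]
    rw [show δ (eps k (δ⁻¹ * γ)) = eps k (δ⁻¹ * γ) by simp only [eps]; split_ifs <;> simp,
      ← AlgEquiv.mul_apply δ, mul_inv_cancel]
    rfl
  have hall : ∀ δ, lab δ = lab 1 := by
    intro δ
    have := hconst (lab 1) δ⁻¹ 1
    simp only [eps, inv_inv, mul_one, if_true] at this
    by_contra h
    rw [if_neg h] at this
    exact one_ne_zero this.symm
  -- elements fixing `Ω` fix the root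
  have hroot : ρ ∈ jE.fieldRange := by
    rw [← IsGalois.fixedField_fixingSubgroup jE.fieldRange, IntermediateField.mem_fixedField_iff]
    intro δ hδ
    rw [IntermediateField.mem_fixingSubgroup_iff] at hδ
    have hδj : ∀ z, δ (jE z) = jE z := fun z => hδ _ ⟨z, rfl⟩
    have hσ : ∀ z, (Cγ δ).σ z = (Cγ 1).σ z := fun z => by
      rw [hσγ, hσγ, hδj, AlgEquiv.one_apply]
    have hP : P δ = P 1 := by
      ext a
      simp only [P, mem_centre, hσ]
    have hρ0 : ρ ≠ 0 := fun h => by
      rw [h, zero_pow hm0] at hρ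
      exact u.ne_zero ((map_eq_zero jE.toRingHom).1 hρ.symm)
    have hroot1 : (ι (δ ρ) / ι ρ) ^ m = 1 := by
      rw [div_pow, ← map_pow, ← map_pow, ← map_pow, hρ, hδj, div_self]
      rw [hι]
      exact (_root_.map_ne_zero C.σ).2 u.ne_zero
    have : NeZero m := ⟨hm0⟩
    obtain ⟨i, hi, hiζ⟩ := hζF.eq_pow_of_pow_eq_one hroot1
    have hyδ : y δ = S.cst ζ ^ i * y 1 := by
      simp only [y, hP, hσ, AlgEquiv.one_apply]
      rw [hiζ]
      field_simp [(_root_.map_ne_zero ι).2 hρ0]
    have hmul : S.gauss (y δ - S.cst (ζ ^ i) * S.cst (ζ ^ lab 1)) < 1 := by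
      rw [hyδ, ← map_pow, ← mul_sub, map_mul]
      exact mul_lt_one_of_nonneg_of_lt_one_right
        (SerBase.gauss_le_one_of_bd (SerBase.bd_cst _)) zero_le (hlab 1)
    rw [← map_mul, ← pow_add, ← Nat.mod_add_div (i + lab 1) m, pow_add, pow_mul, hζ.pow_eq_one,
      one_pow, mul_one] at hmul
    have h1 := huniq δ _ (Nat.mod_lt _ (Nat.pos_of_ne_zero hm0)) hmul
    rw [hall δ] at h1
    have hi0 : i = 0 := by
      have h2 : (i + lab 1) % m = (0 + lab 1) % m := by
        rw [h1, zero_add, Nat.mod_eq_of_lt (hlab_lt 1)]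
      have := Nat.ModEq.add_right_cancel' (lab 1) (show i + lab 1 ≡ 0 + lab 1 [MOD m] from h2)
      rwa [Nat.ModEq, Nat.mod_eq_of_lt hi, Nat.zero_mod] at this
    rw [hi0, pow_zero] at hiζ
    exact ι.injective (eq_of_div_eq_one hiζ.symm)
  obtain ⟨r, hr⟩ := hroot
  exact ⟨r, jE.toRingHom.injective (by rw [map_pow]; exact (congrArg (· ^ m) hr).trans hρ)⟩

set_option synthInstance.maxHeartbeats 100000 in
set_option maxHeartbeats 800000 in
include C in
/-- **Rigidity.** A coherent root near the special fibre is a root. -/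
theorem exists_pow_eq {m : ℕ} (hm : IsUnit (m : U.W)) {u : Ωˣ} (hpl : Places K m u)
    (H : Ideal (L.modelRing U) → Ωˣ)
    (hcong : ∀ (P : Ideal (L.modelRing U)) [P.IsPrime], (L.frame.q : L.modelRing U) ∈ P →
      InMax (localRing P) (((u / H P ^ m : Ωˣ) : Ω) - 1))
    (hcoh : ∀ (P P' : Ideal (L.modelRing U)) [P.IsPrime] [P'.IsPrime],
      (L.frame.q : L.modelRing U) ∈ P → P ≤ P' →
        InMax (localRing P) (((H P' / H P : Ωˣ) : Ω) - 1)) :
    ∃ r : Ω, r ^ m = u := by
  classical
  have := L.finite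
  have := L.normal
  have hm0 : m ≠ 0 := fun e => by simp [e] at hm
  let : Algebra L.lineField S.SerF :=
    (C.σ.comp (algebraMap L.lineField Ω)).toAlgebra
  let σA : Ω →ₐ[L.lineField] S.SerF := { C.σ with commutes' := fun _ => rfl }
  obtain ⟨ζ, hζ, -⟩ := SerBase.exists_root_of_unity U hm
  have hζF : IsPrimitiveRoot (S.cst ζ) m :=
    hζ.map_of_injective (S.cst_injective)
  have hint : IsIntegral L.lineField (u : Ω) := Algebra.IsIntegral.isIntegral _
  set p0 := minpoly L.lineField (u : Ω) with hp0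
  set p := p0.comp (X ^ m) with hp
  have hroots : ∀ z : Ω, aeval z p0 = 0 → ∃ y, y ^ m = C.σ z := by
    intro z hz
    obtain ⟨δ, hδ⟩ := minpoly.exists_algEquiv_of_root' hint.isAlgebraic hz
    have hδ' : δ (u : Ω) = z := hδ
    let Cδ : CuspEmb L S := C.ofHom (C.σ.comp δ.toRingEquiv.toRingHom)
      (fun c => congrArg C.σ (δ.commutes ⟨_, L.lineField.algebraMap_mem c⟩))
      (congrArg C.σ (δ.commutes ⟨_, IntermediateField.subset_adjoin K _ rfl⟩))
    obtain ⟨y, hy⟩ := Cδ.exists_root hm hpl (hcong Cδ.centre Cδ.natCast_mem_centre)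
    exact ⟨y, hy.trans (congrArg C.σ hδ')⟩
  have hsplit : (p.map (algebraMap L.lineField S.SerF)).Splits := by
    rw [hp, Polynomial.map_comp, Polynomial.map_pow, map_X,
      ← show (p0.map (algebraMap L.lineField Ω)).map C.σ
        = p0.map (algebraMap L.lineField S.SerF) from Polynomial.map_map _ _ _,
      (Normal.splits inferInstance (u : Ω) : (p0.map (algebraMap L.lineField Ω)).Splits)
        |>.eq_prod_roots_of_monic ((minpoly.monic hint).map _),
      Polynomial.map_multiset_prod, multiset_prod_comp, Multiset.map_map, Multiset.map_map]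
    refine Splits.multisetProd fun g hg => ?_
    obtain ⟨z, hz, rfl⟩ := Multiset.mem_map.1 hg
    obtain ⟨y, hy⟩ := hroots z (by
      rw [mem_roots', IsRoot, eval_map] at hz
      exact hz.2)
    simp only [Function.comp_apply, Polynomial.map_sub, map_X, map_C, sub_comp, X_comp, C_comp]
    exact X_pow_sub_C_splits_of_isPrimitiveRoot hζF hy
  have hp_ne : p ≠ 0 := by
    refine Monic.ne_zero ((minpoly.monic hint).comp (monic_X_pow m) ?_)
    rw [natDegree_X_pow]; exact hm0
  have := U.charZero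
  have : CharZero L.lineField :=
    charZero_of_injective_algebraMap (algebraMap K L.lineField).injective
  obtain ⟨E, hfin, hgal, hjE, hroot⟩ := exists_galois_composite σA p hsplit
  obtain ⟨y, hy⟩ := hroots (u : Ω) (minpoly.aeval _ _)
  have hyE : y ∈ E := hroot (by
    rw [mem_rootSet_of_ne hp_ne, hp, aeval_comp, map_pow, aeval_X, hy,
      show C.σ (u : Ω) = σA (u : Ω) from rfl, aeval_algHom_apply, minpoly.aeval, map_zero])
  exact C.rigid_core (σA.codRestrict E.toSubalgebra hjE) E.val.toRingHom (fun z => rfl) hm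
    (ρ := (⟨y, hyE⟩ : E)) (Subtype.ext hy) H hcong hcoh

end CuspEmb

/-- **Main theorem of the integral study.** A function fixed by the subgroup of a combination,
with divisor divisible by `m` and combination of translates a constant times an `m`-th power, has
a fixed power which is a constant times an `m`-th power. -/
theorem exists_const_mul_pow {Ω : Type} [Field Ω] [Algebra K Ω] [DecidableEq Ω]
    {L : TateLevel K Ω} {U : UnramBase K L.frame.q} {S : SerBase U} (C : CuspEmb L S) (D : CombId L.frame.Q)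
    {m : ℕ} (hm : IsUnit (m : U.W)) {f γ : Ωˣ} {κ : Kˣ} (hf : L.FixedBy D f)
    (hpl : Places K m f)
    (hlam : L.lam D (L.transl f) = Units.map (algebraMap K Ω).toMonoidHom κ * γ ^ m) :
    ∃ (κ' : Kˣ) (h : Ωˣ),
      f ^ glueExp D = Units.map (algebraMap K Ω).toMonoidHom κ' * h ^ m := by
  have hm0 : m ≠ 0 := fun e => by simp [e] at hm
  obtain ⟨u, H, ⟨κ', γ', e⟩, hplu, hcong, hcoh⟩ :=
    TateLevel.exists_glue (U := U) D hm0 hf hpl hlam
  obtain ⟨r, hr⟩ := C.exists_pow_eq hm hplu H hcong hcoh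
  have hr0 : r ≠ 0 := fun h => by
    rw [h, zero_pow hm0] at hr
    exact u.ne_zero hr.symm
  refine ⟨κ', γ' * Units.mk0 r hr0, ?_⟩
  rw [e, mul_pow, ← mul_assoc]
  congr 1
  exact Units.ext (by simp [hr])

end Fermat.Agent.Carayol
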