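import Fermat.Agent.Carayol.LevelEmb
import Fermat.Agent.Carayol.Rigid
import Fermat.Agent.Carayol.Statement

/-!
# The geometric theorem at a prime whose square divides the level

A new torsion class of level `q M q` fixed by inertia is given by a rational function whose image
at level `q n` is fixed by the torus and has unipotent norms equal to powers up to constants; the
integral study makes a bounded power of it a power up to constants.
-/

set_option autoImplicit false

noncomputable section

namespace Fermat.Agent.Carayol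

open ModularCurve AlgebraicCurve
open Fermat.Agent.Arith Fermat.Agent.Carayol.Omega

attribute [local instance 1100] SubalgebraClass.toAlgebra
attribute [local instance 1200] Module.Free.of_divisionRing

theorem ratIncl_algebraMap {A : ValuationSubring QBar} {N : ℕ} (c : inertiaField A) :
    ratIncl A N (algebraMap (inertiaField A) (ratField A N) c) = HahnSeries.C (c : QBar) := by
  show algebraMap (inertiaField A) (LaurentSeries QBar) c = _
  rw [IsScalarTower.algebraMap_apply (inertiaField A) QBar (LaurentSeries QBar),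
    algebraMap_laurentSeries_eq_single]
  rfl

theorem jd_mem_ratField {A : ValuationSubring QBar} {N d : ℕ} [NeZero d] (hd : d ∣ N) :
    qExpand QBar d (jqModC QBar) ∈ ratField A N :=
  IntermediateField.subset_adjoin _ _ ⟨d, inferInstance, hd, rfl⟩

/-- Norms to a subfield: if a power of `y` in a subfield is a constant of it times a power, a
further power is a constant times a power inside the subfield. -/
theorem exists_pow_in_subfield {k Ω : Type*} [Field k] [Field Ω] [Algebra k Ω]
    (B : IntermediateField k Ω) [FiniteDimensional B Ω] (S : Subfield Ω) (hB : ∀ x ∈ B, x ∈ S)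
    {y c h : Ω} (hy : y ∈ S) (hc : c ∈ S) {G m : ℕ} (hpow : y ^ G = c * h ^ m) :
    ∃ d : ℕ, 0 < d ∧ d ≤ Module.finrank B Ω ∧ ∃ g ∈ S, y ^ (G * d) = c ^ d * g ^ m := by
  let R : IntermediateField B Ω := S.toIntermediateField fun x => hB x x.2
  refine ⟨Module.finrank R Ω, Module.finrank_pos, ?_, (Algebra.norm R h : Ω),
    (Algebra.norm R h).2, ?_⟩
  · rw [← Module.finrank_mul_finrank B R Ω]
    exact Nat.le_mul_of_pos_left _ Module.finrank_pos
  · have e := congrArg (fun z : Ω => ((Algebra.norm R z : R) : Ω)) hpow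
    simp only [map_mul, map_pow] at e
    rw [show y = algebraMap R Ω ⟨y, hy⟩ from rfl, show c = algebraMap R Ω ⟨c, hc⟩ from rfl,
      Algebra.norm_algebraMap, Algebra.norm_algebraMap] at e
    push_cast at e
    rw [mul_comm G, pow_mul]
    exact e

section Root

variable {A : ValuationSubring QBar} {N : ℕ} [NeZero N]

/-- A function with fixed coefficients and divisor `m` times a principal one is, up to a fixed
constant, the power of one with fixed coefficients. -/
theorem exists_fixed_root {m : ℕ} (hm : 0 < m) {z y : modularFunctionFieldBar N} (hz0 : z ≠ 0)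
    (hy0 : y ≠ 0) (hz : CoeffFixed A (z : LaurentSeries QBar))
    (hord : ∀ P : Place QBar (modularFunctionFieldBar N), P.ord z = (m : ℤ) * P.ord y) :
    ∃ (l : inertiaField A) (g : modularFunctionFieldBar N), l ≠ 0 ∧ g ≠ 0 ∧
      CoeffFixed A (g : LaurentSeries QBar) ∧
      (z : LaurentSeries QBar) = HahnSeries.C (l : QBar) * (g : LaurentSeries QBar) ^ m := by
  set a := (y : LaurentSeries QBar).leadingCoeff with ha
  have ha0 : a ≠ 0 := HahnSeries.leadingCoeff_ne_zero.mpr fun e => hy0 (Subtype.ext e)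
  have hca : algebraMap QBar (modularFunctionFieldBar N) a⁻¹ ≠ 0 := by simpa using ha0
  set g := algebraMap QBar (modularFunctionFieldBar N) a⁻¹ * y with hg
  have hg0 : g ≠ 0 := mul_ne_zero hca hy0
  have hgord : ∀ P : Place QBar (modularFunctionFieldBar N), P.ord z = P.ord (g ^ m) := fun P => by
    rw [hord, JacTorsion.ord_pow, hg, P.ord_mul hca hy0, FF.ord_algebraMap, zero_add]
  obtain ⟨c, hc⟩ := exists_eq_mul_of_ord hz0 (pow_ne_zero _ hg0) hgord
  have hlg : (g : LaurentSeries QBar).leadingCoeff = 1 := by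
    rw [hg, leadingCoeff_algebraMap_mul, ← ha, inv_mul_cancel₀ ha0]
  have hlpow : ∀ k : ℕ, ((g ^ k : modularFunctionFieldBar N) : LaurentSeries QBar).leadingCoeff = 1 := by
    intro k
    induction k with
    | zero =>
      show (1 : LaurentSeries QBar).leadingCoeff = 1
      rw [HahnSeries.leadingCoeff_one]
    | succ k ih =>
      show ((g ^ k * g : modularFunctionFieldBar N) : LaurentSeries QBar).leadingCoeff = 1
      rw [show ((g ^ k * g : modularFunctionFieldBar N) : LaurentSeries QBar)
        = ((g ^ k : modularFunctionFieldBar N) : LaurentSeries QBar) * (g : LaurentSeries QBar)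
        from rfl, HahnSeries.leadingCoeff_mul, ih, hlg, one_mul]
  have hzl : (z : LaurentSeries QBar).leadingCoeff = c := by
    rw [hc, leadingCoeff_algebraMap_mul, hlpow, mul_one]
  have hcfix : ∀ σ ∈ A.inertiaSubgroupIn ℚ, σ c = c := fun σ hσ => by
    rw [← hzl, ← leadingCoeff_smul, (coeffFixed_iff.mp hz) σ hσ]
  have hc0 : c ≠ 0 := fun h => hz0 (by rw [hc, h, map_zero, zero_mul])
  refine ⟨⟨c, (mem_inertiaField A).mpr hcfix⟩, g, fun h => hc0 (congrArg Subtype.val h), hg0,
    coeffFixed_iff.mpr fun σ hσ => ?_, ?_⟩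
  · set s := arithmeticGalois (modularFunctionFieldFull N) σ
    have hsg : s • g ≠ 0 := (_root_.map_ne_zero (SemilinearAut.toRingAut s)).mpr hg0
    have hpow : algebraMap QBar (modularFunctionFieldBar N) c * (s • g) ^ m
        = algebraMap QBar (modularFunctionFieldBar N) c * g ^ m := by
      have h := (coeffFixed_iff.mp hz) σ hσ
      rw [hc, smul_mul', smul_pow', SemilinearAut.smul_algebraMap] at h
      rwa [show SemilinearAut.baseAut s c = c from hcfix σ hσ] at h
    obtain ⟨b, hb⟩ := exists_eq_mul_of_ord hsg hg0 fun P => by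
      have h := congrArg P.ord (mul_left_cancel₀ (by simpa using hc0) hpow)
      rw [JacTorsion.ord_pow, JacTorsion.ord_pow] at h
      exact mul_left_cancel₀ (Int.natCast_ne_zero.mpr hm.ne') h
    exact eq_of_leadingCoeff hb hg0 (by rw [leadingCoeff_smul, hlg, map_one])
  · rw [hc]
    show algebraMap QBar (LaurentSeries QBar) c * ((g ^ m : modularFunctionFieldBar N) :
      LaurentSeries QBar) = _
    rw [algebraMap_laurentSeries_eq_single]
    rfl

/-- When the push forward is principal the norm is a power up to a constant. -/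
theorem exists_norm_root {ℓ : ℕ} [NeZero ℓ]
    (ψ : modularFunctionFieldBar N →ₐ[QBar] modularFunctionFieldBar (N * ℓ))
    (hψ : ∀ (σ : QBar ≃ₐ[ℚ] QBar) (y : modularFunctionFieldBar N),
      ψ (arithmeticRingAut (modularFunctionFieldFull N) σ y)
        = arithmeticRingAut (modularFunctionFieldFull (N * ℓ)) σ (ψ y))
    {m : ℕ} (hm : 0 < m) {f : modularFunctionFieldBar (N * ℓ)} (hf0 : f ≠ 0)
    (hf : CoeffFixed A (f : LaurentSeries QBar))
    {D : Divisor QBar (modularFunctionFieldBar (N * ℓ))}
    (hord : ∀ P : Place QBar (modularFunctionFieldBar (N * ℓ)), P.ord f = (m : ℤ) * D P)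
    (hprin : (Divisor.pushforwardAlong ψ (FF.isIntegralAlong ψ) D).IsPrincipal) :
    ∃ (l : inertiaField A) (g : modularFunctionFieldBar N), l ≠ 0 ∧ g ≠ 0 ∧
      CoeffFixed A (g : LaurentSeries QBar) ∧
      ((letI := algebraAlong ψ; Algebra.norm (modularFunctionFieldBar N) f :
        modularFunctionFieldBar N) : LaurentSeries QBar)
        = HahnSeries.C (l : QBar) * (g : LaurentSeries QBar) ^ m := by
  obtain ⟨g₀, hg₀, hg₀'⟩ := hprin
  have hfin := FF.finiteAlong ψ
  have hnf := FF.normFormulaAlong ψ hfin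
  let _ := algebraAlong ψ
  have := isScalarTower_along ψ
  have : Module.Finite (modularFunctionFieldBar N) (modularFunctionFieldBar (N * ℓ)) := hfin
  have hkey : ∀ v : Place QBar (modularFunctionFieldBar N),
      Divisor.pushforwardAlong ψ (FF.isIntegralAlong ψ) ((m : ℤ) • D) v
        = v.ord (Algebra.norm (modularFunctionFieldBar N) f) := fun v =>
    hnf f hf0 ((m : ℤ) • D) (fun w => by rw [Finsupp.smul_apply, smul_eq_mul, hord]) v
  refine exists_fixed_root hm (Algebra.norm_ne_zero_iff.mpr hf0) hg₀ (coeffFixed_norm ψ hψ hf)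
    fun P => ?_
  rw [← hkey, map_zsmul, Finsupp.smul_apply, smul_eq_mul, hg₀']

end Root

theorem alpha_galois (N ℓ : ℕ) [NeZero N] [NeZero ℓ] (σ : QBar ≃ₐ[ℚ] QBar)
    (y : modularFunctionFieldBar N) :
    heckeAlphaBar QBar N ℓ (arithmeticRingAut (modularFunctionFieldFull N) σ y)
      = arithmeticRingAut (modularFunctionFieldFull (N * ℓ)) σ (heckeAlphaBar QBar N ℓ y) :=
  Subtype.ext (by rw [coe_heckeAlphaBar, coe_arithmeticRingAut_apply, coe_arithmeticRingAut_apply,
    coe_heckeAlphaBar])

theorem beta_galois (N ℓ : ℕ) [NeZero N] [NeZero ℓ] (σ : QBar ≃ₐ[ℚ] QBar)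
    (y : modularFunctionFieldBar N) :
    heckeBetaBar QBar N ℓ (arithmeticRingAut (modularFunctionFieldFull N) σ y)
      = arithmeticRingAut (modularFunctionFieldFull (N * ℓ)) σ (heckeBetaBar QBar N ℓ y) :=
  Subtype.ext (by rw [coe_heckeBetaBar, coe_arithmeticRingAut_apply, coe_arithmeticRingAut_apply,
    coe_heckeBetaBar, coeffMap_qExpand])

section Lam

/-- Constants times `m`-th powers. -/
def constMulPow (K Ω : Type*) [Field K] [Field Ω] [Algebra K Ω] (m : ℕ) : Subgroup Ωˣ :=
  (Units.map (algebraMap K Ω).toMonoidHom).range ⊔ (powMonoidHom m : Ωˣ →* Ωˣ).range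

variable {K Ω : Type*} [Field K] [Field Ω] [Algebra K Ω]

theorem mem_constMulPow {m : ℕ} {z : Ωˣ} :
    z ∈ constMulPow K Ω m ↔
      ∃ (κ : Kˣ) (h : Ωˣ), z = Units.map (algebraMap K Ω).toMonoidHom κ * h ^ m := by
  simp only [constMulPow, Subgroup.mem_sup, MonoidHom.mem_range, powMonoidHom_apply]
  constructor
  · rintro ⟨_, ⟨κ, rfl⟩, _, ⟨h, rfl⟩, rfl⟩; exact ⟨κ, h, rfl⟩
  · rintro ⟨κ, h, rfl⟩; exact ⟨_, ⟨κ, rfl⟩, _, ⟨h, rfl⟩, rfl⟩

variable [DecidableEq Ω] (L : TateLevel K Ω)

theorem transl_mem_constMulPow {m : ℕ} {z : Ωˣ} (hz : z ∈ constMulPow K Ω m)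
    (g : GL (Fin 2) (ZMod L.frame.Q)) : L.transl z g ∈ constMulPow K Ω m := by
  obtain ⟨κ, h, rfl⟩ := mem_constMulPow.mp hz
  refine mem_constMulPow.mpr ⟨κ, L.transl h g, Units.ext ?_⟩
  simp [TateLevel.coe_transl]

/-- If both unipotent products are constants times powers, so is the combination. -/
theorem lam_mem_constMulPow [Fact L.frame.Q.Prime] {m : ℕ} {f : Ωˣ}
    (hplus : ∏ a : ZMod L.frame.Q, L.transl f (uPlus a) ∈ constMulPow K Ω m)
    (hminus : ∏ a : ZMod L.frame.Q, L.transl f (uMinus a) ∈ constMulPow K Ω m) :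
    L.lam (torusComb L.frame.Q) (L.transl f) ∈ constMulPow K Ω m := by
  classical
  set S := Subgroup.toAddSubgroup (constMulPow K Ω m)
  have hS : ∀ z, z ∈ constMulPow K Ω m → Additive.ofMul z ∈ S := fun z hz => hz
  have hsum : ∀ (h : GL (Fin 2) (ZMod L.frame.Q)) (u : ZMod L.frame.Q → GL (Fin 2) (ZMod L.frame.Q)),
      ∏ a, L.transl f (u a) ∈ constMulPow K Ω m →
        ∑ a, Additive.ofMul (L.transl f (h * u a)) ∈ S := fun h u hu => by
    rw [← ofMul_prod]
    refine hS _ ?_
    have := transl_mem_constMulPow L hu h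
    rwa [show L.transl (∏ a, L.transl f (u a)) h = ∏ a, L.transl f (h * u a) from ?_] at this
    simp only [TateLevel.transl_mul_apply]
    exact map_prod (Units.map (L.act h).toRingEquiv.toRingHom.toMonoidHom) _ _
  have h1 : ∀ u : ZMod L.frame.Q → GL (Fin 2) (ZMod L.frame.Q),
      ∏ a, L.transl f (u a) ∈ constMulPow K Ω m → ∑ a, Additive.ofMul (L.transl f (u a)) ∈ S :=
    fun u hu => by simpa using hsum 1 u hu
  show Additive.toMul (∑ g, (torusComb L.frame.Q).coeffs g • Additive.ofMul (L.transl f g)) ∈ _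
  rw [sum_torusComb]
  change combOp (fun g => Additive.ofMul (L.transl f g)) ∈ S
  unfold combOp
  exact sub_mem (add_mem (zsmul_mem (add_mem (h1 _ hplus) (h1 _ hminus)) _)
      (zsmul_mem (add_mem (hsum _ _ hplus) (hsum _ _ hminus)) _))
    (zsmul_mem (sum_mem fun x _ => add_mem (hsum _ _ hminus) (hsum _ _ hplus)) _)

end Lam

theorem uPlus_add {q : ℕ} (a b : ZMod q) : uPlus a * uPlus b = uPlus (a + b) := by
  apply Units.ext
  simp [uPlus, add_comm]

theorem uMinus_add {q : ℕ} (a b : ZMod q) : uMinus a * uMinus b = uMinus (a + b) := by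
  apply Units.ext
  simp [uMinus]

theorem uPlus_zero {q : ℕ} : uPlus (0 : ZMod q) = 1 := by
  apply Units.ext
  simp [uPlus, Matrix.one_fin_two]

theorem uMinus_zero {q : ℕ} : uMinus (0 : ZMod q) = 1 := by
  apply Units.ext
  simp [uMinus, Matrix.one_fin_two]

/-- An embedding datum at any level. -/
theorem exists_setup (N : ℕ) [NeZero N] : Nonempty (Setup N QBar) := by
  have halg : IsAlgebraic ℚ (zetaC N) :=
    (((isPrimitiveRoot_zetaC N).isIntegral (NeZero.pos N)).tower_top (A := ℚ)).isAlgebraic
  obtain ⟨ζ, hζ⟩ := JacTorsion.mem_range_ιQ halg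
  exact ⟨⟨JacTorsion.ιQ, ζ, hζ⟩⟩

attribute [local instance 2000] Omega.serAlg

open scoped Classical

variable {q M n : ℕ} [NeZero q] [NeZero M] [NeZero n] [NeZero (q * n)]

/-- The field of level `n` has degree at most the number of matrices over the field of level
one. -/
theorem finrank_base_le {nn : ℕ} [NeZero nn] (E : Setup nn QBar) (k : Type) [Field k]
    [Algebra k QBar] [IsGalois k QBar] :
    Module.finrank (E.base k) (E.field k) ≤ Nat.card (Matrix (Fin 2) (Fin 2) (ZMod nn)) := by
  have := E.finiteDimensional_base k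
  have := E.isGalois_base k
  have hfj : ∀ e : E.field k ≃ₐ[E.base k] E.field k, ∃ M, E.Moves k (e.restrictScalars k) M :=
    fun e => E.exists_moves_of_fj k
      (e.commutes ⟨_, IntermediateField.subset_adjoin _ _ rfl⟩)
  choose mv hmv using hfj
  refine le_of_eq_of_le (IsGalois.card_aut_eq_finrank (E.base k) (E.field k)).symm
    (Nat.card_le_card_of_injective mv fun e e' hee => ?_)
  have h1 := hmv e
  rw [hee] at h1
  exact AlgEquiv.ext fun z => AlgEquiv.congr_fun (h1.ext (hmv e')) z

/-- Back to level `N`: if a power of `f` is a constant times an `m`-th power at level `q n`, a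
bounded multiple of the class of `D` vanishes. -/
theorem smul_mk_eq_zero_of_pow (E : Setup (q * n) QBar) {A : ValuationSubring QBar} {N : ℕ}
    [NeZero N] (hqN : q ∣ N)
    (hmk : ∀ (d : ℕ) [NeZero d], d ∣ N →
      qExpand QBar n (qExpand QBar d (jqModC QBar)) ∈ E.field (inertiaField A))
    {m : ℕ} (hm : 0 < m) {D : Divisor.degZero (K := QBar) (F := modularFunctionFieldBar N)}
    {f : modularFunctionFieldBar N} (hf0 : f ≠ 0)
    (hford : ∀ P : Place QBar (modularFunctionFieldBar N),
      P.ord f = (m : ℤ) * (D : Divisor QBar (modularFunctionFieldBar N)) P)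
    (hfr : (f : LaurentSeries QBar) ∈ ratField A N) {G : ℕ} {κ : (inertiaField A)ˣ}
    {h : E.field (inertiaField A)}
    (hpow : qEmb E n hmk ⟨(f : LaurentSeries QBar), hfr⟩ ^ G
      = algebraMap (inertiaField A) (E.field (inertiaField A)) (κ : inertiaField A) * h ^ m) :
    (G * (Nat.card (Matrix (Fin 2) (Fin 2) (ZMod (q * n)))).factorial) • Pic0.mk D = 0 := by
  set φ := qEmb E n hmk
  have hconst : ∀ a : inertiaField A,
      ((algebraMap (inertiaField A) (E.field (inertiaField A)) a : E.field (inertiaField A)) :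
        LaurentSeries QBar) = HahnSeries.C (a : QBar) := fun a => algebraMap_laurent_comp a
  have hC : ∀ a : inertiaField A,
      algebraMap (inertiaField A) (E.field (inertiaField A)) a ∈ φ.fieldRange := fun a =>
    ⟨⟨_, C_mem_ratField a⟩, Subtype.ext ((qExpand_C n (a : QBar)).trans (hconst a).symm)⟩
  have hfj : E.fj (inertiaField A) ∈ φ.fieldRange :=
    ⟨⟨qExpand QBar q (jqModC QBar), jd_mem_ratField hqN⟩, Subtype.ext (by
      rw [E.coe_fj]
      exact (qExpand_qExpand q n _).trans (qExpand_congr (mul_comm n q) _))⟩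
  have hbase : ∀ x ∈ E.base (inertiaField A), x ∈ φ.fieldRange := by
    intro x hx
    induction hx using IntermediateField.adjoin_induction with
    | mem z hz => rw [Set.mem_singleton_iff] at hz; exact hz ▸ hfj
    | algebraMap a => exact hC a
    | add a b _ _ ha hb => exact add_mem ha hb
    | inv a _ ha => exact inv_mem ha
    | mul a b _ _ ha hb => exact mul_mem ha hb
  have := E.finiteDimensional_base (inertiaField A)
  obtain ⟨d, hd0, hdle, _, ⟨g, rfl⟩, hnorm⟩ :=
    exists_pow_in_subfield (E.base (inertiaField A)) φ.fieldRange hbase ⟨_, rfl⟩ (hC _) hpow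
  have hgb : ratIncl A N g ∈ modularFunctionFieldBar N := mem_bar_of_mem_ratField (ratIncl_mem g)
  set gF : modularFunctionFieldBar N := ⟨ratIncl A N g, hgb⟩
  have hfF : f ^ (G * d) = algebraMap QBar _ (((κ : inertiaField A) : QBar) ^ d) * gF ^ m := by
    refine Subtype.ext (qExpand_injective n ?_)
    have hφ : ∀ x, ((φ x : E.field (inertiaField A)) : LaurentSeries QBar)
        = qExpand QBar n (ratIncl A N x) := fun x => coe_qEmb E hmk x
    have h3 := congrArg (fun z : E.field (inertiaField A) => (z : LaurentSeries QBar)) hnorm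
    simp only [IntermediateField.coe_pow, IntermediateField.coe_mul, hconst, hφ, ratIncl_mk] at h3
    show qExpand QBar n ((f : LaurentSeries QBar) ^ (G * d)) = qExpand QBar n
      (algebraMap QBar (LaurentSeries QBar) (((κ : inertiaField A) : QBar) ^ d) *
        ratIncl A N g ^ m)
    rw [map_pow (qExpand QBar n), map_mul (qExpand QBar n), map_pow (qExpand QBar n) (ratIncl A N g),
      algebraMap_laurentSeries_eq_single, ← HahnSeries.C_apply, qExpand_C, map_pow HahnSeries.C]
    exact h3
  have hκ0 : ((κ : inertiaField A) : QBar) ^ d ≠ 0 := pow_ne_zero _ fun h0 =>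
    κ.ne_zero (Subtype.ext h0)
  have hgF0 : gF ≠ 0 := fun h0 => by
    rw [h0, zero_pow hm.ne', mul_zero] at hfF
    exact pow_ne_zero _ hf0 hfF
  have hGd : (G * d) • Pic0.mk D = 0 := by
    rw [← natCast_zsmul]
    refine (QuotientAddGroup.eq_zero_iff (((G * d : ℕ) : ℤ) • D)).mpr ?_
    rw [AddSubgroup.mem_addSubgroupOf, AddSubgroup.coe_zsmul]
    refine ⟨gF, hgF0, fun P => ?_⟩
    have h4 := congrArg P.ord hfF
    rw [JacTorsion.ord_pow, P.ord_mul (by simp) (pow_ne_zero _ hgF0),
      FF.ord_algebraMap, JacTorsion.ord_pow, hford, zero_add] at h4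
    rw [Finsupp.smul_apply, smul_eq_mul]
    refine mul_left_cancel₀ (Int.natCast_ne_zero.mpr hm.ne') ?_
    linear_combination h4
  obtain ⟨r, hr⟩ := Nat.dvd_factorial hd0 (hdle.trans (finrank_base_le E _))
  rw [hr, ← mul_assoc, mul_comm _ r, mul_smul, hGd, smul_zero]

/-- The bound at one place over `q`. -/
theorem smul_eq_zero_of_fixed (E : Setup (q * n) QBar) (hq : q.Prime) (hqn : ¬ q ∣ n) (hM : M ∣ n)
    {L : ℕ} (hL : L = 7 ∨ L = 9) (hLn : L ∣ n) {m : ℕ} (hm : 0 < m) (hmq : m.Coprime q)
    {A : ValuationSubring QBar} (hA : A.LiesOverPrime q) {x : JZero (q * M * q)} (hx : m • x = 0)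
    (hfix : ∀ σ ∈ A.inertiaSubgroupIn ℚ, σ • x = x) (hnew : IsNewClass q M x) :
    haveI : Fact q.Prime := ⟨hq⟩
    (glueExp (torusComb q) *
      (Nat.card (Matrix (Fin 2) (Fin 2) (ZMod (q * n)))).factorial) • x = 0 := by
  have : Fact q.Prime := ⟨hq⟩
  have hcop : q.Coprime n := hq.coprime_iff_not_dvd.mpr hqn
  have hgal := exists_aut_inertiaField hA hq hqn E.isPrimitiveRoot
  have : IsGalois (inertiaField A) QBar := inferInstance
  set Lv := E.tateLevel (inertiaField A) hcop hq L hL hLn hgal
  have hact := E.act_moves (inertiaField A) hq L hL hLn hcop hgal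
  have hord' := nsmul_markLabel_eq_zero_iff hcop (NeZero.ne n) hLn
  have hP : GoodPt (markLabel hcop L) := ⟨fun h => by
    have := Nat.le_of_dvd (by norm_num) ((hord' 2).mp h); omega, fun h => by
    have := Nat.le_of_dvd (by norm_num) ((hord' 3).mp h); omega⟩
  have hmk : ∀ (d : ℕ) [NeZero d], d ∣ q * M * q →
      qExpand QBar n (qExpand QBar d (jqModC QBar)) ∈ E.field (inertiaField A) :=
    fun d _ hd => E.qExpand_jd_mem (inertiaField A) hP hcop hq hM hd
  -- the divisor and the function
  obtain ⟨D, rfl, hDfix⟩ := exists_fixed_rep hfix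
  have hprin : ((m : ℤ) • (D : Divisor QBar (modularFunctionFieldBar (q * M * q)))).IsPrincipal := by
    have hx' : (m : ℤ) • Pic0.mk D = 0 := by rw [natCast_zsmul]; exact hx
    have h := (QuotientAddGroup.eq_zero_iff ((m : ℤ) • D)).mp hx'
    rwa [AddSubgroup.mem_addSubgroupOf, AddSubgroup.coe_zsmul] at h
  obtain ⟨f, hf0, hffix, hford'⟩ := exists_fixed_fun hprin fun σ hσ => by
    refine Finsupp.ext fun P => ?_
    have h := DFunLike.congr_fun (hDfix σ hσ) P
    rw [SemilinearAut.divisor_smul_apply] at h ⊢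
    rw [Finsupp.smul_apply, Finsupp.smul_apply, h]
  have hford : ∀ P : Place QBar (modularFunctionFieldBar (q * M * q)),
      P.ord f = (m : ℤ) * (D : Divisor QBar (modularFunctionFieldBar (q * M * q))) P := fun P => by
    rw [← hford', Finsupp.smul_apply, smul_eq_mul]
  have hfr : (f : LaurentSeries QBar) ∈ ratField A (q * M * q) := mem_ratField f.2 hffix
  set φ := qEmb E n hmk
  set fr : ratField A (q * M * q) := ⟨(f : LaurentSeries QBar), hfr⟩
  have hfr0 : fr ≠ 0 := fun h => hf0 (Subtype.ext (by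
    have := congrArg (ratIncl A (q * M * q)) h
    rwa [map_zero] at this))
  set y : E.field (inertiaField A) := φ fr with hy
  have hy0 : y ≠ 0 := (_root_.map_ne_zero φ).mpr hfr0
  have hycoe : (y : LaurentSeries QBar) = qExpand QBar n f := rfl
  set u := Units.mk0 y hy0
  -- constants
  have hconst : ∀ a : inertiaField A,
      ((algebraMap (inertiaField A) (E.field (inertiaField A)) a : E.field (inertiaField A)) :
        LaurentSeries QBar) = HahnSeries.C (a : QBar) := fun a => algebraMap_laurent_comp a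
  -- divisibility at all valuations
  have hpl : Places (inertiaField A) m u := fun v hv => by
    refine dvd_log_valuation hDfix hf0 hford hfr (v.comap φ) fun a ha => ?_
    rw [Valuation.comap_apply,
      show φ (algebraMap (inertiaField A) (ratField A (q * M * q)) a)
        = algebraMap (inertiaField A) (E.field (inertiaField A)) a from Subtype.ext ?_]
    · exact hv a ha
    · rw [hconst]
      show qExpand QBar n (ratIncl A (q * M * q) (algebraMap (inertiaField A) _ a)) = _
      rw [ratIncl_algebraMap, qExpand_C]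
  -- invariance under the torus
  have hfixed : Lv.FixedBy (torusComb q) u := by
    rintro t ⟨⟨a, d⟩, rfl⟩
    refine Units.ext ?_
    show Lv.act (diagElt a d) y = y
    refine fixed_of_gens E hmk _ (fun d' _ hd' z hz => ?_) hfr hycoe
    exact E.fixed_diag hP hcop hq hM hd' rfl rfl (hact _) hz
  -- the two norms
  have hmain : ∀ (uu : ZMod q → GL (Fin 2) (ZMod q)),
      (∀ a, (uu a : Matrix (Fin 2) (Fin 2) (ZMod q)).det = 1) →
      (∀ a b, uu a * uu b = uu (a + b)) → uu 0 = 1 →
      ∀ (ψ : modularFunctionFieldBar (q * M) →ₐ[QBar] modularFunctionFieldBar (q * M * q)),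
      (∀ (σ : QBar ≃ₐ[ℚ] QBar) (y : modularFunctionFieldBar (q * M)),
        ψ (arithmeticRingAut (modularFunctionFieldFull (q * M)) σ y)
          = arithmeticRingAut (modularFunctionFieldFull (q * M * q)) σ (ψ y)) →
      finrankAlong QBar ψ ≤ q →
      (Divisor.pushforwardAlong ψ (FF.isIntegralAlong ψ)
        (D : Divisor QBar (modularFunctionFieldBar (q * M * q)))).IsPrincipal →
      ∀ (c : ℕ) [NeZero c],
      (∀ z, qExpand QBar n (ψ z : LaurentSeries QBar) = qExpand QBar c (z : LaurentSeries QBar)) →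
      ∀ (_ : ∀ (d : ℕ) [NeZero d], d ∣ q * M →
        qExpand QBar c (qExpand QBar d (jqModC QBar)) ∈ E.field (inertiaField A)),
      (∀ (a : ZMod q) (d : ℕ) [NeZero d], d ∣ q * M → ∀ z : E.field (inertiaField A),
        (z : LaurentSeries QBar) = qExpand QBar c (qExpand QBar d (jqModC QBar)) →
          Lv.act (uu a) z = z) →
      ∀ (d₀ : ℕ) [NeZero d₀], d₀ ∣ q * M * q →
      (∀ (a : ZMod q) (z : E.field (inertiaField A)),
        (z : LaurentSeries QBar) = qExpand QBar n (qExpand QBar d₀ (jqModC QBar)) →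
          Lv.act (uu a) z = z → a = 0) →
      ∏ a : ZMod q, Lv.transl u (uu a) ∈ constMulPow (inertiaField A) (E.field (inertiaField A)) m := by
    intro uu hdet hadd hzero ψ hψ hle hpr c _ hc hmem hfx d₀ _ hd₀ hmove
    obtain ⟨l, g, hl, hg0, hgfix, hng⟩ := exists_norm_root ψ hψ hm hf0 hffix hford hpr
    have hprod := prod_act_eq_norm E hP hq hM hcop Lv.act hact uu hdet hadd hzero ψ c hc hmem hle
      hfx d₀ hd₀ hmove f y hycoe
    rw [hng, map_mul, map_pow, qExpand_C] at hprod
    have hgr := mem_ratField g.2 hgfix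
    have hγ0 : qEmb E c hmem ⟨(g : LaurentSeries QBar), hgr⟩ ≠ 0 :=
      (_root_.map_ne_zero _).mpr fun h => hg0 (Subtype.ext (by
        have := congrArg (ratIncl A (q * M)) h
        rwa [map_zero] at this))
    refine mem_constMulPow.mpr ⟨Units.mk0 l hl, Units.mk0 _ hγ0, Units.ext (Subtype.ext ?_)⟩
    rw [Units.coe_prod, IntermediateField.coe_prod]
    refine hprod.symm.trans ?_
    show _ = ((algebraMap (inertiaField A) (E.field (inertiaField A)) l *
      qEmb E c hmem ⟨(g : LaurentSeries QBar), hgr⟩ ^ m : E.field (inertiaField A)) :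
        LaurentSeries QBar)
    rw [show ∀ p r : E.field (inertiaField A),
      ((p * r ^ m : E.field (inertiaField A)) : LaurentSeries QBar)
        = (p : LaurentSeries QBar) * (r : LaurentSeries QBar) ^ m from fun _ _ => rfl, hconst]
    rfl
  have hnew' := hnew D rfl
  have hplus := hmain uPlus (fun a => by simp [uPlus, Matrix.det_fin_two]) uPlus_add uPlus_zero
    (heckeAlphaBar QBar (q * M) q) (alpha_galois _ _) (finrankAlong_alpha_sq hq).le hnew'.1 n
    (fun z => by rw [coe_heckeAlphaBar])
    (fun d _ hd => hmk d (hd.trans (dvd_mul_right _ q)))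
    (fun a d _ hd z hz => E.fixed_uPlus hP hcop hq hM hd a (hact _) hz)
    (q * q) ⟨M, by ring⟩
    (fun a z hz h => E.eq_zero_of_uPlus_fix hP hcop (hact _) hz h)
  have hqd : ∀ (d : ℕ) [NeZero d],
      qExpand QBar (n * q) (qExpand QBar d (jqModC QBar))
        = qExpand QBar n (qExpand QBar (q * d) (jqModC QBar)) := fun d _ => by
    rw [qExpand_qExpand, qExpand_qExpand]
    exact qExpand_congr (by ring) _
  have hminus := hmain uMinus (fun a => by simp [uMinus, Matrix.det_fin_two]) uMinus_add uMinus_zero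
    (heckeBetaBar QBar (q * M) q) (beta_galois _ _) (finrankAlong_beta_sq_le hq) hnew'.2 (n * q)
    (fun z => by rw [coe_heckeBetaBar, qExpand_qExpand])
    (fun d _ hd => hqd d ▸ hmk (q * d) (by rw [mul_comm (q * M) q]; exact mul_dvd_mul_left q hd))
    (fun a d _ hd z hz => E.fixed_uMinus hP hcop hq hM (d := q * d)
      (by rw [mul_comm (q * M) q]; exact mul_dvd_mul_left q hd) (dvd_mul_right q d) a (hact _)
      (hz.trans (hqd d)))
    1 (one_dvd _)
    (fun a z hz h => E.eq_zero_of_uMinus_fix hP hcop (hact _)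
      (hz.trans (by rw [qExpand_one_apply])) h)
  -- the integral study
  have : Fact Lv.frame.Q.Prime := ⟨hq⟩
  obtain ⟨κ, γ, hlam⟩ := mem_constMulPow.mp (lam_mem_constMulPow Lv hplus hminus)
  obtain ⟨κ', h, hh⟩ := exists_const_mul_pow (E.cuspEmb hA hq hcop L hL hLn hgal) (torusComb q)
    (U := inertialBase hA hq) (TateLevel.isUnit_natCast hmq) hfixed hpl hlam
  -- back to level `q M q`
  exact smul_mk_eq_zero_of_pow E (dvd_mul_left q _) hmk hm hf0 hford hfr
    (congrArg Units.val hh)

omit [NeZero n] [NeZero (q * n)] in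
/-- **The geometric theorem.** -/
theorem fixedNewTorsionBound (hq : q.Prime) (hqM : ¬ q ∣ M) : FixedNewTorsionBound q M := by
  have : Fact q.Prime := ⟨hq⟩
  obtain ⟨L, hL, hqL⟩ : ∃ L : ℕ, (L = 7 ∨ L = 9) ∧ ¬ q ∣ L := by
    by_cases h : q = 7
    · exact ⟨9, Or.inr rfl, by subst h; norm_num⟩
    · exact ⟨7, Or.inl rfl, fun hd => h ((Nat.prime_dvd_prime_iff_eq hq (by norm_num)).mp hd)⟩
  have : NeZero (M * L) := ⟨mul_ne_zero (NeZero.ne M) (by omega)⟩
  have : NeZero (q * (M * L)) := ⟨mul_ne_zero hq.ne_zero (NeZero.ne _)⟩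
  obtain ⟨E⟩ := exists_setup (q * (M * L))
  refine ⟨glueExp (torusComb q) *
    (Nat.card (Matrix (Fin 2) (Fin 2) (ZMod (q * (M * L))))).factorial,
    Nat.mul_pos (glueExp_pos _) (Nat.factorial_pos _), fun lam e hlam hne A hA x hx hfix hnew => ?_⟩
  exact smul_eq_zero_of_fixed E hq
    (fun h => (hq.dvd_mul.mp h).elim hqM hqL) (dvd_mul_right M L) hL (dvd_mul_left L M)
    (pow_pos hlam.pos e) (((Nat.coprime_primes hlam hq).mpr hne).pow_left e) hA hx hfix hnew

end Fermat.Agent.Carayol

end
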