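import Fermat.Agent.Carayol.Points
import Fermat.Agent.Carayol.LocRing
import Mathlib.Data.ZMod.Basic
import Mathlib.Algebra.Polynomial.Roots
import Mathlib.GroupTheory.QuotientGroup.Basic
import Mathlib.GroupTheory.Coset.Card

/-!
# The kernel of reduction contains a point of exact order `q ^ a`
-/

set_option autoImplicit false

namespace Fermat.Agent.Carayol

open WeierstrassCurve IsLocalRing Polynomial

variable {Ω : Type*} [Field Ω] [DecidableEq Ω] {b c : Ω}

/-- A prime `q`, a power `Q` of it, an integer `n` prime to `q` killing the marked point, and full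
`Q`-torsion. -/
structure TorsFrame (b c : Ω) where
  hb : b ≠ 0
  n : ℕ
  q : ℕ
  /-- The exponent. -/
  a : ℕ
  /-- The power `q ^ a`. -/
  Q : ℕ
  hn0 : n ≠ 0
  hq : q.Prime
  ha : a ≠ 0
  hQ : Q = q ^ a
  hnq : n.Coprime q
  hchar : (q : Ω) ≠ 0
  /-- The `Q`-torsion. -/
  qTors : (Fin 2 → ZMod Q) →+ (tateCurve b c).toAffine.Point
  qTors_injective : Function.Injective qTors
  nR : n • tatePt (c := c) hb = 0
  smulR : ∀ k ∈ ({1, 2, 3, 4, 5, 6, 8} : Finset ℕ), k • tatePt (c := c) hb ≠ 0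

namespace TorsFrame

variable (T : TorsFrame b c)

lemma Q_ne_zero : T.Q ≠ 0 := T.hQ ▸ pow_ne_zero _ T.hq.ne_zero

instance : NeZero T.Q := ⟨T.Q_ne_zero⟩

lemma hnQ : T.n.Coprime T.Q := T.hQ ▸ T.hnq.pow_right _

lemma Q_eq_succ : T.Q = T.q ^ (T.a - 1) * T.q := by
  rw [← pow_succ, T.hQ, Nat.sub_add_cancel (Nat.one_le_iff_ne_zero.2 T.ha)]

lemma nsmul_qTors (v : Fin 2 → ZMod T.Q) : T.Q • T.qTors v = 0 := by
  rw [← map_nsmul]
  have : T.Q • v = 0 := by funext i; simp
  rw [this, map_zero]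

lemma nsmul_eq_zero_iff_dvd {x : ZMod T.Q} {k : ℕ} (hk : k < T.a) :
    T.q ^ k • x = 0 → (T.q : ZMod T.Q) ∣ x := by
  intro h
  obtain ⟨z, rfl⟩ := ZMod.natCast_zmod_surjective (n := T.Q) x
  rw [nsmul_eq_mul, ← Nat.cast_mul, ZMod.natCast_eq_zero_iff, T.hQ] at h
  obtain ⟨e, he⟩ := Nat.exists_eq_add_of_lt hk
  rw [he, show k + e + 1 = k + (e + 1) by ring, pow_add] at h
  obtain ⟨z', rfl⟩ := (dvd_pow_self T.q (by omega : e + 1 ≠ 0)).trans
    (Nat.dvd_of_mul_dvd_mul_left (pow_pos T.hq.pos k) h)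
  exact ⟨z', by push_cast; ring⟩

lemma isUnit_iff {x : ZMod T.Q} : IsUnit x ↔ ¬ (T.q : ZMod T.Q) ∣ x := by
  obtain ⟨z, rfl⟩ := ZMod.natCast_zmod_surjective (n := T.Q) x
  have hk : ¬ IsUnit (T.q : ZMod T.Q) := by
    rw [ZMod.isUnit_iff_coprime, T.hQ, Nat.coprime_pow_right_iff (Nat.pos_of_ne_zero T.ha)]
    exact fun h => T.hq.ne_one (Nat.coprime_self _ |>.1 h)
  refine ⟨fun hu ⟨y, hy⟩ => hk (isUnit_of_mul_isUnit_left (hy ▸ hu)), fun h => ?_⟩
  rw [ZMod.isUnit_iff_coprime, T.hQ]
  refine Nat.Coprime.pow_right _ ((T.hq.coprime_iff_not_dvd.2 fun hd => h ?_).symm)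
  obtain ⟨y, rfl⟩ := hd
  exact ⟨y, by push_cast; ring⟩

/-- Good position relative to the fibre: `q` lies in the maximal ideal and `n` is a unit. -/
def IsOver (F : GoodFibre b c) : Prop :=
  InMax F.O (T.q : Ω) ∧ IsUnit (T.n : F.O)

/-- A polynomial vanishing at the residues of more elements than its degree, the leading
coefficient being in the maximal ideal, vanishes modulo the maximal ideal. -/
lemma map_eq_zero_of_roots {O : Subring Ω} [IsLocalRing O] {p : O[X]}
    {S : Finset (ResidueField O)} {d : ℕ} (hd : p.natDegree ≤ d) (hS : d ≤ S.card)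
    (hroot : ∀ r ∈ S, (p.map (residue O)).eval r = 0) (hc : p.coeff d ∈ maximalIdeal O) :
    p.map (residue O) = 0 := by
  by_contra h0
  have h1 : (p.map (residue O)).coeff d = 0 := by
    rw [coeff_map, residue_eq_zero_iff]; exact hc
  have h2 : (p.map (residue O)).natDegree ≤ d := natDegree_map_le.trans hd
  have h3 : (p.map (residue O)).natDegree < d := lt_of_le_of_ne h2 fun e =>
    h0 (leadingCoeff_eq_zero.1 (by rw [leadingCoeff, e, h1]))
  exact h0 (eq_zero_of_natDegree_lt_card_of_eval_eq_zero' _ S hroot (h3.trans_le hS))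

variable {T}

/-- A finite point whose `k`-th multiple is zero or infinite is a root of `ΨSqₖ` modulo the maximal
ideal. -/
lemma inMax_eval_ΨSq {F : GoodFibre b c} {k : ℕ} {P : (tateCurve b c).toAffine.Point} {x : F.O}
    {y : Ω} {h : (tateCurve b c).toAffine.Nonsingular (x : Ω) y} (eP : P = .some _ _ h)
    (hk : k • P = 0 ∨ F.Inf (k • P)) : (F.W.ΨSq k).eval x ∈ maximalIdeal F.O := by
  have := F.isElliptic
  have hev : ∀ g : F.O[X], (g.map (algebraMap F.O Ω)).eval (x : Ω) = ((g.eval x : F.O) : Ω) :=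
    fun g => by rw [eval_map, show ((x : Ω)) = algebraMap F.O Ω x from rfl, eval₂_at_apply]; rfl
  rw [eP] at hk
  rcases hk with h0 | hinf
  · rw [EC.Torsion.nsmul_some_eq_zero_iff, ← F.map_W, WeierstrassCurve.map_ΨSq, hev] at h0
    rw [show (F.W.ΨSq k).eval x = 0 from Subtype.ext h0]
    exact zero_mem _
  · obtain ⟨x', y', h', e, -⟩ := id hinf
    have key := EC.Torsion.eval_Φ_eq_mul_of_nsmul_eq_some (tateCurve b c).toAffine (h := h)
      (h₁ := h') e
    rw [← F.map_W, WeierstrassCurve.map_Φ, WeierstrassCurve.map_ΨSq, hev, hev] at key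
    by_contra hu
    obtain ⟨h0, hi, -⟩ := inv_mem_of_not_inMax ((F.W.ΨSq k).eval x).2 (fun hm => hu (inMax_coe.1 hm))
    have hx' : x' ∈ F.O := by
      have := mul_mem ((F.W.Φ k).eval x).2 hi
      rwa [key, mul_assoc, mul_inv_cancel₀ h0, mul_one] at this
    obtain ⟨V, hV, hV'⟩ := F.exists_valuationSubring
    have := hinf.inE1 hV hV'
    rw [e] at this
    exact this (hV _ hx')

/-- Some point of exact order `Q` reduces to the origin. -/
theorem exists_inf {F : GoodFibre b c} (hT : T.IsOver F) :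
    ∃ v, (∃ i, IsUnit (v i)) ∧ F.Inf (T.qTors v) := by
  classical
  have : Fact T.q.Prime := ⟨T.hq⟩
  by_contra! hcon
  -- the vectors reducing to the origin
  let H : AddSubgroup (Fin 2 → ZMod T.Q) :=
    { carrier := {v | v = 0 ∨ F.Inf (T.qTors v)}
      zero_mem' := Or.inl rfl
      add_mem' := fun {v w} hv hw => by
        rcases hv with rfl | hv
        · rwa [zero_add]
        rcases hw with rfl | hw
        · rw [add_zero]; exact Or.inr hv
        refine (em (v + w = 0)).imp id fun h0 => ?_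
        rw [map_add]
        exact hv.add T.Q_ne_zero hw (T.nsmul_qTors v) (T.nsmul_qTors w)
          (by rw [← map_add]; exact (map_ne_zero_iff _ T.qTors_injective).2 h0)
      neg_mem' := fun {v} hv => by
        rcases hv with rfl | hv
        · exact Or.inl neg_zero
        · refine Or.inr ?_
          rw [map_neg]
          exact hv.neg T.Q_ne_zero (T.nsmul_qTors v) }
  have hfin : ∀ v, v ∉ H → F.Fin (T.qTors v) := fun v hv =>
    (F.fin_or_inf T.Q_ne_zero (T.nsmul_qTors v)
      ((map_ne_zero_iff _ T.qTors_injective).2 fun h => hv (Or.inl h))).resolve_right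
      fun h => hv (Or.inr h)
  have hnot : ∀ v, ¬ F.Fin (T.qTors v) → v ∈ H := fun v hv => by
    by_contra h; exact hv (hfin v h)
  have hdiv : ∀ v ∈ H, ∃ w, T.q • w = v := fun v hv => by
    rcases hv with rfl | hv
    · exact ⟨0, smul_zero _⟩
    have hd : ∀ i, (T.q : ZMod T.Q) ∣ v i := fun i => by
      by_contra h; exact hcon v ⟨i, T.isUnit_iff.2 h⟩ hv
    choose w hw using hd
    exact ⟨w, funext fun i => by rw [Pi.smul_apply, nsmul_eq_mul, ← hw i]⟩
  -- the vectors whose `q`-th multiple reduces to the origin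
  let W := H.comap (nsmulAddMonoidHom T.q)
  let f : W →+ H :=
    ((nsmulAddMonoidHom T.q).comp W.subtype).codRestrict H fun w => w.2
  have hsurj : Function.Surjective f := fun v => by
    obtain ⟨w, hw⟩ := hdiv v.1 v.2
    exact ⟨⟨w, show T.q • w ∈ H by rw [hw]; exact v.2⟩, Subtype.ext hw⟩
  let emb : (Fin 2 → ZMod T.q) → f.ker := fun z =>
    ⟨⟨fun i => ((T.q ^ (T.a - 1) * (z i).val : ℕ) : ZMod T.Q), by
      show T.q • _ ∈ H
      refine Or.inl (funext fun i => ?_)
      simp only [Pi.smul_apply, nsmul_eq_mul, Pi.zero_apply]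
      rw [← Nat.cast_mul, ZMod.natCast_eq_zero_iff]
      exact ⟨(z i).val, by rw [T.Q_eq_succ]; ring⟩⟩, by
      refine (AddMonoidHom.mem_ker).2 (Subtype.ext (funext fun i => ?_))
      show T.q • ((T.q ^ (T.a - 1) * (z i).val : ℕ) : ZMod T.Q) = 0
      rw [nsmul_eq_mul]
      rw [← Nat.cast_mul, ZMod.natCast_eq_zero_iff]
      exact ⟨(z i).val, by rw [T.Q_eq_succ]; ring⟩⟩
  have hker : T.q ^ 2 ≤ Nat.card f.ker := by
    have hc : Nat.card (Fin 2 → ZMod T.q) = T.q ^ 2 := by
      rw [Nat.card_eq_fintype_card]; simp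
    rw [← hc]
    refine Nat.card_le_card_of_injective emb fun z z' h => funext fun i => ?_
    have h1 := congrFun (congrArg (fun z : f.ker => z.1.1) h) i
    simp only [emb, ZMod.natCast_eq_natCast_iff, Nat.ModEq] at h1
    have hlt : ∀ u : ZMod T.q, T.q ^ (T.a - 1) * u.val < T.Q := fun u => by
      rw [T.Q_eq_succ]
      exact (Nat.mul_lt_mul_left (pow_pos T.hq.pos _)).2 (ZMod.val_lt u)
    rw [Nat.mod_eq_of_lt (hlt _), Nat.mod_eq_of_lt (hlt _)] at h1
    exact ZMod.val_injective _ (Nat.eq_of_mul_eq_mul_left (pow_pos T.hq.pos _) h1)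
  have hcard : T.q ^ 2 ≤ Nat.card (W ⧸ H.addSubgroupOf W) := by
    have h1 := AddSubgroup.card_eq_card_quotient_mul_card_addSubgroup (H.addSubgroupOf W)
    have hle : H ≤ W := fun v hv => AddSubgroup.nsmul_mem _ hv _
    rw [Nat.card_congr (AddSubgroup.addSubgroupOfEquivOfLe hle).toEquiv,
      AddSubgroup.card_eq_card_quotient_mul_card_addSubgroup f.ker,
      Nat.card_congr (QuotientAddGroup.quotientKerEquivOfSurjective f hsurj).toEquiv,
      mul_comm (Nat.card (W ⧸ _))] at h1
    exact hker.trans (Nat.eq_of_mul_eq_mul_left Nat.card_pos h1).le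
  -- finite representatives of the nonzero classes
  let G := W ⧸ H.addSubgroupOf W
  have hrep : ∀ c : G, c ≠ 0 → c.out.1 ∉ H := fun c hc h =>
    hc (by rw [← QuotientAddGroup.out_eq' c]; exact (QuotientAddGroup.eq_zero_iff _).2 h)
  have hex : ∀ k : G, k ≠ 0 → ∃ x : F.O, ∃ y : Ω, y ∈ F.O ∧
      ∃ h : (tateCurve b c).toAffine.Nonsingular (x : Ω) y,
        T.qTors k.out.1 = .some _ _ h := fun k hk => by
    obtain ⟨x, y, h, e, hx, hy⟩ := hfin _ (hrep k hk)
    exact ⟨⟨x, hx⟩, y, hy, h, e⟩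
  choose xv yv hy hn he using hex
  have : Fintype G := Fintype.ofFinite G
  set R := (Finset.univ : Finset G).erase 0
  set g : {c // c ∈ R} → ResidueField F.O :=
    fun c => residue F.O (xv c.1 (Finset.ne_of_mem_erase c.2)) with hg
  have hmul : ∀ c : G, T.q • c = 0 := fun c => by
    rw [← QuotientAddGroup.out_eq' c]
    exact (QuotientAddGroup.eq_zero_iff _).2 c.out.2
  have hsub : ∀ c d, g c = g d → d.1 = c.1 ∨ d.1 = -c.1 := fun c d h => by
    set hc := Finset.ne_of_mem_erase c.2
    set hd := Finset.ne_of_mem_erase d.2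
    have hm : InMax F.O ((xv c.1 hc : Ω) - (xv d.1 hd : Ω)) := by
      rw [← sub_eq_zero, ← map_sub, residue_eq_zero_iff] at h
      exact inMax_coe.2 h
    rcases F.not_fin_of_congr (he _ hc) (he _ hd) (xv _ hc).2 (xv _ hd).2 hm with e | e
    · left
      rw [← map_sub] at e
      have hz : ((c.1.out - d.1.out : W) : G) = 0 := (QuotientAddGroup.eq_zero_iff _).2 (hnot _ e)
      rw [QuotientAddGroup.mk_sub, QuotientAddGroup.out_eq', QuotientAddGroup.out_eq',
        sub_eq_zero] at hz
      exact hz.symm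
    · right
      rw [← map_add] at e
      have hz : ((c.1.out + d.1.out : W) : G) = 0 := (QuotientAddGroup.eq_zero_iff _).2 (hnot _ e)
      rw [QuotientAddGroup.mk_add, QuotientAddGroup.out_eq', QuotientAddGroup.out_eq'] at hz
      exact eq_neg_of_add_eq_zero_right hz
  set S := R.attach.image g with hS
  have hroot : ∀ r ∈ S, ((F.W.ΨSq T.q).map (residue F.O)).eval r = 0 := by
    intro r hr
    obtain ⟨c, -, rfl⟩ := Finset.mem_image.1 hr
    rw [eval_map, eval₂_at_apply, residue_eq_zero_iff]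
    refine inMax_eval_ΨSq (he _ (Finset.ne_of_mem_erase c.2)) ?_
    rw [← map_nsmul]
    have hW : T.q • c.1.out.1 ∈ H := c.1.out.2
    exact hW.imp (fun h => by rw [h, map_zero]) id
  have hRcard : T.q ^ 2 - 1 ≤ R.card := by
    rw [Finset.card_erase_of_mem (Finset.mem_univ _), Finset.card_univ, ← Nat.card_eq_fintype_card]
    exact Nat.sub_le_sub_right hcard 1
  have hqm : (T.q : F.O) ∈ maximalIdeal F.O := by
    obtain ⟨h, hm⟩ := hT.1
    have e : (T.q : F.O) = ⟨(T.q : Ω), h⟩ := Subtype.ext (map_natCast F.O.subtype T.q)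
    rw [e]; exact hm
  apply map_ΨSq_ne_zero F.W T.hq.ne_zero
  rcases T.hq.eq_two_or_odd' with h2 | hodd
  · -- `q = 2`
    have hinj : Function.Injective g := fun c d h => Subtype.ext <| by
      rcases hsub c d h with e | e
      · exact e.symm
      · have := hmul c.1
        rw [h2, two_nsmul] at this
        rw [e]; exact eq_neg_of_add_eq_zero_left this
    rw [show (T.q : ℤ) = 2 by exact_mod_cast h2, WeierstrassCurve.ΨSq_two] at hroot ⊢
    refine map_eq_zero_of_roots (S := S) (d := 3) F.W.natDegree_Ψ₂Sq_le ?_ hroot ?_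
    · rw [hS, Finset.card_image_of_injective _ hinj, Finset.card_attach]
      rw [h2] at hRcard
      omega
    · rw [WeierstrassCurve.coeff_Ψ₂Sq, show (4 : F.O) = (2 : ℕ) * (2 : ℕ) by norm_num]
      exact Ideal.mul_mem_left _ _ (by simpa [h2] using hqm)
  have hne : ¬ Even T.q := Nat.not_even_iff_odd.2 hodd
  have hpre : (F.W.preΨ' T.q).map (residue F.O) = 0 := by
    refine map_eq_zero_of_roots (S := S) (d := (T.q ^ 2 - 1) / 2) ?_ ?_ (fun r hr => ?_) ?_
    · simpa [hne] using F.W.natDegree_preΨ'_le T.q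
    · have : R.card ≤ 2 * S.card := by
        rw [← Finset.card_attach (s := R)]
        refine Finset.card_le_mul_card_image _ 2 fun r hr => ?_
        obtain ⟨c, -, rfl⟩ := Finset.mem_image.1 hr
        have hnc : -c.1 ∈ R :=
          Finset.mem_erase.2 ⟨neg_ne_zero.2 (Finset.ne_of_mem_erase c.2), Finset.mem_univ _⟩
        refine le_trans (Finset.card_le_card (t := {c, ⟨-c.1, hnc⟩}) ?_) Finset.card_le_two
        intro d hd
        rw [Finset.mem_filter] at hd
        rcases hsub c d hd.2.symm with e | e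
        · simp [Subtype.ext e]
        · simp [show d = ⟨-c.1, hnc⟩ from Subtype.ext e]
      omega
    · have := hroot r hr
      rw [WeierstrassCurve.ΨSq_ofNat, if_neg hne, mul_one, Polynomial.map_pow, eval_pow] at this
      exact eq_zero_of_pow_eq_zero this
    · have := F.W.coeff_preΨ' T.q
      simp only [hne, if_false] at this
      rw [this]
      simpa using hqm
  rw [WeierstrassCurve.ΨSq_ofNat, Polynomial.map_mul, Polynomial.map_pow, hpre]
  simp

end TorsFrame

end Fermat.Agent.Carayol
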