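import Fermat.Agent.Carayol.Omega.Maps
import Fermat.Agent.Carayol.Omega.CuspInst
import Fermat.Agent.Carayol.DegreeNorm

/-!
# Functions of level `q M q` in the field of level `q n`

`f (τ) ↦ f (τ/q)` sends the rational functions of level `q M q` into the field of level `q n`; the
norms along the two degeneracy maps become products over the two unipotent groups.
-/

set_option autoImplicit false
set_option synthInstance.maxHeartbeats 100000

noncomputable section

namespace Fermat.Agent.Carayol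

open ModularCurve AlgebraicCurve
open Fermat.Agent.Arith Fermat.Agent.Carayol.Omega
open scoped MatrixGroups

/-- Induction on a rational function, with constants as series. -/
theorem ratField_induction {A : ValuationSubring QBar} {N : ℕ} {p : LaurentSeries QBar → Prop}
    (hgen : ∀ (d : ℕ) [NeZero d], d ∣ N → p (qExpand QBar d (jqModC QBar)))
    (hC : ∀ c : inertiaField A, p (HahnSeries.C (c : QBar)))
    (hadd : ∀ a b, p a → p b → p (a + b)) (hinv : ∀ a, p a → p a⁻¹)
    (hmul : ∀ a b, p a → p b → p (a * b)) {x : LaurentSeries QBar} (hx : x ∈ ratField A N) :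
    p x := by
  induction hx using IntermediateField.adjoin_induction with
  | mem z hz =>
    obtain ⟨d, hd, hdN, rfl⟩ := hz
    exact @hgen d hd hdN
  | algebraMap c =>
    rw [IsScalarTower.algebraMap_apply (inertiaField A) QBar (LaurentSeries QBar),
      algebraMap_laurentSeries_eq_single]
    exact hC c
  | add a b _ _ ha hb => exact hadd a b ha hb
  | inv a _ ha => exact hinv a ha
  | mul a b _ _ ha hb => exact hmul a b ha hb

/-- A constant series is rational. -/
theorem C_mem_ratField {A : ValuationSubring QBar} {N : ℕ} (c : inertiaField A) :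
    HahnSeries.C (c : QBar) ∈ ratField A N := by
  have := (ratField A N).algebraMap_mem c
  rwa [IsScalarTower.algebraMap_apply (inertiaField A) QBar (LaurentSeries QBar),
    algebraMap_laurentSeries_eq_single] at this

/-- The inclusion of the rational functions. -/
def ratIncl (A : ValuationSubring QBar) (N : ℕ) : ratField A N →+* LaurentSeries QBar :=
  (ratField A N).val.toRingHom

theorem ratIncl_mem {A : ValuationSubring QBar} {N : ℕ} (x : ratField A N) :
    ratIncl A N x ∈ ratField A N := x.2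

theorem ratIncl_mk {A : ValuationSubring QBar} {N : ℕ} {x : LaurentSeries QBar}
    (hx : x ∈ ratField A N) : ratIncl A N ⟨x, hx⟩ = x := rfl

attribute [local instance 2000] Omega.serAlg

section Emb

variable {nn : ℕ} [NeZero nn] (E : Setup nn QBar) {A : ValuationSubring QBar} {N : ℕ} (c : ℕ)
  [NeZero c]

local notation "Ω" => E.field (inertiaField A)

theorem qExpand_mem_field
    (hmem : ∀ (d : ℕ) [NeZero d], d ∣ N → qExpand QBar c (qExpand QBar d (jqModC QBar)) ∈ Ω)
    {x : LaurentSeries QBar} (hx : x ∈ ratField A N) : qExpand QBar c x ∈ Ω := by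
  refine ratField_induction (p := fun z => qExpand QBar c z ∈ Ω) (fun d _ hd => hmem d hd)
    (fun a => ?_) (fun a b ha hb => ?_) (fun a ha => ?_) (fun a b ha hb => ?_) hx
  · rw [qExpand_C]
    have := (Ω).algebraMap_mem a
    rwa [algebraMap_laurent_comp] at this
  · rw [map_add]; exact add_mem ha hb
  · rw [map_inv₀]; exact inv_mem ha
  · rw [map_mul]; exact mul_mem ha hb

/-- `f ↦ f (τ/q)` on rational functions. -/
def qEmb (hmem : ∀ (d : ℕ) [NeZero d], d ∣ N → qExpand QBar c (qExpand QBar d (jqModC QBar)) ∈ Ω) :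
    ratField A N →+* Ω :=
  ((qExpand QBar c).comp (ratIncl A N)).codRestrict (Ω).toSubfield
    fun x => qExpand_mem_field E c hmem (ratIncl_mem x)

variable {c}

@[simp]
theorem coe_qEmb (hmem : ∀ (d : ℕ) [NeZero d], d ∣ N →
    qExpand QBar c (qExpand QBar d (jqModC QBar)) ∈ Ω) (x : ratField A N) :
    ((qEmb E c hmem x : Ω) : LaurentSeries QBar) = qExpand QBar c (ratIncl A N x) := rfl

/-- An automorphism fixing the images of the generators fixes the images of rational functions. -/
theorem fixed_of_gens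
    (hmem : ∀ (d : ℕ) [NeZero d], d ∣ N → qExpand QBar c (qExpand QBar d (jqModC QBar)) ∈ Ω)
    (e : Ω ≃ₐ[inertiaField A] Ω)
    (hfix : ∀ (d : ℕ) [NeZero d], d ∣ N → ∀ y : Ω,
      (y : LaurentSeries QBar) = qExpand QBar c (qExpand QBar d (jqModC QBar)) → e y = y)
    {x : LaurentSeries QBar} (hx : x ∈ ratField A N) {y : Ω}
    (hy : (y : LaurentSeries QBar) = qExpand QBar c x) : e y = y := by
  obtain ⟨y', hy', he'⟩ := ratField_induction
    (p := fun z => ∃ y : Ω, (y : LaurentSeries QBar) = qExpand QBar c z ∧ e y = y)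
    (fun d _ hd => ⟨⟨_, hmem d hd⟩, rfl, hfix d hd _ rfl⟩)
    (fun a => ⟨algebraMap _ Ω a, by rw [qExpand_C]; exact algebraMap_laurent_comp _, e.commutes a⟩)
    (fun a b ⟨y₁, h₁, e₁⟩ ⟨y₂, h₂, e₂⟩ =>
      ⟨y₁ + y₂, by rw [map_add, ← h₁, ← h₂]; rfl, by rw [map_add, e₁, e₂]⟩)
    (fun a ⟨y₁, h₁, e₁⟩ => ⟨y₁⁻¹, by rw [map_inv₀, ← h₁]; rfl, by rw [map_inv₀, e₁]⟩)
    (fun a b ⟨y₁, h₁, e₁⟩ ⟨y₂, h₂, e₂⟩ =>
      ⟨y₁ * y₂, by rw [map_mul, ← h₁, ← h₂]; rfl, by rw [map_mul, e₁, e₂]⟩) hx
  obtain rfl : y = y' := Subtype.ext (hy.trans hy'.symm)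
  exact he'

variable (c) in
theorem qExpand_mem_fieldBar [NeZero N]
    (hmem : ∀ (d : ℕ) [NeZero d], d ∣ N →
      qExpand QBar c (qExpand QBar d (jqModC QBar)) ∈ E.field QBar)
    {x : LaurentSeries QBar} (hx : x ∈ modularFunctionFieldBar N) :
    qExpand QBar c x ∈ E.field QBar := by
  rw [modularFunctionFieldBar, ModFun.laurentBaseChange_eq_fullC] at hx
  induction hx using IntermediateField.adjoin_induction with
  | mem z hz =>
    obtain ⟨d, hd, hdN, rfl⟩ := hz
    exact @hmem d hd hdN
  | algebraMap a =>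
    rw [algebraMap_laurentSeries_eq_single, ← HahnSeries.C_apply, qExpand_C]
    have := (E.field QBar).algebraMap_mem a
    rwa [algebraMap_laurent_comp] at this
  | add a b _ _ ha hb => rw [map_add]; exact add_mem ha hb
  | inv a _ ha => rw [map_inv₀]; exact inv_mem ha
  | mul a b _ _ ha hb => rw [map_mul]; exact mul_mem ha hb

variable (c) in
/-- `f ↦ f (τ/q)` over `ℚ̄`. -/
def qEmbBar [NeZero N]
    (hmem : ∀ (d : ℕ) [NeZero d], d ∣ N →
      qExpand QBar c (qExpand QBar d (jqModC QBar)) ∈ E.field QBar) :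
    modularFunctionFieldBar N →+* E.field QBar :=
  ((qExpand QBar c).comp (modularFunctionFieldBar N).toSubfield.subtype).codRestrict
    (E.field QBar).toSubfield fun x => qExpand_mem_fieldBar E c hmem x.2

/-- An automorphism given by a substitution agrees with the substitution over `ℚ̄`. -/
theorem coe_apply_eq_substHom {e : Ω ≃ₐ[inertiaField A] Ω} {γ : SL(2, ℤ)}
    (he : E.Moves (inertiaField A) e (redMat nn γ)) {y : Ω} {y' : E.field QBar}
    (h : (y : LaurentSeries QBar) = y') :
    ((e y : Ω) : LaurentSeries QBar) = E.substHom QBar γ y' := by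
  obtain ⟨e', he', hval⟩ := E.exists_moves_subst (inertiaField A) γ
  obtain rfl := he'.ext he
  rw [hval]
  have key : ∀ z ∈ Ω, ∃ (y₁ : Ω) (y₂ : E.field QBar),
      (y₁ : LaurentSeries QBar) = z ∧ (y₂ : LaurentSeries QBar) = z ∧
        E.substHom (inertiaField A) γ y₁ = E.substHom QBar γ y₂ := by
    intro z hz
    induction hz using IntermediateField.adjoin_induction with
    | mem z hz =>
      rcases hz with ⟨a, rfl⟩ | ⟨g, hg, rfl⟩
      · exact ⟨E.fz _ a, E.fz _ a, rfl, rfl, by rw [E.substHom_fz, E.substHom_fz]⟩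
      · exact ⟨E.fgen _ hg, E.fgen _ hg, rfl, rfl, by rw [E.substHom_fgen, E.substHom_fgen]⟩
    | algebraMap a =>
      refine ⟨algebraMap _ Ω a, algebraMap QBar (E.field QBar) a, rfl, ?_, ?_⟩
      · show algebraMap QBar (LaurentSeries QBar) (a : QBar) = algebraMap _ (LaurentSeries QBar) a
        rw [algebraMap_laurent_comp, algebraMap_laurent_comp]
        rfl
      · rw [AlgHom.commutes, AlgHom.commutes, algebraMap_laurent_comp, algebraMap_laurent_comp]
        rfl
    | add a b _ _ ha hb =>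
      obtain ⟨a₁, a₂, ha₁, ha₂, ha₃⟩ := ha
      obtain ⟨b₁, b₂, hb₁, hb₂, hb₃⟩ := hb
      exact ⟨a₁ + b₁, a₂ + b₂, by rw [← ha₁, ← hb₁]; rfl, by rw [← ha₂, ← hb₂]; rfl,
        by rw [map_add, map_add, ha₃, hb₃]⟩
    | inv a _ ha =>
      obtain ⟨a₁, a₂, ha₁, ha₂, ha₃⟩ := ha
      exact ⟨a₁⁻¹, a₂⁻¹, by rw [← ha₁]; rfl, by rw [← ha₂]; rfl, by rw [map_inv₀, map_inv₀, ha₃]⟩
    | mul a b _ _ ha hb =>
      obtain ⟨a₁, a₂, ha₁, ha₂, ha₃⟩ := ha
      obtain ⟨b₁, b₂, hb₁, hb₂, hb₃⟩ := hb
      exact ⟨a₁ * b₁, a₂ * b₂, by rw [← ha₁, ← hb₁]; rfl, by rw [← ha₂, ← hb₂]; rfl,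
        by rw [map_mul, map_mul, ha₃, hb₃]⟩
  obtain ⟨y₁, y₂, h₁, h₂, h₃⟩ := key _ y.2
  obtain rfl : y₁ = y := Subtype.ext h₁
  obtain rfl : y₂ = y' := Subtype.ext (h₂.trans h)
  exact h₃

end Emb

section Unip

variable {Q R n : ℕ} [NeZero Q] [NeZero R] [NeZero n] [NeZero (Q * n)] (E : Setup (Q * n) QBar)
  {A : ValuationSubring QBar}

set_option maxHeartbeats 800000 in
/-- The norm along a degeneracy map is the product over a set of unipotents. -/
theorem prod_act_eq_norm_family {ι : Type} [Fintype ι] {ℓ : ℕ} [NeZero ℓ] (hcop : Q.Coprime n)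
    (act : GL (Fin 2) (ZMod Q) →*
      (E.field (inertiaField A) ≃ₐ[inertiaField A] E.field (inertiaField A)))
    (hact : ∀ g, E.Moves (inertiaField A) (act g)
      (liftMat hcop (g : Matrix (Fin 2) (Fin 2) (ZMod Q))))
    (hmN : ∀ (d : ℕ) [NeZero d], d ∣ R * ℓ →
      qExpand QBar n (qExpand QBar d (jqModC QBar)) ∈ E.field QBar)
    (u : ι → GL (Fin 2) (ZMod Q))
    (hdet : ∀ a, (u a : Matrix (Fin 2) (Fin 2) (ZMod Q)).det = 1)
    (ψ : modularFunctionFieldBar R →ₐ[QBar] modularFunctionFieldBar (R * ℓ))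
    (c : ℕ) [NeZero c]
    (hc : ∀ y, qExpand QBar n (ψ y : LaurentSeries QBar) = qExpand QBar c (y : LaurentSeries QBar))
    (hmem : ∀ (d : ℕ) [NeZero d], d ∣ R →
      qExpand QBar c (qExpand QBar d (jqModC QBar)) ∈ E.field (inertiaField A))
    (hle : finrankAlong QBar ψ ≤ Fintype.card ι)
    (hfix : ∀ (a : ι) (d : ℕ) [NeZero d], d ∣ R → ∀ y : E.field (inertiaField A),
      (y : LaurentSeries QBar) = qExpand QBar c (qExpand QBar d (jqModC QBar)) → act (u a) y = y)
    (d₀ : ℕ) [NeZero d₀] (hd₀ : d₀ ∣ R * ℓ)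
    (hmk₀ : qExpand QBar n (qExpand QBar d₀ (jqModC QBar)) ∈ E.field (inertiaField A))
    (hmove : ∀ (a b : ι) (y : E.field (inertiaField A)),
      (y : LaurentSeries QBar) = qExpand QBar n (qExpand QBar d₀ (jqModC QBar)) →
        act ((u a)⁻¹ * u b) y = y → a = b)
    (f : modularFunctionFieldBar (R * ℓ))
    (y : E.field (inertiaField A)) (hy : (y : LaurentSeries QBar) = qExpand QBar n f) :
    qExpand QBar c
        ((letI := algebraAlong ψ; Algebra.norm (modularFunctionFieldBar R) f :
          modularFunctionFieldBar R) : LaurentSeries QBar)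
      = ∏ a, ((act (u a) y : E.field (inertiaField A)) : LaurentSeries QBar) := by
  classical
  have hγ : ∀ a, ∃ γ : SL(2, ℤ),
      redMat (Q * n) γ = liftMat hcop (u a : Matrix (Fin 2) (Fin 2) (ZMod Q)) := fun a => by
    refine exists_redMat_eq ?_
    apply (crt hcop).injective
    rw [crt_det_liftMat, hdet, map_one]
    rfl
  choose γ hγ using hγ
  let h : ι → (modularFunctionFieldBar (R * ℓ) →+* LaurentSeries QBar) := fun a =>
    (E.substHom QBar (γ a)).toRingHom.comp (qEmbBar E n hmN)
  have hh : ∀ (a : ι) (x : modularFunctionFieldBar (R * ℓ)) (z : E.field (inertiaField A)),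
      (z : LaurentSeries QBar) = qExpand QBar n x →
        h a x = ((act (u a) z : E.field (inertiaField A)) : LaurentSeries QBar) := fun a x z hz =>
    (coe_apply_eq_substHom E (γ := γ a) (hγ a ▸ hact (u a)) (y' := qEmbBar E n hmN x) hz).symm
  let χ : modularFunctionFieldBar R →+* LaurentSeries QBar :=
    (qExpand QBar c).comp (modularFunctionFieldBar R).val.toRingHom
  have hχ : ∀ a x, h a (ψ x) = χ x := by
    intro a
    refine RingHom.congr_fun (f := (h a).comp ψ.toRingHom) ?_
    refine ModFun.ringHom_ext_level _ _ (fun b => ?_) fun x hx => ?_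
    · show h a (ψ (algebraMap QBar _ b)) = qExpand QBar c (algebraMap QBar (LaurentSeries QBar) b)
      rw [ψ.commutes]
      show E.substHom QBar (γ a) (qEmbBar E n hmN (algebraMap QBar _ b)) = _
      have e : qEmbBar E n hmN (algebraMap QBar _ b) = algebraMap QBar (E.field QBar) b :=
        Subtype.ext (by
          show qExpand QBar n (algebraMap QBar (LaurentSeries QBar) b) = algebraMap QBar _ b
          rw [algebraMap_laurentSeries_eq_single, qExpand_single, mul_zero])
      rw [e, AlgHom.commutes, algebraMap_laurentSeries_eq_single, qExpand_single, mul_zero]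
    · obtain ⟨d, hd, hdN, hx⟩ := hx
      have := hd
      show h a (ψ x) = qExpand QBar c (x : LaurentSeries QBar)
      rw [hh a (ψ x) ⟨_, hmem d hdN⟩ (by rw [hc, hx]), hfix a d hdN ⟨_, hmem d hdN⟩ rfl, hx]
  have hinj : Function.Injective h := by
    intro a b e
    let x₀ : modularFunctionFieldBar (R * ℓ) := Mazur.Eisenstein.jAt (R * ℓ) d₀ hd₀
    let y₀ : E.field (inertiaField A) := ⟨_, hmk₀⟩
    have e' : act (u a) y₀ = act (u b) y₀ :=
      Subtype.ext (((hh a x₀ y₀ rfl).symm.trans (DFunLike.congr_fun e x₀)).trans (hh b x₀ y₀ rfl))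
    refine hmove a b y₀ rfl ?_
    rw [map_mul, AlgEquiv.mul_apply, ← e', ← AlgEquiv.mul_apply, ← map_mul, inv_mul_cancel, map_one,
      AlgEquiv.one_apply]
  have hfin := FF.finiteAlong ψ
  have key := norm_along_eq_prod ψ hfin χ h hχ hinj hle f
  refine key.trans ?_
  exact Finset.prod_congr rfl fun a _ => hh a f y hy

end Unip

section UnipPrime

variable {q M n : ℕ} [NeZero q] [NeZero M] [NeZero n] [NeZero (q * n)] (E : Setup (q * n) QBar)
  {A : ValuationSubring QBar} {P : ZMod (q * n) × ZMod (q * n)}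

/-- The norm along a degeneracy map is the product over a unipotent group. -/
theorem prod_act_eq_norm (hP : GoodPt P) (hq : q.Prime) (hM : M ∣ n) (hcop : q.Coprime n)
    (act : GL (Fin 2) (ZMod q) →*
      (E.field (inertiaField A) ≃ₐ[inertiaField A] E.field (inertiaField A)))
    (hact : ∀ g, E.Moves (inertiaField A) (act g)
      (liftMat hcop (g : Matrix (Fin 2) (Fin 2) (ZMod q))))
    (u : ZMod q → GL (Fin 2) (ZMod q))
    (hdet : ∀ a, (u a : Matrix (Fin 2) (Fin 2) (ZMod q)).det = 1)
    (hadd : ∀ a b, u a * u b = u (a + b)) (hzero : u 0 = 1)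
    (ψ : modularFunctionFieldBar (q * M) →ₐ[QBar] modularFunctionFieldBar (q * M * q))
    (c : ℕ) [NeZero c]
    (hc : ∀ y, qExpand QBar n (ψ y : LaurentSeries QBar) = qExpand QBar c (y : LaurentSeries QBar))
    (hmem : ∀ (d : ℕ) [NeZero d], d ∣ q * M →
      qExpand QBar c (qExpand QBar d (jqModC QBar)) ∈ E.field (inertiaField A))
    (hle : finrankAlong QBar ψ ≤ q)
    (hfix : ∀ (a : ZMod q) (d : ℕ) [NeZero d], d ∣ q * M → ∀ y : E.field (inertiaField A),
      (y : LaurentSeries QBar) = qExpand QBar c (qExpand QBar d (jqModC QBar)) → act (u a) y = y)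
    (d₀ : ℕ) [NeZero d₀] (hd₀ : d₀ ∣ q * M * q)
    (hmove : ∀ (a : ZMod q) (y : E.field (inertiaField A)),
      (y : LaurentSeries QBar) = qExpand QBar n (qExpand QBar d₀ (jqModC QBar)) →
        act (u a) y = y → a = 0)
    (f : modularFunctionFieldBar (q * M * q))
    (y : E.field (inertiaField A)) (hy : (y : LaurentSeries QBar) = qExpand QBar n f) :
    qExpand QBar c
        ((letI := algebraAlong ψ; Algebra.norm (modularFunctionFieldBar (q * M)) f :
          modularFunctionFieldBar (q * M)) : LaurentSeries QBar)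
      = ∏ a, ((act (u a) y : E.field (inertiaField A)) : LaurentSeries QBar) :=
  prod_act_eq_norm_family E hcop act hact
    (fun d _ hd => E.qExpand_jd_mem QBar hP hcop hq hM hd) u hdet ψ c hc hmem
    (by rwa [ZMod.card]) hfix d₀ hd₀
    (E.qExpand_jd_mem (inertiaField A) hP hcop hq hM hd₀)
    (fun a b z hz h => by
      have hinv : (u a)⁻¹ = u (-a) := inv_eq_of_mul_eq_one_left (by rw [hadd, neg_add_cancel, hzero])
      rw [hinv, hadd] at h
      exact eq_of_neg_add_eq_zero (hmove _ z hz h))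
    f y hy

end UnipPrime

end Fermat.Agent.Carayol

end
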