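import Fermat.Agent.Carayol.Cst

/-!
# The local ring attached to a kernel point
-/

set_option autoImplicit false

namespace Fermat.Agent.Carayol

open WeierstrassCurve IsLocalRing

variable {Ω : Type*} [Field Ω] [DecidableEq Ω] {b c : Ω}

/-- A closed point together with a kernel point `qTors v0` and a complement `qTors w0`. -/
structure KerData (T : TorsFrame b c) (F : GoodFibre b c) (W0 : Subring Ω) (j : Ω) where
  ov : Over T F W0 j
  v0 : Fin 2 → ZMod T.Q
  hv0 : ∃ i, IsUnit (v0 i)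
  hinf : F.Inf (T.qTors v0)

namespace KerData

variable {T : TorsFrame b c} {F : GoodFibre b c} {W0 : Subring Ω} {j : Ω}
variable (D : KerData T F W0 j)

lemma hinf_low : F.Inf (T.qTors (T.low D.v0)) := by
  rw [TorsFrame.low, map_nsmul]
  refine D.hinf.nsmul T.Q_ne_zero (T.nsmul_qTors _) _ ?_
  rw [← map_nsmul]
  exact (map_ne_zero_iff _ T.qTors_injective).2 (T.low_ne_zero D.hv0)

/-- The finitely generated subring. -/
abbrev A : Subring Ω := T.genRing W0 D.v0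

lemma A_le : D.A ≤ F.O := D.ov.genRing_le D.hinf D.hinf_low

/-- Its localisation. -/
noncomputable abbrev B : Subring Ω := locRing D.A D.A_le

lemma B_le : D.B ≤ F.O := locRing_le _ _

lemma W0_le_B : W0 ≤ D.B := fun _ hw => le_locRing _ _ (Subring.subset_closure (Or.inl hw))

lemma gens_mem_B {x : Ω} (hx : x ∈ T.gens D.v0) : x ∈ D.B :=
  le_locRing _ _ (Subring.subset_closure (Or.inr hx))

lemma b_mem_B : b ∈ D.B := D.gens_mem_B (by simp [TorsFrame.gens])

lemma c_mem_B : c ∈ D.B := D.gens_mem_B (by simp [TorsFrame.gens])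

lemma coord_mem_B {x y : Ω} {h : (tateCurve b c).toAffine.Nonsingular x y}
    (hP : Affine.Point.some x y h ∈ T.mixed) : x ∈ D.B ∧ y ∈ D.B :=
  ⟨le_locRing _ _ (Over.mem_genRing_of_coord D.v0 hP (Or.inl rfl)),
    le_locRing _ _ (Over.mem_genRing_of_coord D.v0 hP (Or.inr rfl))⟩

lemma inMax_B {x : Ω} : InMax D.B x ↔ x ∈ D.B ∧ InMax F.O x := inMax_locRing _ _

lemma res_B (x : D.B) : ∃ w ∈ W0, InMax D.B ((x : Ω) - w) := by
  obtain ⟨w, hw, hm⟩ := D.ov.res _ (D.B_le x.2)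
  exact ⟨w, hw, D.inMax_B.2 ⟨sub_mem x.2 (D.W0_le_B hw), hm⟩⟩

lemma unit_B (w : Ω) (hw : w ∈ W0) (h : ¬ InMax D.B w) : w⁻¹ ∈ W0 :=
  D.ov.unit w hw fun hm => h (D.inMax_B.2 ⟨D.W0_le_B hw, hm⟩)

/-- The parameter of the kernel point. -/
def s : Ω := sPar (T.qTors D.v0)

lemma s_mem : D.s ∈ D.B := D.gens_mem_B (by simp [TorsFrame.gens, s])

/-- A vector whose point reduces to the origin with parameters in the ring. -/
def KerVec (v : Fin 2 → ZMod T.Q) : Prop :=
  ∃ xP yP, ∃ h : (tateCurve b c).toAffine.Nonsingular xP yP,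
    T.qTors v = .some xP yP h ∧ xP ≠ 0 ∧ yP ≠ 0 ∧ InMax D.B (xP / yP) ∧
      InMax D.B (1 / yP) ∧ sPar (T.qTors v) = xP / yP

lemma kerVec_of_mem {v : Fin 2 → ZMod T.Q} (hinf : F.Inf (T.qTors v))
    (hs : sPar (T.qTors v) ∈ D.B) (ht : tPar (T.qTors v) ∈ D.B) : D.KerVec v := by
  obtain ⟨xP, yP, h, e, h0, h0', hs', ht'⟩ := hinf
  rw [e, sPar_some] at hs
  rw [e, tPar_some] at ht
  exact ⟨xP, yP, h, e, h0, h0', D.inMax_B.2 ⟨hs, hs'⟩, D.inMax_B.2 ⟨ht, ht'⟩,
    by rw [e, sPar_some]⟩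

lemma kerPoint : D.KerVec D.v0 :=
  D.kerVec_of_mem D.hinf (D.gens_mem_B (by simp [TorsFrame.gens]))
    (D.gens_mem_B (by simp [TorsFrame.gens]))

lemma kerVec_low : D.KerVec (T.low D.v0) :=
  D.kerVec_of_mem D.hinf_low (D.gens_mem_B (by simp [TorsFrame.gens]))
    (D.gens_mem_B (by simp [TorsFrame.gens]))

lemma s_ne_zero : D.s ≠ 0 := by
  obtain ⟨xP, yP, -, -, h0, h0', -, -, e⟩ := D.kerPoint
  rw [s, e]; exact div_ne_zero h0 h0'

lemma inMax_s : InMax D.B D.s := by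
  obtain ⟨_, _, -, -, -, -, hs, -, e⟩ := D.kerPoint
  rw [s, e]; exact hs

lemma mixed_add {P : (tateCurve b c).toAffine.Point} (hP : P ∈ T.mixed) (v : Fin 2 → ZMod T.Q) :
    P + T.qTors v ∈ T.mixed := by
  obtain ⟨a, u, ha, h0, rfl⟩ := hP
  exact ⟨a, u + v, ha, h0, by rw [map_add, add_assoc]⟩

/-- Coordinates of a translate by a multiple of a kernel point. -/
lemma exists_translate_of {v : Fin 2 → ZMod T.Q} (hv : D.KerVec v) {xA yA : Ω} {hA : (tateCurve b c).toAffine.Nonsingular xA yA}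
    (hP : Affine.Point.some _ _ hA ∈ T.mixed) (k : ℕ) :
    ∃ x y, ∃ h : (tateCurve b c).toAffine.Nonsingular x y,
      Affine.Point.some _ _ hA + k • T.qTors v = .some x y h ∧
      ∃ β ∈ D.B, ∃ γ ∈ D.B, x = xA - k * sPar (T.qTors v) * (2 * yA + (1 - c) * xA + -b) + sPar (T.qTors v) ^ 2 * β ∧
        y = yA + sPar (T.qTors v) * γ := by
  induction k with
  | zero =>
    exact ⟨xA, yA, hA, by simp, 0, zero_mem _, 0, zero_mem _, by simp, by simp⟩
  | succ k ih =>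
    obtain ⟨x, y, h, e, β, hβ, γ, hγ, ex, ey⟩ := ih
    obtain ⟨xP, yP, hP', eP, h0, h0', hs, ht, es⟩ := hv
    have hm : Affine.Point.some x y h ∈ T.mixed := by
      rw [← e, ← map_nsmul]; exact mixed_add hP _
    obtain ⟨x', y', h', e', -, -, β', γ', hβ', hγ', ex', ey'⟩ :=
      add_infinite_coords D.B D.b_mem_B D.c_mem_B (hA := h) (D.coord_mem_B hm).1
        (D.coord_mem_B hm).2 (hP := hP') h0 h0' hs ht
    obtain ⟨hxA, hyA⟩ := D.coord_mem_B hP
    refine ⟨x', y', h', by rw [succ_nsmul, ← add_assoc, e, eP, e'],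
      β + β' - (2 * γ + (1 - c) * (-(k : Ω) * (2 * yA + (1 - c) * xA + -b) + sPar (T.qTors v) * β)), ?_,
      γ + γ', add_mem hγ hγ', ?_, ?_⟩
    · exact sub_mem (add_mem hβ hβ') (add_mem (mul_mem (ofNat_mem _ 2) hγ)
        (mul_mem (sub_mem (one_mem _) D.c_mem_B) (add_mem (mul_mem (neg_mem (natCast_mem _ k))
          (add_mem (add_mem (mul_mem (ofNat_mem _ 2) hyA)
            (mul_mem (sub_mem (one_mem _) D.c_mem_B) hxA)) (neg_mem D.b_mem_B)))
          (mul_mem (es ▸ hs.mem) hβ))))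
    · rw [ex', ← es, ex, ey]; push_cast; ring
    · rw [ey', ← es, ey]; ring

/-- Coordinates of a translate by a multiple of the generating kernel point. -/
lemma exists_translate {xA yA : Ω} {hA : (tateCurve b c).toAffine.Nonsingular xA yA}
    (hP : Affine.Point.some _ _ hA ∈ T.mixed) (k : ℕ) :
    ∃ x y, ∃ h : (tateCurve b c).toAffine.Nonsingular x y,
      Affine.Point.some _ _ hA + k • T.qTors D.v0 = .some x y h ∧
      ∃ β ∈ D.B, ∃ γ ∈ D.B, x = xA - k * D.s * (2 * yA + (1 - c) * xA + -b) + D.s ^ 2 * β ∧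
        y = yA + D.s * γ :=
  D.exists_translate_of D.kerPoint hP k

/-- The parameter of the point of order `q` is divisible by `s`, and `q` by it. -/
lemma exists_low_eq :
    (∃ β ∈ D.B, sPar (T.qTors (T.low D.v0)) = D.s * β) ∧
      ∃ β ∈ D.B, (T.q : Ω) = sPar (T.qTors (T.low D.v0)) * β := by
  set s1 := sPar (T.qTors (T.low D.v0))
  obtain ⟨xP, yP, -, -, h0, h0', hs1, -, es1⟩ := D.kerVec_low
  have hs10 : s1 ≠ 0 := es1.trans_ne (div_ne_zero h0 h0')
  have hs1M : InMax D.B s1 := (congrArg (InMax D.B) es1).mpr hs1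
  have hR : (1 : ℕ) • T.R ∈ T.mixed := by
    simpa using Over.nsmul_R_mem (T := T) (k := 1) (by simp) 0
  rw [one_nsmul] at hR
  have hn0 : (tateCurve b c).toAffine.Nonsingular 0 0 := tate_nonsingular_zero T.hb
  have eR : T.R = Affine.Point.some 0 0 hn0 := rfl
  rw [eR] at hR
  obtain ⟨x, y, h, e, β, hβ, -, -, ex, -⟩ :=
    D.exists_translate (hA := hn0) hR (T.q ^ (T.a - 1))
  rw [← map_nsmul, show T.q ^ (T.a - 1) • D.v0 = T.low D.v0 from rfl] at e
  obtain ⟨x', y', h', e', β', hβ', -, -, ex', -⟩ :=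
    D.exists_translate_of (hA := hn0) D.kerVec_low hR 1
  rw [one_nsmul, e] at e'
  have hxx := (Affine.Point.some.inj e').1
  obtain ⟨x'', y'', h'', e'', β'', hβ'', -, -, ex'', -⟩ :=
    D.exists_translate_of (hA := hn0) D.kerVec_low hR T.q
  have hlow : T.q • T.low D.v0 = 0 := by
    rw [TorsFrame.low, ← mul_nsmul', mul_comm, ← T.Q_eq_succ]
    funext i; simp
  rw [← map_nsmul, hlow, map_zero, add_zero] at e''
  have hx'' := (Affine.Point.some.inj e'').1
  rw [← hx''] at ex''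
  rw [hxx, ex'] at ex
  have hbB : ¬ InMax D.B b := fun h => D.ov.units.1 (D.inMax_B.1 h).2
  have hu : ¬ InMax D.B (b + s1 * β') := fun h => hbB (by simpa using h.sub (hs1M.mul_right hβ'))
  obtain ⟨hb0, hbi, -⟩ := inv_mem_of_not_inMax D.b_mem_B hbB
  obtain ⟨hu0, hui, -⟩ :=
    inv_mem_of_not_inMax (add_mem D.b_mem_B (mul_mem hs1M.mem hβ')) hu
  refine ⟨⟨((T.q ^ (T.a - 1) : ℕ) * b + D.s * β) * (b + s1 * β')⁻¹,
    mul_mem (add_mem (mul_mem (natCast_mem _ _) D.b_mem_B) (mul_mem D.s_mem hβ)) hui, ?_⟩,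
    -β'' * b⁻¹, mul_mem (neg_mem hβ'') hbi, ?_⟩
  · field_simp
    push_cast at ex ⊢
    linear_combination ex
  · have hq : (T.q : Ω) * b + s1 * β'' = 0 := by
      refine (mul_eq_zero.1 (?_ : s1 * ((T.q : Ω) * b + s1 * β'') = 0)).resolve_left hs10
      linear_combination -ex''
    field_simp
    linear_combination hq

/-- `q` is divisible by `s`. -/
lemma exists_q_eq : ∃ β ∈ D.B, (T.q : Ω) = D.s * β := by
  obtain ⟨⟨β, hβ, e⟩, β', hβ', e'⟩ := D.exists_low_eq
  exact ⟨β * β', mul_mem hβ hβ', by rw [e', e, mul_assoc]⟩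

end KerData

end Fermat.Agent.Carayol
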