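import Fermat.Agent.Carayol.Translate
import Fermat.Agent.EC.Torsion.Multiplication
import Mathlib.RingTheory.LocalRing.ResidueField.Basic
import Mathlib.RingTheory.IntegralClosure.IntegrallyClosed
import Mathlib.Algebra.Polynomial.Reverse
import Mathlib.AlgebraicGeometry.EllipticCurve.DivisionPolynomial.Degree
import Mathlib.FieldTheory.IsAlgClosed.Basic

/-!
# Torsion points over an integrally closed local ring

Over an integrally closed local domain with infinite residue field, a torsion point of an elliptic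
curve with good reduction is either integral or reduces to the origin.
-/

set_option autoImplicit false

namespace Fermat.Agent.Carayol

open WeierstrassCurve IsLocalRing Polynomial

variable {O : Type*} [CommRing O] [IsLocalRing O]
variable {Ω : Type*} [Field Ω]

/-- An integral affine point. -/
def IsFinitePt (W : WeierstrassCurve O) (f : O →+* Ω) (P : (W.map f).toAffine.Point) : Prop :=
  ∃ x y : O, ∃ h : (W.map f).toAffine.Nonsingular (f x) (f y), P = .some _ _ h

/-- A nonzero point in the kernel of reduction, in the coordinates `(s, t) = (x/y, 1/y)`. -/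
def IsInfinitePt (W : WeierstrassCurve O) (f : O →+* Ω) (P : (W.map f).toAffine.Point) : Prop :=
  ∃ s t : O, s ∈ maximalIdeal O ∧ t ∈ maximalIdeal O ∧ s ≠ 0 ∧ t ≠ 0 ∧
    t + W.a₁ * s * t + W.a₃ * t ^ 2
      = s ^ 3 + W.a₂ * s ^ 2 * t + W.a₄ * s * t ^ 2 + W.a₆ * t ^ 3 ∧
    ∃ h : (W.map f).toAffine.Nonsingular (f s / f t) (1 / f t), P = .some _ _ h

lemma isUnit_one_add {m : O} (hm : m ∈ maximalIdeal O) : IsUnit (1 + m) := by
  by_contra h
  exact (maximalIdeal.isMaximal O).ne_top ((Ideal.eq_top_iff_one _).2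
    (by simpa using sub_mem (show 1 + m ∈ maximalIdeal O from h) hm))

variable {W : WeierstrassCurve O} {f : O →+* Ω}

/-- `ΨSqₙ` does not vanish identically modulo the maximal ideal. -/
lemma map_ΨSq_ne_zero (W : WeierstrassCurve O) [W.IsElliptic] {N : ℕ} (hN : N ≠ 0) :
    (W.ΨSq N).map (residue O) ≠ 0 := by
  classical
  intro h0
  let K := AlgebraicClosure (ResidueField O)
  set g := (algebraMap (ResidueField O) K).comp (residue O)
  have hroot : ∀ x : K, ((W.map g).Φ N).eval x ≠ 0 := by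
    intro x
    obtain ⟨y, hy⟩ := EC.Torsion.exists_equation (W.map g) x
    refine ((EC.Torsion.eval_Φ_ne_zero_or_eval_ΨSq_ne_zero _ hy N)).resolve_right ?_
    rw [not_not, WeierstrassCurve.map_ΨSq, ← Polynomial.map_map, h0]
    simp
  obtain ⟨x, hx⟩ := IsAlgClosed.exists_root ((W.map g).Φ (N : ℤ))
    (by rw [degree_eq_natDegree (by
          intro h0; simpa [h0] using (W.map g).leadingCoeff_Φ (N : ℤ)),
        WeierstrassCurve.natDegree_Φ]
        simp [hN])
  exact hroot x hx

variable [IsDomain O] [Algebra O Ω] [IsFractionRing O Ω] [IsIntegrallyClosed O]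

lemma exists_of_root {p : O[X]} (hp : IsUnit p.leadingCoeff) {z : Ω}
    (hz : p.eval₂ (algebraMap O Ω) z = 0) : ∃ a : O, algebraMap O Ω a = z := by
  obtain ⟨u, hu⟩ := hp.exists_left_inv
  refine IsIntegrallyClosed.isIntegral_iff.1 ⟨C u * p, ?_, ?_⟩
  · rw [Monic, leadingCoeff, coeff_C_mul, natDegree_C_mul_of_mul_ne_zero
      (by rw [hu]; exact one_ne_zero), ← leadingCoeff, hu]
  · rw [eval₂_mul, hz, mul_zero]

variable [DecidableEq Ω]

private theorem dichotomy_aux [Infinite (ResidueField O)] [W.IsElliptic] {N : ℕ} (hN : N ≠ 0)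
    {f : O →+* Ω} (hf : f = algebraMap O Ω) {P : (W.map f).toAffine.Point} (hP : N • P = 0)
    (hP0 : P ≠ 0) : IsFinitePt W f P ∨ IsInfinitePt W f P := by
  classical
  have hinj : Function.Injective f := hf ▸ IsFractionRing.injective O Ω
  obtain ⟨X', Y', h, rfl⟩ : ∃ X' Y' h, P = .some X' Y' h := by
    rcases P with _ | ⟨X', Y', h⟩
    · exact (hP0 Affine.Point.zero_def.symm).elim
    · exact ⟨_, _, _, rfl⟩
  -- a shift `x₀` with `ΨSq N (x₀)` a unit
  obtain ⟨x0, hx0⟩ : ∃ x0 : O, IsUnit ((W.ΨSq N).eval x0) := by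
    have hne := map_ΨSq_ne_zero W hN
    obtain ⟨c, hc⟩ : ∃ c, ((W.ΨSq N).map (residue O)).eval c ≠ 0 := by
      by_contra! hall
      exact hne (eq_zero_of_infinite_isRoot _
        (Set.infinite_univ.mono fun c _ => hall c))
    obtain ⟨x0, rfl⟩ := residue_surjective c
    refine ⟨x0, ?_⟩
    rwa [eval_map, eval₂_at_apply, ne_eq, residue_eq_zero_iff, mem_maximalIdeal, mem_nonunits_iff,
      not_not] at hc
  have hzero : ((W.map f).ΨSq N).eval X' = 0 :=
    (EC.Torsion.nsmul_some_eq_zero_iff (W.map f).toAffine h N).1 hP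
  rw [WeierstrassCurve.map_ΨSq, eval_map] at hzero
  have hX0 : X' - f x0 ≠ 0 := by
    intro h0
    rw [sub_eq_zero.1 h0, eval₂_at_apply] at hzero
    exact (hx0.map f).ne_zero hzero
  -- `u = 1/(X' - x₀)` is integral
  obtain ⟨u, hu⟩ : ∃ u : O, f u = (X' - f x0)⁻¹ := by
    set g := (W.ΨSq N).comp (X + C x0) with hg
    have hg0 : g.coeff 0 = (W.ΨSq N).eval x0 := by
      rw [coeff_zero_eq_eval_zero, hg, eval_comp]; simp
    rw [hf]
    refine exists_of_root (p := g.reverse) ?_ ?_
    · rw [reverse_leadingCoeff, trailingCoeff, natTrailingDegree_eq_zero.2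
        (Or.inr (by rw [hg0]; exact hx0.ne_zero)), hg0]
      exact hx0
    · let _ : Invertible (X' - algebraMap O Ω x0) :=
        invertibleOfNonzero (by rw [← hf]; exact hX0)
      rw [← invOf_eq_inv, eval₂_reverse_eq_zero_iff, hg, eval₂_comp, eval₂_add, eval₂_X, eval₂_C,
        sub_add_cancel]
      rwa [hf] at hzero
  have hu0 : u ≠ 0 := by
    intro h0; rw [h0, map_zero] at hu; exact inv_ne_zero hX0 hu.symm
  have fu : f u ≠ 0 := (map_ne_zero_iff f hinj).2 hu0
  have hX : X' = f x0 + (f u)⁻¹ := by rw [hu, inv_inv]; ring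
  have heq := (Affine.equation_iff _ _).1 h.left
  simp only [WeierstrassCurve.map_a₁, WeierstrassCurve.map_a₂, WeierstrassCurve.map_a₃,
    WeierstrassCurve.map_a₄, WeierstrassCurve.map_a₆] at heq
  by_cases huu : IsUnit u
  · left
    obtain ⟨v, hv⟩ := huu.exists_left_inv
    have hX2 : X' = f (x0 + v) := by
      rw [hX, map_add, ← eq_inv_of_mul_eq_one_left (by rw [← map_mul, hv, map_one] : f v * f u = 1)]
    obtain ⟨x, rfl⟩ : ∃ x, X' = f x := ⟨_, hX2⟩
    obtain ⟨y, hy⟩ := exists_of_root (p := X ^ 2 + C (W.a₁ * x + W.a₃) * X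
        - C (x ^ 3 + W.a₂ * x ^ 2 + W.a₄ * x + W.a₆)) (z := Y')
      (by
        have hm : (Polynomial.X ^ 2 + C (W.a₁ * x + W.a₃) * Polynomial.X
            - C (x ^ 3 + W.a₂ * x ^ 2 + W.a₄ * x + W.a₆)).Monic := by
          monicity!
        rw [hm.leadingCoeff]; exact isUnit_one)
      (by
        rw [← hf]
        simp only [eval₂_sub, eval₂_add, eval₂_mul, eval₂_pow, eval₂_X, eval₂_C, map_add, map_mul,
          map_pow]
        linear_combination heq)
    rw [← hf] at hy
    subst hy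
    exact ⟨x, y, h, rfl⟩
  right
  have hum : u ∈ maximalIdeal O := huu
  obtain ⟨v, hv⟩ : ∃ v, v * (1 + x0 * u) = 1 :=
    (isUnit_one_add (Ideal.mul_mem_left _ x0 hum)).exists_left_inv
  set τ : O := u * v with hτ
  have hτm : τ ∈ maximalIdeal O := Ideal.mul_mem_right _ _ hum
  have fv : f v * (1 + f x0 * f u) = 1 := by
    rw [← map_one f, ← map_mul, ← map_add, ← map_mul, hv]
  have hτ0 : f τ ≠ 0 := by
    rw [hτ, map_mul]; exact mul_ne_zero fu (left_ne_zero_of_mul_eq_one fv)
  have hXt : X' = 1 / f τ := by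
    rw [eq_div_iff hτ0, hX, hτ, map_mul]; field_simp; linear_combination fv
  have hY0 : Y' ≠ 0 := by
    rintro rfl
    rw [hXt] at heq; field_simp at heq
    have : f (1 + W.a₂ * τ + W.a₄ * τ ^ 2 + W.a₆ * τ ^ 3) = 0 := by
      simp only [map_add, map_mul, map_pow, map_one]; linear_combination -heq
    rw [map_eq_zero_iff f hinj] at this
    refine (maximalIdeal.isMaximal O).ne_top ((Ideal.eq_top_iff_one _).2 ?_)
    rw [show (1 : O) = -(W.a₂ + W.a₄ * τ + W.a₆ * τ ^ 2) * τ by linear_combination this]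
    exact Ideal.mul_mem_left _ _ hτm
  obtain ⟨s, hs⟩ := exists_of_root (p := C (1 + W.a₂ * τ + W.a₄ * τ ^ 2 + W.a₆ * τ ^ 3) * X ^ 2
      + C (-(τ * (W.a₁ + W.a₃ * τ))) * X + C (-τ)) (z := X' / Y')
    (by
      have hun : IsUnit (1 + W.a₂ * τ + W.a₄ * τ ^ 2 + W.a₆ * τ ^ 3) := by
        convert isUnit_one_add (Ideal.mul_mem_left _ (W.a₂ + W.a₄ * τ + W.a₆ * τ ^ 2) hτm)
          using 1
        ring
      rw [leadingCoeff_quadratic hun.ne_zero]; exact hun)
    (by
      rw [← hf]
      simp only [eval₂_add, eval₂_mul, eval₂_pow, eval₂_X, eval₂_C, map_add, map_mul,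
        map_pow, map_one, map_neg, eval₂_neg, eval₂_one]
      rw [hXt]; field_simp
      rw [hXt] at heq; field_simp at heq
      linear_combination -heq)
  rw [← hf] at hs
  have hst : f (s * τ) = 1 / Y' := by
    rw [map_mul, hs, hXt]; field_simp
  have hs0 : s ≠ 0 := by
    rintro rfl; rw [zero_mul, map_zero] at hst; exact one_div_ne_zero hY0 hst.symm
  have hτ0' : τ ≠ 0 := fun h => hτ0 (by rw [h, map_zero])
  have hXs : f s / f (s * τ) = X' := by rw [hXt, map_mul]; field_simp [(map_ne_zero_iff f hinj).2 hs0]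
  have hYt : 1 / f (s * τ) = Y' := by rw [hst, one_div_one_div]
  refine ⟨s, s * τ, ?_, Ideal.mul_mem_left _ _ hτm, hs0, mul_ne_zero hs0 hτ0', ?_, ?_⟩
  · have key : s ^ 2 * (1 + W.a₂ * τ + W.a₄ * τ ^ 2 + W.a₆ * τ ^ 3)
        = τ * (1 + (W.a₁ + W.a₃ * τ) * s) := by
      apply hinj
      simp only [map_add, map_mul, map_pow, map_one, hs]
      rw [hXt]; field_simp
      rw [hXt] at heq; field_simp at heq
      linear_combination -heq
    refine (maximalIdeal.isMaximal O).isPrime.mem_of_pow_mem 2 ?_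
    rw [show s ^ 2 = τ * (1 + (W.a₁ + W.a₃ * τ) * s
        - s ^ 2 * (W.a₂ + W.a₄ * τ + W.a₆ * τ ^ 2)) by linear_combination key]
    exact Ideal.mul_mem_right _ _ hτm
  · apply hinj
    rw [← hXs, ← hYt] at heq
    have h1 : f (s * τ) ≠ 0 := (map_ne_zero_iff f hinj).2 (mul_ne_zero hs0 hτ0')
    field_simp at heq
    simp only [map_add, map_mul, map_pow] at heq ⊢
    linear_combination heq
  · exact ⟨by rw [hXs, hYt]; exact h, by simp only [hXs, hYt]⟩

/-- The dichotomy for torsion points. -/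
theorem isFinitePt_or_isInfinitePt [Infinite (ResidueField O)] [W.IsElliptic] {N : ℕ} (hN : N ≠ 0)
    {P : (W.map (algebraMap O Ω)).toAffine.Point} (hP : N • P = 0) (hP0 : P ≠ 0) :
    IsFinitePt W (algebraMap O Ω) P ∨ IsInfinitePt W (algebraMap O Ω) P :=
  dichotomy_aux hN rfl hP hP0

end Fermat.Agent.Carayol
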