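import Fermat.Agent.Carayol.Kernel
import Mathlib.RingTheory.IntegralClosure.IsIntegral.Basic
import Mathlib.Tactic.ComputeDegree

/-!
# Integrality and units for Tate normal forms of level 7 and 9

When the marked point has order 7 or 9 the coefficients are integral over `ℤ[j]`; `b`, `c`, `b - c`
are units and the discriminant only vanishes modulo primes dividing the level.
-/

set_option autoImplicit false

namespace Fermat.Agent.Carayol

open WeierstrassCurve Polynomial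

variable {Ω : Type*} [Field Ω] [DecidableEq Ω] {b c : Ω}

/-- The shape of the parametrisation for order 7. -/
lemma exists_param_seven (hb : b ≠ 0) (h7 : addOrderOf (tatePt (c := c) hb) = 7) :
    ∃ d : Ω, b = d ^ 3 - d ^ 2 ∧ c = d ^ 2 - d := by
  have hne : ∀ k, 0 < k → k < 7 → k • tatePt (c := c) hb ≠ 0 := fun k hk hk' =>
    nsmul_ne_zero_of_lt_addOrderOf hk.ne' (h7 ▸ hk')
  obtain ⟨h3, e3⟩ := three_nsmul_tatePt (c := c) hb
  have hc : c ≠ 0 := by
    intro hc
    rcases (Affine.Point.X_eq_iff (h₁ := h3) (h₂ := tate_nonsingular_zero hb)).1 hc with e | e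
    · have e' : (3 : ℕ) • tatePt (c := c) hb = tatePt hb := e3.trans e
      rw [show (3 : ℕ) = 2 + 1 from rfl, succ_nsmul, add_eq_right] at e'
      exact hne 2 (by omega) (by omega) e'
    · have e' : (3 : ℕ) • tatePt (c := c) hb = -tatePt hb := e3.trans e
      exact hne 4 (by omega) (by omega) (by rw [succ_nsmul, e', neg_add_cancel])
  obtain ⟨y4, h4, e4⟩ := four_nsmul_tatePt (c := c) hb hc
  have e : (4 : ℕ) • tatePt (c := c) hb = -((3 : ℕ) • tatePt (c := c) hb) := by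
    rw [eq_neg_iff_add_eq_zero, ← add_nsmul, show 4 + 3 = 7 from rfl]
    exact h7 ▸ addOrderOf_nsmul_eq_zero _
  rw [e4, e3, Affine.Point.neg_some] at e
  have hx := (Affine.Point.some.inj e).1
  refine ⟨b / c, ?_, ?_⟩
  · rw [show (b / c) ^ 3 - (b / c) ^ 2 = b / c * (b / c * (b / c - 1)) by ring, hx]
    field_simp
  · rw [show (b / c) ^ 2 - b / c = b / c * (b / c - 1) by ring, hx]

/-- The shape of the parametrisation for order 9. -/
lemma exists_param_nine (hb : b ≠ 0) (h9 : addOrderOf (tatePt (c := c) hb) = 9) :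
    ∃ d : Ω, b = (d ^ 3 - d ^ 2) * (d ^ 2 - d + 1) ∧ c = d ^ 3 - d ^ 2 := by
  have hne : ∀ k, 0 < k → k < 9 → k • tatePt (c := c) hb ≠ 0 := fun k hk hk' =>
    nsmul_ne_zero_of_lt_addOrderOf hk.ne' (h9 ▸ hk')
  obtain ⟨h3, e3⟩ := three_nsmul_tatePt (c := c) hb
  have hc : c ≠ 0 := by
    intro hc
    rcases (Affine.Point.X_eq_iff (h₁ := h3) (h₂ := tate_nonsingular_zero hb)).1 hc with e | e
    · have e' : (3 : ℕ) • tatePt (c := c) hb = tatePt hb := e3.trans e
      rw [show (3 : ℕ) = 2 + 1 from rfl, succ_nsmul, add_eq_right] at e'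
      exact hne 2 (by omega) (by omega) e'
    · have e' : (3 : ℕ) • tatePt (c := c) hb = -tatePt hb := e3.trans e
      exact hne 4 (by omega) (by omega) (by rw [succ_nsmul, e', neg_add_cancel])
  obtain ⟨y4, h4, e4⟩ := four_nsmul_tatePt (c := c) hb hc
  have hx4 : b / c * (b / c - 1) ≠ 0 := by
    intro h
    rcases (Affine.Point.X_eq_iff (h₁ := h4) (h₂ := tate_nonsingular_zero hb)).1 h with e | e
    · have e' : (4 : ℕ) • tatePt (c := c) hb = tatePt hb := e4.trans e
      rw [show (4 : ℕ) = 3 + 1 from rfl, succ_nsmul, add_eq_right] at e'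
      exact hne 3 (by omega) (by omega) e'
    · have e' : (4 : ℕ) • tatePt (c := c) hb = -tatePt hb := e4.trans e
      exact hne 5 (by omega) (by omega) (by rw [succ_nsmul, e', neg_add_cancel])
  have ht : b / c - 1 ≠ 0 := right_ne_zero_of_mul hx4
  have hrt : b / c ≠ 0 := left_ne_zero_of_mul hx4
  -- the line through `3 R` and the marked point determines `y₄`
  have hy4 : y4 = -((b / c - 1) * (b / c * (b / c - 1)))
      - (1 - c) * (b / c * (b / c - 1)) + b := by
    have e : (4 : ℕ) • tatePt (c := c) hb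
        = Affine.Point.some c (b - c) h3 + tatePt hb := by rw [succ_nsmul, e3]
    rw [e4, tatePt, Affine.Point.add_of_X_ne hc] at e
    have h2 := (Affine.Point.some.inj e).2
    have hsl : (tateCurve b c).toAffine.slope c 0 (b - c) 0 = b / c - 1 := by
      rw [Affine.slope_of_X_ne hc]; field_simp; ring
    rw [h2, hsl]
    simp [Affine.addY, Affine.negAddY, Affine.negY, Affine.addX, tateCurve]
    field_simp
    ring
  have e5 : (5 : ℕ) • tatePt (c := c) hb = Affine.Point.some _ _ h4 + tatePt hb := by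
    rw [succ_nsmul, e4]
  rw [tatePt, Affine.Point.add_of_X_ne hx4] at e5
  have e : (5 : ℕ) • tatePt (c := c) hb = -((4 : ℕ) • tatePt (c := c) hb) := by
    rw [eq_neg_iff_add_eq_zero, ← add_nsmul, show 5 + 4 = 9 from rfl]
    exact h9 ▸ addOrderOf_nsmul_eq_zero _
  rw [e4, Affine.Point.neg_some, tatePt] at e
  have hx := (Affine.Point.some.inj (e5.symm.trans e)).1
  rw [Affine.slope_of_X_ne hx4] at hx
  simp only [Affine.addX, tateCurve, sub_zero] at hx
  -- `r = b / c`, `s = c / (r - 1)`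
  obtain ⟨r, hr⟩ : ∃ r, r = b / c := ⟨_, rfl⟩
  rw [← hr] at hx ht hrt hy4 hx4
  have hbr : b = r * c := by rw [hr]; field_simp
  obtain ⟨s, hs⟩ : ∃ s, s = c / (r - 1) := ⟨_, rfl⟩
  have hcs : c = s * (r - 1) := by rw [hs]; field_simp
  have hL : y4 / (r * (r - 1)) = r * (s - 1) := by
    rw [hy4, hbr, hcs]; field_simp; ring
  rw [hL, hbr, hcs] at hx
  have key : r * (r - 1 - (s ^ 2 - s)) = 0 := by linear_combination -hx
  have hrs : r = s ^ 2 - s + 1 := by
    have := (mul_eq_zero.1 key).resolve_left hrt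
    linear_combination this
  refine ⟨s, ?_, ?_⟩
  · rw [hbr, hcs, hrs]; ring
  · rw [hcs, hrs]; ring

/-- A divisor of `g³` coprime to `g` up to a unit is a unit. -/
lemma isUnit_of_bezout {S : Type*} [CommRing S] {g f u v N : S} (hN : IsUnit N)
    (hf : f ∣ g ^ 3) (h : u * g + v * f = N) : IsUnit f := by
  by_contra hfu
  obtain ⟨M, hM, hfM⟩ := exists_max_ideal_of_mem_nonunits hfu
  have hgM : g ∈ M := hM.isPrime.mem_of_pow_mem 3 (M.mem_of_dvd hf hfM)
  have hNM : N ∈ M := h ▸ M.add_mem (M.mul_mem_left u hgM) (M.mul_mem_left v hfM)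
  exact hM.ne_top (M.eq_top_of_isUnit_mem hNM hN)

/-- What the study of the special fibre needs from the parametrisation. -/
theorem param_units (hb : b ≠ 0) (hL : addOrderOf (tatePt (c := c) hb) ∈ ({7, 9} : Finset ℕ))
    {j : Ω} (hj : (tateCurve b c).c₄ ^ 3 = j * (tateCurve b c).Δ) (S : Subring Ω) (hjS : j ∈ S)
    (hS : ∀ z, IsIntegral S z → z ∈ S)
    (hu : IsUnit ((addOrderOf (tatePt (c := c) hb) : ℕ) : S)) :
    ∃ (hbS : b ∈ S) (hcS : c ∈ S), IsUnit (⟨b, hbS⟩ : S) ∧ IsUnit (⟨c, hcS⟩ : S) ∧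
      IsUnit ((⟨b, hbS⟩ : S) - ⟨c, hcS⟩) ∧ IsUnit (tateCurve (⟨b, hbS⟩ : S) ⟨c, hcS⟩).Δ := by
  rcases Finset.mem_insert.1 hL with h | h
  · -- order 7
    obtain ⟨d, rfl, rfl⟩ := exists_param_seven hb h
    rw [h] at hu
    have hd : d ∈ S := by
      refine hS d ⟨(X ^ 8 - 12 * X ^ 7 + 42 * X ^ 6 - 56 * X ^ 5 + 35 * X ^ 4 - 14 * X ^ 2
        + 4 * X + 1) ^ 3 - C ⟨j, hjS⟩ * (X ^ 7 * (X - 1) ^ 7
          * (X ^ 3 - 8 * X ^ 2 + 5 * X + 1)), ?_, ?_⟩
      · refine ((?_ : Monic _).pow 3).sub_of_left ?_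
        · monicity!
        · refine lt_of_le_of_lt (b := ((17 : ℕ) : WithBot ℕ)) ?_ ?_
          · refine natDegree_le_iff_degree_le.1 ?_
            compute_degree
          · rw [degree_pow, show (X ^ 8 - 12 * X ^ 7 + 42 * X ^ 6 - 56 * X ^ 5 + 35 * X ^ 4
              - 14 * X ^ 2 + 4 * X + 1 : S[X]).degree = 8 by compute_degree!]
            decide
      · simp only [eval₂_sub, eval₂_mul, eval₂_pow, eval₂_add, eval₂_X, eval₂_C, eval₂_one,
          eval₂_ofNat]
        refine sub_eq_zero.2 ?_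
        simp only [tateCurve, WeierstrassCurve.c₄, WeierstrassCurve.Δ, WeierstrassCurve.b₂,
          WeierstrassCurve.b₄, WeierstrassCurve.b₆, WeierstrassCurve.b₈] at hj
        show _ = j * _
        linear_combination hj
    obtain ⟨d', rfl⟩ : ∃ d' : S, d = (d' : Ω) := ⟨⟨d, hd⟩, rfl⟩
    refine ⟨sub_mem (pow_mem d'.2 3) (pow_mem d'.2 2), sub_mem (pow_mem d'.2 2) d'.2, ?_⟩
    set g : S := d' ^ 8 - 12 * d' ^ 7 + 42 * d' ^ 6 - 56 * d' ^ 5 + 35 * d' ^ 4 - 14 * d' ^ 2
      + 4 * d' + 1 with hg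
    set f3 : S := d' ^ 3 - 8 * d' ^ 2 + 5 * d' + 1 with hf3
    have key : g ^ 3 = ⟨j, hjS⟩ * d' ^ 7 * (d' - 1) ^ 7 * f3 := by
      apply (show Function.Injective S.subtype from Subtype.val_injective)
      simp only [hg, hf3, map_sub, map_add, map_mul, map_pow, map_one, map_ofNat, S.coe_subtype]
      simp only [tateCurve, WeierstrassCurve.c₄, WeierstrassCurve.Δ, WeierstrassCurve.b₂,
        WeierstrassCurve.b₄, WeierstrassCurve.b₆, WeierstrassCurve.b₈] at hj
      linear_combination hj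
    have u0 : IsUnit d' := isUnit_of_bezout (g := g) (u := 1)
      (v := -(d' ^ 7 - 12 * d' ^ 6 + 42 * d' ^ 5 - 56 * d' ^ 4 + 35 * d' ^ 3 - 14 * d' + 4))
      isUnit_one (key ▸ dvd_mul_of_dvd_left (dvd_mul_of_dvd_left
        (dvd_mul_of_dvd_right (dvd_pow_self _ (by omega)) _) _) _) (by rw [hg]; ring)
    have u1 : IsUnit (d' - 1) := isUnit_of_bezout (g := g) (u := 1)
      (v := -(d' ^ 7 - 11 * d' ^ 6 + 31 * d' ^ 5 - 25 * d' ^ 4 + 10 * d' ^ 3 + 10 * d' ^ 2
        - 4 * d'))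
      isUnit_one (key ▸ dvd_mul_of_dvd_left (dvd_mul_of_dvd_right (dvd_pow_self _ (by omega)) _) _)
      (by rw [hg]; ring)
    have u3 : IsUnit f3 := isUnit_of_bezout (g := g)
      (u := 1710 + 3005 * d' - 444 * d' ^ 2)
      (v := -1661 - 1540 * d' + 6776 * d' ^ 2 - 693 * d' ^ 3 - 6853 * d' ^ 4 + 12530 * d' ^ 5
        - 4781 * d' ^ 6 + 444 * d' ^ 7)
      (hu.pow 2) (key ▸ dvd_mul_left _ _) (by rw [hg, hf3]; push_cast; ring)
    refine ⟨?_, ?_, ?_, ?_⟩
    · convert (u0.mul (u0.mul u1)) using 1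
      apply Subtype.ext; push_cast; ring
    · convert (u0.mul u1) using 1
      apply Subtype.ext; push_cast; ring
    · convert (u0.mul (u1.mul u1)) using 1
      apply Subtype.ext; push_cast; ring
    · convert (((u0.pow 7).mul (u1.pow 7)).mul u3) using 1
      apply (show Function.Injective S.subtype from Subtype.val_injective)
      rw [← WeierstrassCurve.map_Δ, tateCurve_map]
      simp only [hf3, map_sub, map_add, map_mul, map_pow, map_one, map_ofNat, S.coe_subtype]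
      simp only [tateCurve, WeierstrassCurve.Δ, WeierstrassCurve.b₂, WeierstrassCurve.b₄,
        WeierstrassCurve.b₆, WeierstrassCurve.b₈]
      ring
  · -- order 9
    rw [Finset.mem_singleton] at h
    obtain ⟨d, rfl, rfl⟩ := exists_param_nine hb h
    rw [h] at hu
    have hd : d ∈ S := by
      refine hS d ⟨(X ^ 12 - 12 * X ^ 11 + 54 * X ^ 10 - 128 * X ^ 9 + 189 * X ^ 8 - 180 * X ^ 7
        + 114 * X ^ 6 - 36 * X ^ 5 - 18 * X ^ 4 + 28 * X ^ 3 - 12 * X ^ 2 + 1) ^ 3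
          - C ⟨j, hjS⟩ * (X ^ 9 * (X - 1) ^ 9 * (X ^ 2 - X + 1) ^ 3
            * (X ^ 3 - 6 * X ^ 2 + 3 * X + 1)), ?_, ?_⟩
      · refine ((?_ : Monic _).pow 3).sub_of_left ?_
        · monicity!
        · refine lt_of_le_of_lt (b := ((27 : ℕ) : WithBot ℕ)) ?_ ?_
          · refine natDegree_le_iff_degree_le.1 ?_
            compute_degree
          · rw [degree_pow, show (X ^ 12 - 12 * X ^ 11 + 54 * X ^ 10 - 128 * X ^ 9 + 189 * X ^ 8
              - 180 * X ^ 7 + 114 * X ^ 6 - 36 * X ^ 5 - 18 * X ^ 4 + 28 * X ^ 3 - 12 * X ^ 2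
              + 1 : S[X]).degree = 12 by compute_degree!]
            decide
      · simp only [eval₂_sub, eval₂_mul, eval₂_pow, eval₂_add, eval₂_X, eval₂_C, eval₂_one,
          eval₂_ofNat]
        refine sub_eq_zero.2 ?_
        simp only [tateCurve, WeierstrassCurve.c₄, WeierstrassCurve.Δ, WeierstrassCurve.b₂,
          WeierstrassCurve.b₄, WeierstrassCurve.b₆, WeierstrassCurve.b₈] at hj
        show _ = j * _
        linear_combination hj
    obtain ⟨d', rfl⟩ : ∃ d' : S, d = (d' : Ω) := ⟨⟨d, hd⟩, rfl⟩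
    refine ⟨mul_mem (sub_mem (pow_mem d'.2 3) (pow_mem d'.2 2))
      (add_mem (sub_mem (pow_mem d'.2 2) d'.2) (one_mem _)),
      sub_mem (pow_mem d'.2 3) (pow_mem d'.2 2), ?_⟩
    set g : S := d' ^ 12 - 12 * d' ^ 11 + 54 * d' ^ 10 - 128 * d' ^ 9 + 189 * d' ^ 8
      - 180 * d' ^ 7 + 114 * d' ^ 6 - 36 * d' ^ 5 - 18 * d' ^ 4 + 28 * d' ^ 3 - 12 * d' ^ 2 + 1
      with hg
    set f2 : S := d' ^ 2 - d' + 1 with hf2
    set f3 : S := d' ^ 3 - 6 * d' ^ 2 + 3 * d' + 1 with hf3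
    have key : g ^ 3 = ⟨j, hjS⟩ * d' ^ 9 * (d' - 1) ^ 9 * f2 ^ 3 * f3 := by
      apply (show Function.Injective S.subtype from Subtype.val_injective)
      simp only [hg, hf2, hf3, map_sub, map_add, map_mul, map_pow, map_one, map_ofNat,
        S.coe_subtype]
      simp only [tateCurve, WeierstrassCurve.c₄, WeierstrassCurve.Δ, WeierstrassCurve.b₂,
        WeierstrassCurve.b₄, WeierstrassCurve.b₆, WeierstrassCurve.b₈] at hj
      linear_combination hj
    have u0 : IsUnit d' := isUnit_of_bezout (g := g) (u := 1)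
      (v := -(d' ^ 11 - 12 * d' ^ 10 + 54 * d' ^ 9 - 128 * d' ^ 8 + 189 * d' ^ 7 - 180 * d' ^ 6
          + 114 * d' ^ 5 - 36 * d' ^ 4 - 18 * d' ^ 3 + 28 * d' ^ 2 - 12 * d'))
      isUnit_one (key ▸ dvd_mul_of_dvd_left (dvd_mul_of_dvd_left (dvd_mul_of_dvd_left
        (dvd_mul_of_dvd_right (dvd_pow_self _ (by omega)) _) _) _) _) (by rw [hg]; ring)
    have u1 : IsUnit (d' - 1) := isUnit_of_bezout (g := g) (u := 1)
      (v := -(d' ^ 11 - 11 * d' ^ 10 + 43 * d' ^ 9 - 85 * d' ^ 8 + 104 * d' ^ 7 - 76 * d' ^ 6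
          + 38 * d' ^ 5 + 2 * d' ^ 4 - 16 * d' ^ 3 + 12 * d' ^ 2))
      isUnit_one (key ▸ dvd_mul_of_dvd_left (dvd_mul_of_dvd_left
        (dvd_mul_of_dvd_right (dvd_pow_self _ (by omega)) _) _) _) (by rw [hg]; ring)
    have u2 : IsUnit f2 := isUnit_of_bezout (g := g) (u := -d')
      (v := 9 + 10 * d' + d' ^ 2 - 21 * d' ^ 3 + 6 * d' ^ 4 + 9 * d' ^ 5 - 33 * d' ^ 6
        + 72 * d' ^ 7 - 75 * d' ^ 8 + 42 * d' ^ 9 - 11 * d' ^ 10 + d' ^ 11)
      hu (key ▸ dvd_mul_of_dvd_left (dvd_mul_of_dvd_right (dvd_pow_self _ (by omega)) _) _)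
      (by rw [hg, hf2]; push_cast; ring)
    have u3 : IsUnit f3 := isUnit_of_bezout (g := g) (u := 623 + 1925 * d' - 377 * d' ^ 2)
      (v := -614 - 83 * d' + 4418 * d' ^ 2 - 7482 * d' ^ 3 + 1827 * d' ^ 4 + 12843 * d' ^ 5
        - 28593 * d' ^ 6 + 40128 * d' ^ 7 - 33054 * d' ^ 8 + 16582 * d' ^ 9 - 4187 * d' ^ 10
        + 377 * d' ^ 11)
      hu (key ▸ dvd_mul_left _ _) (by rw [hg, hf3]; push_cast; ring)
    refine ⟨?_, ?_, ?_, ?_⟩
    · convert ((u0.mul (u0.mul u1)).mul u2) using 1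
      apply Subtype.ext; push_cast [hf2]; ring
    · convert (u0.mul (u0.mul u1)) using 1
      apply Subtype.ext; push_cast; ring
    · convert (u0.mul (u0.mul u1)).mul (u0.mul u1) using 1
      apply Subtype.ext; push_cast; ring
    · convert ((((u0.pow 9).mul (u1.pow 9)).mul (u2.pow 3)).mul u3) using 1
      apply (show Function.Injective S.subtype from Subtype.val_injective)
      rw [← WeierstrassCurve.map_Δ, tateCurve_map]
      simp only [hf2, hf3, map_sub, map_add, map_mul, map_pow, map_one, map_ofNat, S.coe_subtype]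
      simp only [tateCurve, WeierstrassCurve.Δ, WeierstrassCurve.b₂, WeierstrassCurve.b₄,
        WeierstrassCurve.b₆, WeierstrassCurve.b₈]
      ring

end Fermat.Agent.Carayol
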