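import Mathlib.AlgebraicGeometry.EllipticCurve.Affine.Point
import Mathlib.RingTheory.LocalRing.MaximalIdeal.Basic
import Mathlib.RingTheory.Ideal.Quotient.Operations
import Mathlib.Tactic

/-!
# Translation by a point in the kernel of reduction

For an integral point `A` and a point `P = (s/t, 1/t)` with `s, t` in the maximal ideal,
`x (A + P) = x(A) - s * (2 y + a₁ x + a₃)(A)` modulo `s²` and `y (A + P) = y(A)` modulo `s`.
-/

set_option autoImplicit false

namespace Fermat.Agent.Carayol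

open WeierstrassCurve IsLocalRing

variable {O : Type*} [CommRing O] [IsLocalRing O]

/-- The congruences for the coordinates of the translate. -/
def IsTranslate (W : WeierstrassCurve O) (xA yA s x3 y3 : O) : Prop :=
  x3 - (xA - s * (2 * yA + W.a₁ * xA + W.a₃)) ∈ Ideal.span {s ^ 2} ∧ y3 - yA ∈ Ideal.span {s}

variable {Ω : Type*} [Field Ω] [DecidableEq Ω] (W : WeierstrassCurve O) (f : O →+* Ω)

theorem add_infinite_point (hf : Function.Injective f) {xA yA s t : O}
    (hA : (W.map f).toAffine.Nonsingular (f xA) (f yA)) (hs : s ∈ maximalIdeal O)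
    (ht : t ∈ maximalIdeal O) (hs0 : s ≠ 0) [IsDomain O]
    (hP : (W.map f).toAffine.Nonsingular (f s / f t) (1 / f t))
    (heq : t + W.a₁ * s * t + W.a₃ * t ^ 2
      = s ^ 3 + W.a₂ * s ^ 2 * t + W.a₄ * s * t ^ 2 + W.a₆ * t ^ 3) :
    ∃ x3 y3 : O, ∃ h : (W.map f).toAffine.Nonsingular (f x3) (f y3),
      Affine.Point.some _ _ hA + Affine.Point.some _ _ hP = Affine.Point.some _ _ h ∧
        IsTranslate W xA yA s x3 y3 := by
  set u : O := 1 + W.a₁ * s + W.a₃ * t - W.a₂ * s ^ 2 - W.a₄ * s * t - W.a₆ * t ^ 2 with hu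
  have hut : u * t = s ^ 3 := by rw [hu]; linear_combination heq
  have hunit : ∀ z : O, z - 1 ∈ maximalIdeal O → IsUnit z := fun z hz => by
    by_contra h
    exact (maximalIdeal.isMaximal O).ne_top ((Ideal.eq_top_iff_one _).2
      (by simpa using sub_mem (show z ∈ maximalIdeal O from h) hz))
  have huu : IsUnit u := hunit u (by
    rw [show u - 1 = (W.a₁ - W.a₂ * s - W.a₄ * t) * s + (W.a₃ - W.a₆ * t) * t by rw [hu]; ring]
    exact add_mem (Ideal.mul_mem_left _ _ hs) (Ideal.mul_mem_left _ _ ht))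
  obtain ⟨e, he⟩ := huu.exists_left_inv
  have hte : t = e * s ^ 3 := by linear_combination e * hut - t * he
  have hνu : IsUnit (1 - xA * e * s ^ 2) := hunit _ (by
    rw [show 1 - xA * e * s ^ 2 - 1 = -(xA * e * s) * s by ring]
    exact Ideal.mul_mem_left _ _ hs)
  obtain ⟨ν, hν⟩ : ∃ ν, ν = 1 - xA * e * s ^ 2 := ⟨_, rfl⟩
  rw [← hν] at hνu
  obtain ⟨μ, hμ⟩ := hνu.exists_left_inv
  obtain ⟨n, hn⟩ : ∃ n, n = 1 - yA * t := ⟨_, rfl⟩
  obtain ⟨G, hG⟩ : ∃ G, G = W.a₃ * e - W.a₄ * e * s - W.a₆ * e ^ 2 * s ^ 3 := ⟨_, rfl⟩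
  obtain ⟨br, hbr⟩ : ∃ br, br = 2 * (xA * e) - (xA * e) ^ 2 * s ^ 2
      + s * (W.a₁ * (xA * e) * ν - ν ^ 2 * G - 2 * (yA * e)) + (yA * e) ^ 2 * s ^ 4
      - W.a₁ * (yA * e) * s ^ 2 * ν := ⟨_, rfl⟩
  obtain ⟨x3, hx3⟩ : ∃ x3, x3 = -xA + br * μ ^ 2 := ⟨_, rfl⟩
  have hmod : x3 - (xA - s * (2 * yA + W.a₁ * xA + W.a₃)) ∈ Ideal.span {s ^ 2} := by
    set π := Ideal.Quotient.mk (Ideal.span ({s ^ 2} : Set O)) with hπ
    have h2 : π s ^ 2 = 0 := by
      rw [← map_pow, hπ]; exact Ideal.Quotient.eq_zero_iff_mem.2 (Ideal.mem_span_singleton_self _)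
    have eν : π ν = 1 := by
      rw [hν]; simp only [map_sub, map_one, map_mul, map_pow, h2]; ring
    have eμ : π μ = 1 := by
      have := congrArg π hμ; rwa [map_mul, eν, mul_one, map_one] at this
    have eu : π u = 1 + π W.a₁ * π s := by
      rw [hu]
      simp only [map_sub, map_add, map_one, map_mul, map_pow, hte, h2]
      linear_combination (π W.a₃ * π e * π s - π W.a₄ * π e * π s ^ 2
        - π W.a₆ * π e ^ 2 * π s ^ 4) * h2
    have ee : π e = 1 - π W.a₁ * π s := by
      have := congrArg π he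
      rw [map_mul, eu, map_one] at this
      linear_combination (1 - π W.a₁ * π s) * this + π e * π W.a₁ ^ 2 * h2
    rw [← Ideal.Quotient.eq_zero_iff_mem, ← hπ, hx3, hbr, hG]
    simp only [map_sub, map_add, map_mul, map_pow, map_neg, map_ofNat, eμ, eν, ee]
    linear_combination (-(π xA) ^ 2 * (1 - π W.a₁ * π s) ^ 2
      + π W.a₁ ^ 2 * (-(π xA)) + π W.a₁ * π W.a₃
      + π W.a₄ * (1 - π W.a₁ * π s) + π W.a₆ * (1 - π W.a₁ * π s) ^ 2 * π s ^ 2
      + 2 * π W.a₁ * π yA
      + (π yA) ^ 2 * (1 - π W.a₁ * π s) ^ 2 * π s ^ 2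
      - π W.a₁ * π yA * (1 - π W.a₁ * π s)) * h2
  obtain ⟨β, hβ⟩ := Ideal.mem_span_singleton.1 hmod
  set ψ : O := 2 * yA + W.a₁ * xA + W.a₃ with hψ
  obtain ⟨y3, hy3⟩ : ∃ y3, y3 = -(n * μ * (-ψ + s * β) + yA) - W.a₁ * x3 - W.a₃ := ⟨_, rfl⟩
  have hymod : y3 - yA ∈ Ideal.span {s} := by
    set π := Ideal.Quotient.mk (Ideal.span ({s} : Set O)) with hπ
    have h1 : π s = 0 := Ideal.Quotient.eq_zero_iff_mem.2 (Ideal.mem_span_singleton_self _)
    have eμ : π μ = 1 := by
      have := congrArg π hμ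
      rwa [map_mul, hν, map_sub, map_mul, map_pow, h1, zero_pow two_ne_zero, mul_zero, sub_zero,
        map_one, mul_one] at this
    have ex : π x3 = π xA := by
      have := congrArg π hβ
      simp only [map_sub, map_mul, map_pow, h1] at this
      linear_combination this
    rw [← Ideal.Quotient.eq_zero_iff_mem, ← hπ, hy3, hψ, hn, hte]
    simp only [map_sub, map_add, map_neg, map_mul, map_pow, map_one, map_ofNat, eμ, ex, h1]
    ring
  have ht0 : t ≠ 0 := by
    rintro rfl; rw [mul_zero] at hut; exact pow_ne_zero 3 hs0 hut.symm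
  have fs : f s ≠ 0 := (map_ne_zero_iff f hf).2 hs0
  have ft : f t ≠ 0 := (map_ne_zero_iff f hf).2 ht0
  have hν0 : f ν ≠ 0 := by
    intro h
    have := congrArg f hμ
    rw [map_mul, h, mul_zero, map_one] at this
    exact zero_ne_one this
  have hd : f s - f xA * f t = f s * f ν := by
    rw [hν, hte]; simp only [map_sub, map_mul, map_pow, map_one]; ring
  have hne : f xA ≠ f s / f t := by
    intro h
    rw [eq_div_iff ft] at h
    exact mul_ne_zero fs hν0 (by rw [← hd]; linear_combination -h)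
  have hl : (W.map f).toAffine.slope (f xA) (f s / f t) (f yA) (1 / f t)
      = f n / (f s * f ν) := by
    rw [Affine.slope_of_X_ne hne, ← hd, hn, map_sub, map_mul, map_one, div_eq_div_iff
      (sub_ne_zero.2 hne) (by rw [hd]; exact mul_ne_zero fs hν0)]
    field_simp
    ring
  have hμ' : f μ = 1 / f ν := by
    rw [eq_div_iff hν0, ← map_mul, hμ, map_one]
  have hX : (W.map f).toAffine.addX (f xA) (f s / f t)
      ((W.map f).toAffine.slope (f xA) (f s / f t) (f yA) (1 / f t)) = f x3 := by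
    have hst : f s / f t = f u / f s ^ 2 := by
      rw [div_eq_div_iff ft (pow_ne_zero 2 fs)]
      have := congrArg f hut
      rw [map_mul, map_pow] at this
      linear_combination -this
    rw [hl, Affine.addX, hst, hx3, hbr, hn, hu, hG, hte]
    simp only [map_sub, map_add, map_neg, map_mul, map_pow, map_one, map_ofNat, hμ',
      WeierstrassCurve.map_a₁, WeierstrassCurve.map_a₂]
    field_simp
    rw [hν]
    simp only [map_sub, map_mul, map_pow, map_one]
    ring
  have hY : (W.map f).toAffine.addY (f xA) (f s / f t) (f yA)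
      ((W.map f).toAffine.slope (f xA) (f s / f t) (f yA) (1 / f t)) = f y3 := by
    rw [Affine.addY, Affine.negAddY, hX, Affine.negY, hy3, hl]
    have e1 : f x3 - f xA = f s * (-f ψ + f s * f β) := by
      have := congrArg f hβ
      simp only [map_sub, map_mul, map_pow] at this
      linear_combination this
    have e2 : f n / (f s * f ν) * (f x3 - f xA) = f n * f μ * (-f ψ + f s * f β) := by
      rw [e1, hμ']; field_simp
    simp only [map_sub, map_add, map_neg, map_mul, WeierstrassCurve.map_a₁,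
      WeierstrassCurve.map_a₃]
    rw [e2]
  refine ⟨x3, y3, ?_, ?_, hmod, hymod⟩
  · rw [← hX, ← hY]
    exact Affine.nonsingular_add hA hP fun h => hne h.1
  · rw [Affine.Point.add_of_X_ne hne]
    simp only [hX, hY]

end Fermat.Agent.Carayol
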