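import Fermat.Agent.Carayol.LocalPoints
import Fermat.Agent.Carayol.Translate
import Fermat.Agent.Carayol.Tate
import Fermat.Agent.EC.Reduction.Formal
import Mathlib.RingTheory.Valuation.LocalSubring

/-!
# Torsion points of a Tate normal form relative to a local subring

For an integrally closed local subring `O` of a field with good reduction of `tateCurve b c`,
torsion points are finite or infinite, and the latter form the kernel of the reduction map.
-/

set_option autoImplicit false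

namespace Fermat.Agent.Carayol

open WeierstrassCurve IsLocalRing

variable {Ω : Type*} [Field Ω]

/-- `a` lies in the maximal ideal of `O`. -/
def InMax (O : Subring Ω) [IsLocalRing O] (a : Ω) : Prop :=
  ∃ h : a ∈ O, (⟨a, h⟩ : O) ∈ maximalIdeal O

lemma InMax.mem {O : Subring Ω} [IsLocalRing O] {a : Ω} (h : InMax O a) : a ∈ O := h.1

lemma inMax_coe {O : Subring Ω} [IsLocalRing O] {a : O} :
    InMax O (a : Ω) ↔ a ∈ maximalIdeal O :=
  ⟨fun ⟨_, h⟩ => h, fun h => ⟨a.2, h⟩⟩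

/-- A local subring over which `tateCurve b c` has good reduction. -/
structure GoodFibre (b c : Ω) where
  /-- The local subring. -/
  O : Subring Ω
  isLocal : IsLocalRing O
  isFrac : IsFractionRing O Ω
  isNormal : IsIntegrallyClosed O
  infinite : Infinite (ResidueField O)
  b_mem : b ∈ O
  c_mem : c ∈ O
  isUnit_Δ : IsUnit (tateCurve (⟨b, b_mem⟩ : O) ⟨c, c_mem⟩).Δ

attribute [instance] GoodFibre.isLocal GoodFibre.isFrac GoodFibre.isNormal GoodFibre.infinite

variable {b c : Ω}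

section

variable [DecidableEq Ω]

/-- Translation of a finite point by an infinite one. -/
lemma add_infinite_coords (O : Subring Ω) [IsLocalRing O] (hb : b ∈ O) (hc : c ∈ O) {xA yA : Ω} {hA : (tateCurve b c).toAffine.Nonsingular xA yA} (hx : xA ∈ O)
    (hy : yA ∈ O) {xP yP : Ω} {hP : (tateCurve b c).toAffine.Nonsingular xP yP}
    (h0 : xP ≠ 0) (h0' : yP ≠ 0) (hs : InMax O (xP / yP)) (ht : InMax O (1 / yP)) :
    ∃ x y, ∃ h : (tateCurve b c).toAffine.Nonsingular x y,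
      Affine.Point.some _ _ hA + Affine.Point.some _ _ hP = .some x y h ∧ x ∈ O ∧ y ∈ O ∧
      ∃ β γ, β ∈ O ∧ γ ∈ O ∧
        x = xA - xP / yP * (2 * yA + (1 - c) * xA + -b) + (xP / yP) ^ 2 * β ∧
        y = yA + xP / yP * γ := by
  obtain ⟨hsO, hsM⟩ := hs
  obtain ⟨htO, htM⟩ := ht
  have eq := (Affine.equation_iff _ _).1 hP.left
  simp only [tateCurve] at eq
  suffices key : ∀ (E : WeierstrassCurve Ω)
      (_ : (tateCurve (⟨b, hb⟩ : O) ⟨c, hc⟩).map (algebraMap O Ω) = E)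
      (hA : E.toAffine.Nonsingular xA yA) (hP : E.toAffine.Nonsingular xP yP),
      ∃ x y, ∃ h : E.toAffine.Nonsingular x y,
        Affine.Point.some _ _ hA + Affine.Point.some _ _ hP = .some x y h ∧ x ∈ O ∧ y ∈ O ∧
        ∃ β γ, β ∈ O ∧ γ ∈ O ∧
          x = xA - xP / yP * (2 * yA + (1 - c) * xA + -b) + (xP / yP) ^ 2 * β ∧
          y = yA + xP / yP * γ from
    key _ (tateCurve_map (algebraMap O Ω) ⟨b, hb⟩ ⟨c, hc⟩) hA hP
  rintro E rfl hA hP
  let s : O := ⟨_, hsO⟩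
  let t : O := ⟨_, htO⟩
  have e1 : xP = (algebraMap O Ω) s / (algebraMap O Ω) t := by
    show xP = xP / yP / (1 / yP); field_simp
  have e2 : yP = 1 / (algebraMap O Ω) t := by
    show yP = 1 / (1 / yP); rw [one_div_one_div]
  have hs0 : s ≠ 0 := fun h => div_ne_zero h0 h0' (congrArg Subtype.val h)
  have heq : t + (tateCurve (⟨b, hb⟩ : O) ⟨c, hc⟩).a₁ * s * t
        + (tateCurve (⟨b, hb⟩ : O) ⟨c, hc⟩).a₃ * t ^ 2
      = s ^ 3 + (tateCurve (⟨b, hb⟩ : O) ⟨c, hc⟩).a₂ * s ^ 2 * t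
        + (tateCurve (⟨b, hb⟩ : O) ⟨c, hc⟩).a₄ * s * t ^ 2
        + (tateCurve (⟨b, hb⟩ : O) ⟨c, hc⟩).a₆ * t ^ 3 := by
    apply Subtype.ext
    simp only [tateCurve, s, t]
    push_cast
    field_simp
    linear_combination eq
  have aux : ∀ {E : WeierstrassCurve Ω} {X Y X' Y' : Ω} (hX : E.toAffine.Nonsingular X Y),
      X = X' → Y = Y' →
        ∃ h, (Affine.Point.some _ _ hX : E.toAffine.Point) = Affine.Point.some X' Y' h := by
    rintro E X Y _ _ hX rfl rfl; exact ⟨hX, rfl⟩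
  obtain ⟨hP', eP⟩ := aux hP e1 e2
  obtain ⟨x3, y3, h, e, hm, hm'⟩ :=
    add_infinite_point (tateCurve (⟨b, hb⟩ : O) ⟨c, hc⟩) (algebraMap O Ω) Subtype.val_injective
      (xA := ⟨xA, hx⟩) (yA := ⟨yA, hy⟩) hA hsM htM hs0 hP' heq
  refine ⟨_, _, h, by rw [eP]; exact e, x3.2, y3.2, ?_⟩
  obtain ⟨β, hβ⟩ := Ideal.mem_span_singleton.1 hm
  obtain ⟨γ, hγ⟩ := Ideal.mem_span_singleton.1 hm'
  refine ⟨β, γ, β.2, γ.2, ?_, ?_⟩
  · have := congrArg Subtype.val hβ
    simp only [tateCurve] at this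
    push_cast at this
    rw [show (((2 : O)) : Ω) = 2 from map_ofNat O.subtype 2] at this
    show (x3 : Ω) = _
    linear_combination this
  · have := congrArg Subtype.val hγ
    push_cast at this
    show (y3 : Ω) = _
    linear_combination this

end

namespace GoodFibre

variable (F : GoodFibre b c)

/-- The integral curve. -/
def W : WeierstrassCurve F.O := tateCurve ⟨b, F.b_mem⟩ ⟨c, F.c_mem⟩

instance : F.W.IsElliptic := ⟨F.isUnit_Δ⟩

lemma map_W : F.W.map (algebraMap F.O Ω) = tateCurve b c := tateCurve_map _ _ _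

lemma isElliptic (F : GoodFibre b c) : (tateCurve b c).IsElliptic := by
  rw [← F.map_W]; infer_instance

/-- A finite point. -/
def Fin (P : (tateCurve b c).toAffine.Point) : Prop :=
  ∃ x y, ∃ h : (tateCurve b c).toAffine.Nonsingular x y, P = .some x y h ∧ x ∈ F.O ∧ y ∈ F.O

/-- An infinite point. -/
def Inf (P : (tateCurve b c).toAffine.Point) : Prop :=
  ∃ x y, ∃ h : (tateCurve b c).toAffine.Nonsingular x y,
    P = .some x y h ∧ x ≠ 0 ∧ y ≠ 0 ∧ InMax F.O (x / y) ∧ InMax F.O (1 / y)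

lemma Inf.ne_zero {F : GoodFibre b c} {P : (tateCurve b c).toAffine.Point} (h : F.Inf P) :
    P ≠ 0 := by
  obtain ⟨x, y, h', rfl, -⟩ := h
  exact Affine.Point.some_ne_zero h'

variable [DecidableEq Ω]

lemma fin_or_inf {N : ℕ} (hN : N ≠ 0) {P : (tateCurve b c).toAffine.Point} (hP : N • P = 0)
    (hP0 : P ≠ 0) : F.Fin P ∨ F.Inf P := by
  suffices key : ∀ (E : WeierstrassCurve Ω) (_ : F.W.map (algebraMap F.O Ω) = E)
      (P : E.toAffine.Point), N • P = 0 → P ≠ 0 →
      (∃ x y, ∃ h : E.toAffine.Nonsingular x y, P = .some x y h ∧ x ∈ F.O ∧ y ∈ F.O) ∨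
      (∃ x y, ∃ h : E.toAffine.Nonsingular x y,
        P = .some x y h ∧ x ≠ 0 ∧ y ≠ 0 ∧ InMax F.O (x / y) ∧ InMax F.O (1 / y)) from
    key _ F.map_W P hP hP0
  rintro E rfl P hP hP0
  rcases isFinitePt_or_isInfinitePt hN hP hP0 with ⟨x, y, h, e⟩ | ⟨s, t, hs, ht, hs0, ht0, -, h, e⟩
  · exact Or.inl ⟨_, _, h, e, x.2, y.2⟩
  · have fs : (algebraMap F.O Ω s) ≠ 0 := fun h => hs0 (Subtype.ext h)
    have ft : (algebraMap F.O Ω t) ≠ 0 := fun h => ht0 (Subtype.ext h)
    refine Or.inr ⟨_, _, h, e, div_ne_zero fs ft, one_div_ne_zero ft, ?_, ?_⟩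
    · rw [show algebraMap F.O Ω s / algebraMap F.O Ω t / (1 / algebraMap F.O Ω t)
        = ((s : F.O) : Ω) from by field_simp; rfl]
      exact inMax_coe.2 hs
    · rw [one_div_one_div]; exact inMax_coe.2 ht

omit [DecidableEq Ω] in
/-- A valuation ring dominating the local subring. -/
lemma exists_valuationSubring : ∃ V : ValuationSubring Ω,
    (∀ a ∈ F.O, a ∈ V) ∧ ∀ a, InMax F.O a → a ∈ V.nonunits := by
  obtain ⟨V, hle, hloc⟩ := LocalSubring.exists_le_valuationSubring (LocalSubring.mk F.O)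
  refine ⟨V, fun a ha => hle ha, ?_⟩
  rintro a ⟨ha, hm⟩
  exact (ValuationSubring.coe_mem_nonunits_iff (a := (⟨a, hle ha⟩ : V))).2
    (hloc.map_nonunit (⟨a, ha⟩ : F.O) |> fun h => fun hu => hm (h hu))

omit [DecidableEq Ω] in
/-- The reduction data at a dominating valuation ring. -/
lemma exists_reducesTo {V : ValuationSubring Ω} (hV : ∀ a ∈ F.O, a ∈ V) :
    ∃ V' : WeierstrassCurve (ResidueField V),
      EC.Reduction.ReducesTo V (tateCurve b c).toAffine V'.toAffine ∧ V'.Δ ≠ 0 := by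
  let i : F.O →+* V := (F.O.subtype).codRestrict V.toSubring fun a => hV _ a.2
  refine ⟨(F.W.map i).map (residue V), ⟨F.W.map i, ?_, rfl⟩, ?_⟩
  · show (F.W.map i).map V.subtype = tateCurve b c
    rw [WeierstrassCurve.map_map]
    exact F.map_W
  · rw [WeierstrassCurve.map_Δ, WeierstrassCurve.map_Δ]
    exact ((F.isUnit_Δ.map i).map (residue V)).ne_zero

lemma Inf.inE1 {F : GoodFibre b c} {P : (tateCurve b c).toAffine.Point} (hP : F.Inf P)
    {V : ValuationSubring Ω} (hV : ∀ a ∈ F.O, a ∈ V)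
    (hV' : ∀ a, InMax F.O a → a ∈ V.nonunits) : EC.Reduction.InE1 V P := by
  obtain ⟨x, y, h, rfl, -, hy0, -, ht⟩ := hP
  obtain ⟨V', hr, -⟩ := F.exists_reducesTo hV
  intro hx
  have hy := hr.y_mem h.left hx
  have := hV' _ ht
  rw [one_div, ValuationSubring.inv_mem_nonunits_iff] at this
  rcases this with h | h
  · exact hy0 h
  · exact h hy

lemma Fin.not_inE1 {F : GoodFibre b c} {P : (tateCurve b c).toAffine.Point} (hP : F.Fin P)
    {V : ValuationSubring Ω} (hV : ∀ a ∈ F.O, a ∈ V) : ¬ EC.Reduction.InE1 V P := by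
  obtain ⟨x, y, h, rfl, hx, -⟩ := hP
  exact not_not_intro (hV x hx)

lemma not_fin_inf {P : (tateCurve b c).toAffine.Point} (h : F.Fin P) : ¬ F.Inf P := fun h' => by
  obtain ⟨V, hV, hV'⟩ := F.exists_valuationSubring
  exact h.not_inE1 hV (h'.inE1 hV hV')

lemma Inf.neg {F : GoodFibre b c} {P : (tateCurve b c).toAffine.Point} {N : ℕ} (hN : N ≠ 0)
    (hP : F.Inf P) (hP' : N • P = 0) : F.Inf (-P) := by
  refine (F.fin_or_inf hN (by rw [neg_nsmul, hP', neg_zero])
    (neg_ne_zero.2 hP.ne_zero)).resolve_left fun h => ?_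
  obtain ⟨V, hV, hV'⟩ := F.exists_valuationSubring
  exact h.not_inE1 hV (EC.Reduction.ReducesTo.neg_inE1 (hP.inE1 hV hV'))

lemma Inf.add {F : GoodFibre b c} {P Q : (tateCurve b c).toAffine.Point} {N : ℕ} (hN : N ≠ 0)
    (hP : F.Inf P) (hQ : F.Inf Q) (hP' : N • P = 0) (hQ' : N • Q = 0) (h0 : P + Q ≠ 0) :
    F.Inf (P + Q) := by
  refine (F.fin_or_inf hN (by rw [nsmul_add, hP', hQ', add_zero]) h0).resolve_left fun h => ?_
  obtain ⟨V, hV, hV'⟩ := F.exists_valuationSubring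
  obtain ⟨V', hr, -⟩ := F.exists_reducesTo hV
  classical
  exact h.not_inE1 hV (hr.inE1_add (hP.inE1 hV hV') (hQ.inE1 hV hV'))

/-- Torsion of order a unit is finite. -/
lemma fin_of_unit {P : (tateCurve b c).toAffine.Point} {n : ℕ} (hn : IsUnit (n : F.O))
    (hP' : n • P = 0) (hP0 : P ≠ 0) : F.Fin P := by
  have hn0 : n ≠ 0 := by rintro rfl; simp at hn
  refine (F.fin_or_inf hn0 hP' hP0).resolve_right fun h => hP0 ?_
  obtain ⟨V, hV, hV'⟩ := F.exists_valuationSubring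
  obtain ⟨V', hr, -⟩ := F.exists_reducesTo hV
  classical
  refine hr.eq_zero_of_nsmul_eq_zero ?_ (h.inE1 hV hV') hP'
  obtain ⟨u, hu⟩ := hn
  have := ((u.map ((F.O.subtype).codRestrict V.toSubring fun a => hV _ a.2).toMonoidHom).isUnit)
  have hval := (V.valuation_eq_one_iff _).1 this
  rw [← hval]
  congr 1
  show (n : Ω) = ((u : F.O) : Ω)
  rw [hu]; simp

/-- If two finite torsion points have congruent abscissae, their sum or difference is not
finite. -/
lemma not_fin_of_congr {P Q : (tateCurve b c).toAffine.Point} {xP yP xQ yQ : Ω}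
    {hP : (tateCurve b c).toAffine.Nonsingular xP yP}
    {hQ : (tateCurve b c).toAffine.Nonsingular xQ yQ} (eP : P = .some _ _ hP)
    (eQ : Q = .some _ _ hQ) (hxP : xP ∈ F.O) (hxQ : xQ ∈ F.O) (hm : InMax F.O (xP - xQ)) :
    ¬ F.Fin (P - Q) ∨ ¬ F.Fin (P + Q) := by
  obtain ⟨V, hV, hV'⟩ := F.exists_valuationSubring
  obtain ⟨V', hr, hΔ⟩ := F.exists_reducesTo hV
  classical
  by_contra! hcon
  have hx : EC.Reduction.res V xP = EC.Reduction.res V xQ := by
    rw [← sub_eq_zero, ← EC.Reduction.res_sub (hV _ hxP) (hV _ hxQ)]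
    exact EC.Reduction.res_eq_zero (hV' _ hm)
  have nP := (hr.inE0_of_Δ_ne_zero hΔ (Affine.Point.some _ _ hP)).resolve_left
    (not_not_intro (hV _ hxP))
  have nQ := (hr.inE0_of_Δ_ne_zero hΔ (Affine.Point.some _ _ hQ)).resolve_left
    (not_not_intro (hV _ hxQ))
  have iP := hr.inE0_of_Δ_ne_zero hΔ P
  have iQ := hr.inE0_of_Δ_ne_zero hΔ Q
  rcases (Affine.Point.X_eq_iff (h₁ := nP) (h₂ := nQ)).1 hx with e | e
  · refine hcon.1.not_inE1 hV (hr.sub_mem_E1 iP iQ ?_)
    rw [eP, eQ, EC.Reduction.redFun_some hP (hV _ hxP) nP,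
      EC.Reduction.redFun_some hQ (hV _ hxQ) nQ, e]
  · refine hcon.2.not_inE1 hV ?_
    have h2 := hr.sub_mem_E1 iP (hr.inE0_of_Δ_ne_zero hΔ (-Q)) ?_
    · rwa [sub_neg_eq_add] at h2
    rw [(hr.neg_spec iQ).2, eP, eQ, EC.Reduction.redFun_some hP (hV _ hxP) nP,
      EC.Reduction.redFun_some hQ (hV _ hxQ) nQ, e]

/-- If twice a finite point is finite, the point is not congruent to its opposite. -/
lemma not_inMax_psi {P : (tateCurve b c).toAffine.Point} {x y : Ω}
    {hP : (tateCurve b c).toAffine.Nonsingular x y} (eP : P = .some _ _ hP) (hx : x ∈ F.O)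
    (h2 : F.Fin (P + P)) : ¬ InMax F.O (2 * y + (1 - c) * x + -b) := by
  intro hm
  obtain ⟨V, hV, hV'⟩ := F.exists_valuationSubring
  obtain ⟨V', hr, hΔ⟩ := F.exists_reducesTo hV
  classical
  refine h2.not_inE1 hV ?_
  have hy := hr.y_mem hP.left (hV _ hx)
  have iP := hr.inE0_of_Δ_ne_zero hΔ P
  have nP := (hr.inE0_of_Δ_ne_zero hΔ (Affine.Point.some _ _ hP)).resolve_left
    (not_not_intro (hV _ hx))
  obtain ⟨hneg, hres⟩ := hr.res_negY (hV _ hx) hy
  have h0 : EC.Reduction.res V y = EC.Reduction.res V ((tateCurve b c).toAffine.negY x y) := by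
    rw [← sub_eq_zero, ← EC.Reduction.res_sub hy hneg]
    refine EC.Reduction.res_eq_zero ?_
    convert hV' _ hm using 1
    simp [Affine.negY, tateCurve]; ring
  have h := hr.sub_mem_E1 iP (hr.inE0_of_Δ_ne_zero hΔ (-P)) ?_
  · rwa [sub_neg_eq_add] at h
  rw [(hr.neg_spec iP).2, eP, EC.Reduction.redFun_some hP (hV _ hx) nP,
    Affine.Point.neg_some]
  exact EC.Reduction.some_eq_some _ _ rfl (h0.trans hres)

/-- A point whose `q`-th multiple is a nonzero point of order prime to `q` is finite. -/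
lemma fin_of_nsmul {P : (tateCurve b c).toAffine.Point} {n q : ℕ} (hn : IsUnit (n : F.O))
    (hq : q ≠ 0) (hP : n • q • P = 0) (hP0 : q • P ≠ 0) : F.Fin P := by
  have hn0 : n ≠ 0 := by rintro rfl; simp at hn
  have hf := F.fin_of_unit hn hP hP0
  refine (F.fin_or_inf (mul_ne_zero hn0 hq) (by rw [mul_nsmul']; exact hP)
    (fun h => hP0 (by rw [h, nsmul_zero]))).resolve_right fun h => ?_
  obtain ⟨V, hV, hV'⟩ := F.exists_valuationSubring
  obtain ⟨V', hr, -⟩ := F.exists_reducesTo hV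
  classical
  exact hf.not_inE1 hV (AddSubgroup.nsmul_mem hr.E1 (h.inE1 hV hV') q)

/-- Nonzero multiples of an infinite torsion point are infinite. -/
lemma Inf.nsmul {F : GoodFibre b c} {P : (tateCurve b c).toAffine.Point} {N : ℕ} (hN : N ≠ 0)
    (hP : F.Inf P) (hP' : N • P = 0) (k : ℕ) (hk : k • P ≠ 0) : F.Inf (k • P) := by
  refine (F.fin_or_inf hN (by rw [← mul_nsmul', mul_comm, mul_nsmul', hP', nsmul_zero])
    hk).resolve_left fun h => ?_
  obtain ⟨V, hV, hV'⟩ := F.exists_valuationSubring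
  obtain ⟨V', hr, -⟩ := F.exists_reducesTo hV
  classical
  exact h.not_inE1 hV (AddSubgroup.nsmul_mem hr.E1 (hP.inE1 hV hV') k)

end GoodFibre

end Fermat.Agent.Carayol
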