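import Fermat.Agent.Carayol.Base
import Mathlib.RingTheory.Jacobson.Ring
import Mathlib.RingTheory.IntegralClosure.GoingDown
import Mathlib.RingTheory.Polynomial.Ideal
import Mathlib.RingTheory.Ideal.GoingUp
import Mathlib.RingTheory.Ideal.GoingDown

/-!
# Primes of the integral model above `q`
-/

set_option autoImplicit false

namespace Fermat.Agent.Carayol

open IsLocalRing Polynomial

variable {K Ω : Type*} [Field K] [Field Ω] [Algebra K Ω] [DecidableEq Ω]

namespace TateLevel

variable (L : TateLevel K Ω) (U : UnramBase K L.frame.q)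

/-- The structure map of the base. -/
noncomputable def baseHom : U.W →+* L.modelRing U :=
  ((algebraMap K Ω).comp U.W.subtype).codRestrict (L.modelRing U)
    fun w => L.W0_le U (L.mem_W0 U w)

/-- The invariant in the model. -/
def jModel : L.modelRing U := ⟨L.j, L.lineRing_le U (L.j_mem_lineRing U)⟩

/-- Polynomials in `j` in the model. -/
noncomputable def polyHom : U.W[X] →+* L.modelRing U := eval₂RingHom (L.baseHom U) (L.jModel U)

lemma polyHom_eq : L.polyHom U
    = (algebraMap (L.lineRing U) (L.modelRing U)).comp (L.polyEquiv U).toRingHom := by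
  refine Polynomial.ringHom_ext (fun w => ?_) ?_ <;> apply Subtype.ext <;>
    show _ = (((L.polyEquiv U) _ : L.lineRing U) : Ω)
  · rw [coe_polyEquiv]; simp [polyHom, baseHom, evalJ]
  · rw [coe_polyEquiv]; simp [polyHom, jModel, evalJ]

lemma polyHom_isIntegral : (L.polyHom U).IsIntegral := by
  rw [polyHom_eq]
  exact RingHom.IsIntegral.trans _ _
    (RingHom.isIntegral_of_surjective _ (L.polyEquiv U).surjective) Algebra.IsIntegral.isIntegral

variable {L U}

lemma baseHom_natCast (n : ℕ) : L.baseHom U n = n := map_natCast _ n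

lemma baseHom_mem_of_mem_maximal {𝔭 : Ideal (L.modelRing U)}
    (hq : (L.frame.q : L.modelRing U) ∈ 𝔭) {w : U.W} (hw : w ∈ maximalIdeal U.W) :
    L.baseHom U w ∈ 𝔭 := by
  rw [U.max_eq, Ideal.mem_span_singleton] at hw
  obtain ⟨v, rfl⟩ := hw
  rw [map_mul, baseHom_natCast]
  exact 𝔭.mul_mem_right _ hq

lemma ker_residue_le_comap {𝔭 : Ideal (L.modelRing U)}
    (hq : (L.frame.q : L.modelRing U) ∈ 𝔭) :
    RingHom.ker (mapRingHom (residue U.W)) ≤ 𝔭.comap (L.polyHom U) := by
  intro p hp
  rw [RingHom.mem_ker, coe_mapRingHom] at hp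
  rw [Ideal.mem_comap, polyHom, coe_eval₂RingHom, eval₂_eq_sum_range]
  refine 𝔭.sum_mem fun i _ => 𝔭.mul_mem_right _ (baseHom_mem_of_mem_maximal hq ?_)
  rw [← residue_eq_zero_iff, ← coeff_map, hp, coeff_zero]

lemma mapRingHom_residue_surjective :
    Function.Surjective (mapRingHom (residue U.W)) :=
  Polynomial.map_surjective _ residue_surjective

/-- At a maximal ideal above `q` the invariant is congruent to a constant. -/
lemma exists_j_sub_mem (x : Ideal (L.modelRing U)) [x.IsMaximal]
    (hq : (L.frame.q : L.modelRing U) ∈ x) : ∃ w : U.W, L.jModel U - L.baseHom U w ∈ x := by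
  have := U.residue
  set m := x.comap (L.polyHom U)
  have : m.IsMaximal :=
    Ideal.isMaximal_comap_of_isIntegral_of_isMaximal' _ (L.polyHom_isIntegral U) x
  rcases Ideal.map_eq_top_or_isMaximal_of_surjective _ (mapRingHom_residue_surjective (L := L)
    (U := U)) (‹m.IsMaximal›) with h | h
  · exfalso
    have : m = ⊤ := by
      have e := Ideal.comap_map_of_surjective _ (mapRingHom_residue_surjective (L := L) (U := U)) m
      rw [h, Ideal.comap_top, ← RingHom.ker_eq_comap_bot,
        sup_eq_left.2 (ker_residue_le_comap hq)] at e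
      exact e.symm
    exact ‹m.IsMaximal›.ne_top this
  obtain ⟨g, hg⟩ := (IsPrincipalIdealRing.principal (m.map (mapRingHom (residue U.W)))).1
  rw [← Ideal.span] at hg
  have hg0 : g ≠ 0 := by
    rintro rfl
    rw [Ideal.span_singleton_zero] at hg
    have := h.isPrime
    rw [hg] at h
    exact Polynomial.not_isField _ (Ring.isField_iff_maximal_bot.2 h)
  have hirr : Irreducible g :=
    ((Ideal.span_singleton_prime hg0).1 (hg ▸ h.isPrime)).irreducible
  obtain ⟨a, ha⟩ := IsAlgClosed.exists_root g (degree_pos_of_irreducible hirr).ne'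
  obtain ⟨w, rfl⟩ := residue_surjective a
  refine ⟨w, ?_⟩
  have hassoc : Associated (X - C (residue U.W w)) g :=
    (irreducible_X_sub_C _).associated_of_dvd hirr (dvd_iff_isRoot.2 ha)
  have hmem : mapRingHom (residue U.W) (X - C w) ∈ m.map (mapRingHom (residue U.W)) := by
    rw [hg, coe_mapRingHom, Polynomial.map_sub, map_X, map_C, Ideal.mem_span_singleton]
    exact hassoc.symm.dvd
  obtain ⟨p, hp, e⟩ := (Ideal.mem_map_iff_of_surjective _
    (mapRingHom_residue_surjective (L := L) (U := U))).1 hmem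
  have : X - C w ∈ m := by
    have hk : X - C w - p ∈ RingHom.ker (mapRingHom (residue U.W)) := by
      rw [RingHom.mem_ker, map_sub, e, sub_self]
    have := m.add_mem (ker_residue_le_comap hq hk) hp
    rwa [sub_add_cancel] at this
  rw [Ideal.mem_comap, map_sub] at this
  simpa [polyHom] using this

/-- The residue field at a maximal ideal above `q` is the residue field of the base. -/
theorem exists_sub_mem (x : Ideal (L.modelRing U)) [x.IsMaximal]
    (hq : (L.frame.q : L.modelRing U) ∈ x) (a : L.modelRing U) :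
    ∃ w : U.W, a - L.baseHom U w ∈ x := by
  have := U.residue
  obtain ⟨w0, hw0⟩ := exists_j_sub_mem x hq
  set mk := Ideal.Quotient.mk x
  let φ : ResidueField U.W →+* L.modelRing U ⧸ x :=
    Ideal.Quotient.lift (maximalIdeal U.W) (mk.comp (L.baseHom U)) fun w hw =>
      Ideal.Quotient.eq_zero_iff_mem.2 (baseHom_mem_of_mem_maximal hq hw)
  obtain ⟨p, hp, hpa⟩ := L.polyHom_isIntegral U a
  set p' : (ResidueField U.W)[X] :=
    p.map ((residue U.W).comp (evalRingHom w0)) with hp'
  have : IsDomain (L.modelRing U ⧸ x) :=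
    Ideal.Quotient.isDomain_iff_prime _ |>.2 (Ideal.IsMaximal.isPrime ‹_›)
  have hev : eval₂ φ (mk a) p' = 0 := by
    rw [hp', eval₂_map, show φ.comp ((residue U.W).comp (evalRingHom w0))
      = mk.comp (L.polyHom U) from ?_, ← hom_eval₂, hpa, map_zero]
    refine Polynomial.ringHom_ext (fun w => ?_) ?_
    · simp only [RingHom.comp_apply, coe_evalRingHom, eval_C, polyHom, coe_eval₂RingHom, eval₂_C]
      rfl
    · simp only [RingHom.comp_apply, coe_evalRingHom, eval_X, polyHom, coe_eval₂RingHom, eval₂_X]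
      exact (Ideal.Quotient.eq.2 hw0).symm
  have hm : p'.Monic := hp.map _
  rw [← eval_map, (IsAlgClosed.splits p').eq_prod_roots_of_monic hm, Polynomial.map_multiset_prod,
    eval_multiset_prod, Multiset.prod_eq_zero_iff] at hev
  simp only [Multiset.map_map, Multiset.mem_map, Function.comp_apply, Polynomial.map_sub, map_X,
    map_C, eval_sub, eval_X, eval_C, sub_eq_zero] at hev
  obtain ⟨r, -, hr⟩ := hev
  obtain ⟨w, rfl⟩ := residue_surjective r
  exact ⟨w, Ideal.Quotient.eq.1 hr⟩

/-- Below a maximal ideal above `q` lies a prime through which `j` stays transcendental. -/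
theorem exists_vertical (x : Ideal (L.modelRing U)) [x.IsMaximal]
    (hq : (L.frame.q : L.modelRing U) ∈ x) :
    ∃ (𝔭 : Ideal (L.modelRing U)) (w : U.W), 𝔭.IsPrime ∧ 𝔭 ≤ x ∧
      (L.frame.q : L.modelRing U) ∈ 𝔭 ∧ L.jModel U - L.baseHom U w ∈ x ∧
      L.jModel U - L.baseHom U w ∉ 𝔭 := by
  obtain ⟨w, hw⟩ := exists_j_sub_mem x hq
  set e := L.polyEquiv U
  set 𝔮 : Ideal (L.lineRing U) :=
    (RingHom.ker (mapRingHom (residue U.W))).comap e.symm.toRingHom
  have : (RingHom.ker (mapRingHom (residue U.W))).IsPrime := RingHom.ker_isPrime _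
  have : 𝔮.IsPrime := Ideal.IsPrime.comap _
  have := Ideal.IsMaximal.isPrime ‹x.IsMaximal›
  have : FaithfulSMul (L.lineRing U) (L.modelRing U) :=
    (faithfulSMul_iff_algebraMap_injective _ _).2 fun a b h =>
      Subtype.ext (congrArg (fun z : L.modelRing U => (z : Ω)) h :)
  have hle : 𝔮 ≤ x.under (L.lineRing U) := by
    intro z hz
    have h := ker_residue_le_comap hq hz
    rw [Ideal.mem_comap, polyHom_eq] at h
    simp only [RingHom.comp_apply, RingEquiv.toRingHom_eq_coe, RingEquiv.coe_toRingHom, e,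
      RingEquiv.apply_symm_apply] at h
    exact h
  obtain ⟨𝔭, hp, hP, hover⟩ :=
    Ideal.exists_ideal_le_liesOver_of_le (p := 𝔮) (q := x.under (L.lineRing U)) x hle
  have hmem : ∀ p : U.W[X], L.polyHom U p ∈ 𝔭 ↔ p.map (residue U.W) = 0 := by
    intro p
    rw [polyHom_eq, RingHom.comp_apply]
    change e p ∈ 𝔭.under (L.lineRing U) ↔ _
    rw [← hover.over]
    simp [𝔮, e]
  refine ⟨𝔭, w, hP, hp, ?_, hw, fun h => ?_⟩
  · rw [← map_natCast (L.polyHom U), hmem, ← map_natCast (C : U.W →+* U.W[X]), map_C,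
      (residue_eq_zero_iff _).2 (U.max_eq ▸ Ideal.mem_span_singleton_self _), map_zero]
  · have h' : L.polyHom U (X - C w) ∈ 𝔭 := by simpa [polyHom] using h
    rw [hmem, Polynomial.map_sub, map_X, map_C] at h'
    exact X_sub_C_ne_zero _ h'

/-- A prime above `q` is the intersection of the maximal ideals containing it. -/
theorem mem_of_forall_maximal {P : Ideal (L.modelRing U)} [P.IsPrime]
    (hq : (L.frame.q : L.modelRing U) ∈ P) {a : L.modelRing U}
    (ha : ∀ x : Ideal (L.modelRing U), x.IsMaximal → P ≤ x → a ∈ x) : a ∈ P := by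
  let f := (Ideal.Quotient.mk P).comp (L.polyHom U)
  have hf : RingHom.ker (mapRingHom (residue U.W)) ≤ RingHom.ker f := fun p hp => by
    rw [RingHom.mem_ker]
    exact Ideal.Quotient.eq_zero_iff_mem.2 (ker_residue_le_comap hq hp)
  let f' : (ResidueField U.W)[X] →+* L.modelRing U ⧸ P :=
    (mapRingHom (residue U.W)).liftOfSurjective (mapRingHom_residue_surjective (L := L) (U := U))
      ⟨f, hf⟩
  have hf' : f'.IsIntegral := by
    refine RingHom.IsIntegral.tower_top (mapRingHom (residue U.W)) f' ?_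
    rw [RingHom.liftOfRightInverse_comp]
    exact RingHom.IsIntegral.trans _ _ (L.polyHom_isIntegral U)
      (RingHom.isIntegral_of_surjective _ Ideal.Quotient.mk_surjective)
  let := f'.toAlgebra
  have : Algebra.IsIntegral (ResidueField U.W)[X] (L.modelRing U ⧸ P) := ⟨hf'⟩
  have : IsJacobsonRing (L.modelRing U ⧸ P) :=
    isJacobsonRing_of_isIntegral (R := (ResidueField U.W)[X])
  have h0 : (⊥ : Ideal (L.modelRing U ⧸ P)).jacobson = ⊥ :=
    IsJacobsonRing.out' _ (Ideal.isPrime_bot.isRadical)
  rw [← Ideal.Quotient.eq_zero_iff_mem, ← Ideal.mem_bot, ← h0, Ideal.jacobson, Ideal.mem_sInf]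
  rintro M ⟨-, hM⟩
  have := Ideal.comap_isMaximal_of_surjective (Ideal.Quotient.mk P) Ideal.Quotient.mk_surjective
    (K := M)
  refine ha (M.comap (Ideal.Quotient.mk P)) inferInstance ?_
  intro z hz
  rw [Ideal.mem_comap, Ideal.Quotient.eq_zero_iff_mem.2 hz]
  exact M.zero_mem

end TateLevel

end Fermat.Agent.Carayol
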