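import Fermat.Agent.Carayol.Primes
import Fermat.Agent.Carayol.Param
import Fermat.Agent.Carayol.Fixing

/-!
# The special fibre of the integral model

At every closed point above `q` the local ring is factorial, and every prime above `q` is fixed by
the elements of `GL₂(𝔽_q)` congruent to one modulo a line.
-/

set_option autoImplicit false

namespace Fermat.Agent.Carayol

open WeierstrassCurve IsLocalRing Matrix

variable {K Ω : Type*} [Field K] [Field Ω] [Algebra K Ω] [DecidableEq Ω]

namespace TateLevel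

variable {L : TateLevel K Ω} {U : UnramBase K L.frame.q}

lemma isUnit_natCast {m : ℕ} (hm : m.Coprime L.frame.q) : IsUnit (m : U.W) := by
  by_contra h
  have h1 : (m : U.W) ∈ maximalIdeal U.W := h
  obtain ⟨a, b, e⟩ := Int.isCoprime_iff_gcd_eq_one.2
    (show Int.gcd m L.frame.q = 1 by rwa [Int.gcd_natCast_natCast])
  have hq : (L.frame.q : U.W) ∈ maximalIdeal U.W := U.max_eq ▸ Ideal.mem_span_singleton_self _
  have := (maximalIdeal U.W).add_mem (Ideal.mul_mem_left _ (a : U.W) h1)
    (Ideal.mul_mem_left _ (b : U.W) hq)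
  have e' := congrArg (fun z : ℤ => (z : U.W)) e
  push_cast at e'
  rw [e'] at this
  exact (maximalIdeal.isMaximal U.W).ne_top ((Ideal.eq_top_iff_one _).2 this)

lemma isUnit_orderR :
    IsUnit ((addOrderOf (tatePt (c := L.c) L.frame.hb) : ℕ) : L.modelRing U) := by
  rw [← baseHom_natCast (L := L) (U := U)]
  exact (isUnit_natCast (L.frame.hnq.coprime_dvd_left
    (addOrderOf_dvd_iff_nsmul_eq_zero.2 L.frame.nR))).map _

variable (L U) in
lemma units : ∃ (hb : L.b ∈ L.modelRing U) (hc : L.c ∈ L.modelRing U),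
    IsUnit (⟨L.b, hb⟩ : L.modelRing U) ∧ IsUnit (⟨L.c, hc⟩ : L.modelRing U) ∧
      IsUnit ((⟨L.b, hb⟩ : L.modelRing U) - ⟨L.c, hc⟩) ∧
      IsUnit (tateCurve (⟨L.b, hb⟩ : L.modelRing U) ⟨L.c, hc⟩).Δ :=
  param_units L.frame.hb L.orderR L.j_eq (L.modelRing U) (L.lineRing_le U (L.j_mem_lineRing U))
    (fun _ hz => L.mem_modelRing_of_isIntegral U hz) isUnit_orderR

variable (P : Ideal (L.modelRing U)) [P.IsPrime]

/-- The local ring at a prime, as a subring of `Ω`. -/
noncomputable def localRing : Subring Ω := (LocalSubring.ofPrime (L.modelRing U) P).toSubring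

instance : IsLocalRing (localRing P) := (LocalSubring.ofPrime (L.modelRing U) P).isLocalRing

noncomputable instance : Algebra (L.modelRing U) (localRing P) :=
  inferInstanceAs (Algebra (L.modelRing U) (LocalSubring.ofPrime (L.modelRing U) P).toSubring)

instance : IsLocalization.AtPrime (localRing P) P :=
  inferInstanceAs
    (IsLocalization.AtPrime (LocalSubring.ofPrime (L.modelRing U) P).toSubring P)

instance : IsIntegrallyClosed (localRing P) :=
  isIntegrallyClosed_of_isLocalization _ P.primeCompl P.primeCompl_le_nonZeroDivisors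

lemma le_localRing : L.modelRing U ≤ localRing P := LocalSubring.le_ofPrime _ _

lemma coe_algebraMap_localRing (a : L.modelRing U) :
    ((algebraMap (L.modelRing U) (localRing P) a : localRing P) : Ω) = a := rfl

lemma inMax_localRing {a : L.modelRing U} : InMax (localRing P) (a : Ω) ↔ a ∈ P := by
  rw [← coe_algebraMap_localRing P a, inMax_coe]
  exact IsLocalization.AtPrime.to_map_mem_maximal_iff (localRing P) P a

lemma mem_localRing {z : Ω} :
    z ∈ localRing P ↔ ∃ a d : L.modelRing U, d ∉ P ∧ z * d = a := by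
  constructor
  · intro hz
    obtain ⟨⟨a, d⟩, he⟩ := IsLocalization.surj P.primeCompl (⟨z, hz⟩ : localRing P)
    exact ⟨a, d.1, d.2, congrArg Subtype.val he⟩
  · rintro ⟨a, d, hd, e⟩
    obtain ⟨h0, hi, -⟩ := inv_mem_of_not_inMax (le_localRing P d.2)
      (fun h => hd ((inMax_localRing P).1 h))
    rw [show z = (a : Ω) * (d : Ω)⁻¹ by rw [← e, mul_assoc, mul_inv_cancel₀ h0, mul_one]]
    exact mul_mem (le_localRing P a.2) hi

instance : IsFractionRing (localRing P) Ω := by
  have : FaithfulSMul (localRing P) Ω :=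
    (faithfulSMul_iff_algebraMap_injective _ _).2 Subtype.val_injective
  refine IsFractionRing.of_field _ _ fun z => ?_
  obtain ⟨a, d, -, e⟩ := IsFractionRing.div_surjective (L.modelRing U) z
  exact ⟨⟨a, le_localRing P a.2⟩, ⟨d, le_localRing P d.2⟩, e.symm⟩

lemma infinite_residue (hq : (L.frame.q : L.modelRing U) ∈ P) :
    Infinite (ResidueField (localRing P)) := by
  have := U.residue
  let f : U.W →+* ResidueField (localRing P) :=
    (residue _).comp ((algebraMap (L.modelRing U) (localRing P)).comp (L.baseHom U))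
  let f' : ResidueField U.W →+* ResidueField (localRing P) :=
    Ideal.Quotient.lift (maximalIdeal U.W) f fun w hw => by
      simp only [f, RingHom.comp_apply]
      rw [residue_eq_zero_iff, IsLocalization.AtPrime.to_map_mem_maximal_iff (localRing P) P]
      exact baseHom_mem_of_mem_maximal hq hw
  exact Infinite.of_injective f' f'.injective

/-- The fibre at a prime above `q`. -/
noncomputable def fibre (hq : (L.frame.q : L.modelRing U) ∈ P) : GoodFibre L.b L.c where
  O := localRing P
  isLocal := inferInstance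
  isFrac := inferInstance
  isNormal := inferInstance
  infinite := infinite_residue P hq
  b_mem := le_localRing P (units L U).choose
  c_mem := le_localRing P (units L U).choose_spec.choose
  isUnit_Δ := by
    obtain ⟨-, -, -, h⟩ := (units L U).choose_spec.choose_spec
    have := h.map (algebraMap (L.modelRing U) (localRing P))
    rwa [← WeierstrassCurve.map_Δ, tateCurve_map] at this

lemma isOver (hq : (L.frame.q : L.modelRing U) ∈ P) : L.frame.IsOver (fibre P hq) := by
  refine ⟨?_, ?_⟩
  · show InMax (localRing P) _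
    rw [← map_natCast (L.modelRing U).subtype L.frame.q]
    exact (inMax_localRing P).2 hq
  · have := ((isUnit_natCast (U := U) L.frame.hnq).map (L.baseHom U)).map
      (algebraMap (L.modelRing U) (localRing P))
    rwa [map_natCast, map_natCast] at this

lemma not_inMax_units :
    ¬ InMax (localRing P) L.b ∧ ¬ InMax (localRing P) L.c ∧
      ¬ InMax (localRing P) (L.b - L.c) := by
  obtain ⟨hb, hc, u1, u2, u3, -⟩ := units L U
  have key : ∀ a : L.modelRing U, IsUnit a → ¬ InMax (localRing P) (a : Ω) := fun a ha h =>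
    Ideal.IsPrime.ne_top ‹_› (P.eq_top_of_isUnit_mem ((inMax_localRing P).1 h) ha)
  exact ⟨key _ u1, key _ u2, key _ u3⟩

variable (x : Ideal (L.modelRing U)) [x.IsMaximal]

/-- The hypotheses of the local study hold at closed points above `q`. -/
lemma overClosed (hq : (L.frame.q : L.modelRing U) ∈ x) :
    Over L.frame (fibre x hq) (L.W0 U) L.j where
  isOver := isOver x hq
  le := (L.W0_le U).trans (le_localRing x)
  noeth :=
    isNoetherianRing_of_ringEquiv _
      (U.W.equivMapOfInjective (algebraMap K Ω) (algebraMap K Ω).injective)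
  res := fun a ha => by
    obtain ⟨r, d, hd, e⟩ := (mem_localRing x).1 ha
    obtain ⟨wr, hr⟩ := exists_sub_mem x hq r
    obtain ⟨wd, hd'⟩ := exists_sub_mem x hq d
    have hwd : IsUnit wd := by
      by_contra h
      refine hd ?_
      have := x.add_mem hd' (baseHom_mem_of_mem_maximal hq (h : wd ∈ maximalIdeal U.W))
      rwa [sub_add_cancel] at this
    obtain ⟨v, hv⟩ := hwd.exists_left_inv
    refine ⟨_, L.mem_W0 U (v * wr), ?_⟩
    show InMax (localRing x) _
    have hdm : ¬ InMax (localRing x) (d : Ω) := fun h => hd ((inMax_localRing x).1 h)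
    obtain ⟨h0, hi, -⟩ := inv_mem_of_not_inMax (le_localRing x d.2) hdm
    have hm : InMax (localRing x) ((r - L.baseHom U (v * wr) * d : L.modelRing U) : Ω) := by
      refine (inMax_localRing x).2 ?_
      rw [show r - L.baseHom U (v * wr) * d = (r - L.baseHom U wr)
        - L.baseHom U (v * wr) * (d - L.baseHom U wd) by
          rw [mul_sub, ← map_mul,
            show v * wr * wd = wr by linear_combination wr * hv]
          ring]
      exact x.sub_mem hr (x.mul_mem_left _ hd')
    have := hm.mul_right hi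
    have ec : ((r - L.baseHom U (v * wr) * d : L.modelRing U) : Ω) * (d : Ω)⁻¹
        = a - algebraMap K Ω ((v * wr : U.W) : K) := by
      push_cast
      rw [← e, sub_mul, mul_assoc, mul_assoc, mul_inv_cancel₀ h0, mul_one, mul_one]
      simp [baseHom]
    rwa [ec] at this
  unit := by
    rintro _ ⟨w, hw, rfl⟩ hwm
    have hu : IsUnit (⟨w, hw⟩ : U.W) := by
      by_contra h
      exact hwm ((inMax_localRing x).2
        (baseHom_mem_of_mem_maximal hq (h : (⟨w, hw⟩ : U.W) ∈ maximalIdeal U.W)))
    obtain ⟨v, hv⟩ := hu.exists_left_inv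
    refine ⟨v, v.2, ?_⟩
    rw [eq_comm, inv_eq_of_mul_eq_one_left]
    rw [← map_mul]
    exact (congrArg (algebraMap K Ω) (congrArg Subtype.val hv :)).trans (map_one _)
  max := by
    rintro _ ⟨w, hw, rfl⟩ hwm
    have hnu : (⟨w, hw⟩ : U.W) ∈ maximalIdeal U.W := fun hu =>
      (Ideal.IsMaximal.ne_top ‹x.IsMaximal›) (x.eq_top_of_isUnit_mem
        ((inMax_localRing x).1 (show InMax (localRing x)
          ((L.baseHom U ⟨w, hw⟩ : L.modelRing U) : Ω) from hwm)) (hu.map _))
    rw [U.max_eq, Ideal.mem_span_singleton] at hnu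
    obtain ⟨v, hv⟩ := hnu
    refine ⟨_, L.mem_W0 U v, ?_⟩
    have := congrArg (fun z : U.W => algebraMap K Ω z) hv
    simpa using this
  j_eq := L.j_eq
  units := not_inMax_units x
  vert := by
    obtain ⟨𝔭, w, hP, hle, hq𝔭, hwx, hw𝔭⟩ := exists_vertical x hq
    have hdisj : Disjoint (x.primeCompl : Set (L.modelRing U)) (𝔭 : Set (L.modelRing U)) :=
      Set.disjoint_left.2 fun a ha ha' => ha (hle ha')
    set ι := algebraMap (L.modelRing U) (localRing x)
    refine ⟨𝔭.map ι, ι (L.jModel U - L.baseHom U w), ?_, fun h => ?_, ?_, ?_, ?_⟩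
    · exact IsLocalization.isPrime_of_isPrime_disjoint x.primeCompl (localRing x) 𝔭 hP hdisj
    · have := Ideal.mem_map_of_mem ι hq𝔭
      rw [map_natCast] at this
      have e : ((L.frame.q : localRing x)) = ⟨(L.frame.q : Ω), h⟩ :=
        Subtype.ext (map_natCast (localRing x).subtype L.frame.q)
      rw [e] at this
      exact this
    · exact (IsLocalization.AtPrime.to_map_mem_maximal_iff (localRing x) x _).2 hwx
    · intro h
      have := IsLocalization.under_map_of_isPrime_disjoint x.primeCompl (localRing x) hP hdisj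
      exact hw𝔭 (this ▸ (Ideal.mem_comap.2 h : _ ∈ (𝔭.map ι).comap ι))
    · exact sub_mem (Subring.subset_closure (Or.inr rfl))
        (Subring.subset_closure (Or.inl (L.mem_W0 U w)))
  int := fun a ha => by
    obtain ⟨r, d, hd, e⟩ := (mem_localRing x).1 ha
    exact ⟨r, d, r.2, d.2, le_localRing x d.2, fun h => hd ((inMax_localRing x).1 h), e⟩
  gen := fun S hW hj hP => by
    have hK : ∀ k : K, algebraMap K Ω k ∈ S := fun k => by
      obtain ⟨a, d, -, e⟩ := IsFractionRing.div_surjective U.W k
      rw [← e, map_div₀]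
      exact div_mem (hW (L.mem_W0 U a)) (hW (L.mem_W0 U d))
    refine eq_top_iff.2 fun z _ => ?_
    have hz : z ∈ (⊤ : IntermediateField K Ω) := IntermediateField.mem_top
    rw [← L.generate] at hz
    refine (IntermediateField.adjoin_le_iff (T := S.toIntermediateField hK)).2 ?_ hz
    refine Set.union_subset (Set.singleton_subset_iff.2 hj) (Set.iUnion₂_subset fun P hP' => ?_)
    exact hP P hP'

/-- The local rings at closed points above `q` are factorial. -/
theorem ufd_localRing (hq : (L.frame.q : L.modelRing U) ∈ x) :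
    UniqueFactorizationMonoid (localRing x) := by
  obtain ⟨v, hv, hinf⟩ := TorsFrame.exists_inf (isOver x hq)
  exact KerData.ufd_O ⟨overClosed x hq, v, hv, hinf⟩

omit x in
lemma isConj_act (g : GL (Fin 2) (ZMod L.frame.Q)) (v : Fin 2 → ZMod L.frame.Q) :
    IsConj (L.act g).toRingEquiv (L.frame.qTors v)
      (L.frame.qTors ((g : Matrix (Fin 2) (Fin 2) (ZMod L.frame.Q)) *ᵥ v)) := by
  rcases h : L.frame.qTors v with _ | ⟨x, y, hn⟩
  · show L.frame.qTors _ = 0
    have : v = 0 := L.frame.qTors_injective (h.trans L.frame.qTors.map_zero.symm)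
    rw [this, Matrix.mulVec_zero, map_zero]
  · exact L.act_qTors g v x y hn h

omit x in
lemma act_b_c (g : GL (Fin 2) (ZMod L.frame.Q)) : L.act g L.b = L.b ∧ L.act g L.c = L.c := by
  have hn : ∀ k : ℕ, L.frame.n • (k • tatePt (c := L.c) L.frame.hb) = 0 := fun k => by
    rw [← mul_nsmul', mul_comm, mul_nsmul', L.frame.nR, nsmul_zero]
  obtain ⟨h2, e2⟩ := two_nsmul_tatePt (c := L.c) L.frame.hb
  obtain ⟨h3, e3⟩ := three_nsmul_tatePt (c := L.c) L.frame.hb
  exact ⟨L.act_fix g _ (hn 2) L.b (by rw [e2]; exact Or.inl rfl),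
    L.act_fix g _ (hn 3) L.c (by rw [e3]; exact Or.inl rfl)⟩

omit x in
/-- For every prime above `q` there is a line such that the elements congruent to one modulo it
stabilise every closed point above the prime. -/
theorem exists_line (hq : (L.frame.q : L.modelRing U) ∈ P) :
    ∃ v : Fin 2 → ZMod L.frame.Q, (∃ i, IsUnit (v i)) ∧ ∀ g : GL (Fin 2) (ZMod L.frame.Q),
      (∀ w, ∃ k : ZMod L.frame.Q,
        (g : Matrix (Fin 2) (Fin 2) (ZMod L.frame.Q)) *ᵥ w - w = k • v) →
      ∀ x : Ideal (L.modelRing U), x.IsMaximal → P ≤ x → ∀ z : L.modelRing U, z ∈ x →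
        ∀ hz : L.act g z ∈ L.modelRing U, (⟨L.act g z, hz⟩ : L.modelRing U) ∈ x := by
  obtain ⟨v, hv, hinf⟩ := TorsFrame.exists_inf (isOver P hq)
  refine ⟨v, hv, fun g hg x hx hPx ⟨z, hzR⟩ hzP' hgz => ?_⟩
  have hqx : (L.frame.q : L.modelRing U) ∈ x := hPx hq
  have hinfx : (fibre x hqx).Inf (L.frame.qTors v) := by
    refine ((fibre x hqx).fin_or_inf L.frame.Q_ne_zero (L.frame.nsmul_qTors v)
      hinf.ne_zero).resolve_left ?_
    rintro ⟨a, b, h, e, ha, hb⟩
    have hle : localRing x ≤ localRing P := fun y hy => by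
      obtain ⟨r, d, hd, e⟩ := (mem_localRing x).1 hy
      exact (mem_localRing P).2 ⟨r, d, fun h => hd (hPx h), e⟩
    exact (fibre P hq).not_fin_inf ⟨a, b, h, e, hle ha, hle hb⟩ hinf
  let D : KerData L.frame (fibre x hqx) (L.W0 U) L.j := ⟨overClosed x hqx, v, hv, hinfx⟩
  have hmap : ∀ h : GL (Fin 2) (ZMod L.frame.Q),
      (∀ w, ∃ k : ZMod L.frame.Q,
        (h : Matrix (Fin 2) (Fin 2) (ZMod L.frame.Q)) *ᵥ w - w = k • v) →
      ∀ y ∈ localRing x, L.act h y ∈ localRing x := by
    intro h hh y hy
    refine D.map_mem_O (L.act h).toRingEquiv ?_ (act_b_c h).1 (act_b_c h).2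
      (fun w => (h : Matrix (Fin 2) (Fin 2) (ZMod L.frame.Q)) *ᵥ w) ?_ (isConj_act h) ?_ hy
    · rintro _ ⟨w, -, rfl⟩
      exact (L.act h).commutes w
    · intro a ha
      rcases a with _ | ⟨xa, ya, hn⟩
      · rfl
      · exact exists_some_eq rfl (L.act_fix h _ ha xa (Or.inl rfl)).symm
          (L.act_fix h _ ha ya (Or.inr rfl)).symm
    · intro w
      obtain ⟨k, hk⟩ := hh w
      refine ⟨k.val, ?_⟩
      rw [show k.val • v = k • v by funext r; simp [nsmul_eq_mul], ← hk, add_sub_cancel]
  have hginv : ∀ w, ∃ k : ZMod L.frame.Q,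
      ((g⁻¹ : GL (Fin 2) (ZMod L.frame.Q)) : Matrix (Fin 2) (Fin 2) (ZMod L.frame.Q)) *ᵥ w - w
        = k • v := by
    intro w
    obtain ⟨k, hk⟩ := hg (((g⁻¹ : GL (Fin 2) (ZMod L.frame.Q)) :
      Matrix (Fin 2) (Fin 2) (ZMod L.frame.Q)) *ᵥ w)
    rw [Matrix.mulVec_mulVec, ← Units.val_mul, mul_inv_cancel, Units.val_one,
      Matrix.one_mulVec] at hk
    exact ⟨-k, by rw [neg_smul, ← hk, neg_sub]⟩
  by_contra hnx
  obtain ⟨h0, hi, -⟩ := inv_mem_of_not_inMax (le_localRing x hgz)
    (fun h => hnx ((inMax_localRing (L := L) (U := U) x (a := ⟨_, hgz⟩)).1 h))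
  have h1 := hmap g⁻¹ hginv _ hi
  rw [map_inv₀, show L.act g⁻¹ (L.act g z) = z by
    rw [← AlgEquiv.mul_apply, ← map_mul, inv_mul_cancel, map_one]; rfl] at h1
  have hz0 : z ≠ 0 := fun e => h0 (by subst e; exact map_zero _)
  exact not_inMax_one (O := localRing x)
    (by simpa [hz0] using ((inMax_localRing x).2 hzP').mul_left h1)

end TateLevel

end Fermat.Agent.Carayol
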